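/-
S55lib / LocalH / Approx (helper6).
Successive approximation in an `I`-adically complete ring: if `W 0 ⊇ W 1 ⊇ …` are subgroups of
`Rˣ` with `W k ⊆ 1 + I^(k+1)`, `W 0` closed, `Φ` a continuous endomorphism of `Rˣ`, `T` a subgroup
and every `u ∈ T ∩ W k` is `Φ y · u'` with `y ∈ W k`, `u' ∈ T ∩ W (k+1)`, then
`T ∩ W 0 ⊆ Φ (W 0)`.
-/
import Mathlib

set_option autoImplicit false
set_option linter.unusedSectionVars false

namespace Fermat.Agent.S55lib.LocalH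

variable {R : Type*} [CommRing R] (I : Ideal R)

theorem smodEq_pow_iff {n : ℕ} {x y : R} :
    x ≡ y [SMOD (I ^ n • ⊤ : Submodule R R)] ↔ x - y ∈ I ^ n := by
  rw [SModEq.sub_mem, smul_eq_mul, Ideal.mul_top]

variable [IsAdicComplete I R]

/-- the sequence of approximants -/
private noncomputable def approxSeq (W : ℕ → Subgroup Rˣ) (Φ : Rˣ →* Rˣ) (T : Subgroup Rˣ)
    (happrox : ∀ k, ∀ u ∈ T ⊓ W k, ∃ y ∈ W k, u / Φ y ∈ T ⊓ W (k + 1))
    (u₀ : Rˣ) (h₀ : u₀ ∈ T ⊓ W 0) : (k : ℕ) → {u : Rˣ // u ∈ T ⊓ W k}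
  | 0 => ⟨u₀, h₀⟩
  | k + 1 =>
    let uk := approxSeq W Φ T happrox u₀ h₀ k
    ⟨uk.1 / Φ (happrox k uk.1 uk.2).choose, (happrox k uk.1 uk.2).choose_spec.2⟩

theorem exists_preimage_of_approx
    (hunit : ∀ x : R, x - 1 ∈ I → IsUnit x)
    (W : ℕ → Subgroup Rˣ) (hW : ∀ k, W (k + 1) ≤ W k)
    (hW1 : ∀ k, ∀ w ∈ W k, ((w : Rˣ) : R) - 1 ∈ I ^ (k + 1))
    (hclosed : ∀ z : Rˣ, (∀ k, ∃ w ∈ W 0, ((z : Rˣ) : R) - w ∈ I ^ k) → z ∈ W 0)
    (Φ : Rˣ →* Rˣ)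
    (hΦ : ∀ k (x y : Rˣ), (x : R) - y ∈ I ^ k → ((Φ x : Rˣ) : R) - Φ y ∈ I ^ k)
    (T : Subgroup Rˣ)
    (happrox : ∀ k, ∀ u ∈ T ⊓ W k, ∃ y ∈ W k, u / Φ y ∈ T ⊓ W (k + 1)) :
    ∀ u ∈ T ⊓ W 0, ∃ P ∈ W 0, Φ P = u := by
  intro u₀ h₀
  set us := approxSeq W Φ T happrox u₀ h₀ with hus
  set ys : ℕ → Rˣ := fun k => (happrox k (us k).1 (us k).2).choose with hys
  have hys_mem : ∀ k, ys k ∈ W k := fun k => (happrox k (us k).1 (us k).2).choose_spec.1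
  have hus_succ : ∀ k, (us (k + 1)).1 = (us k).1 / Φ (ys k) := fun k => rfl
  have hus_zero : (us 0).1 = u₀ := rfl
  have hWmono : ∀ k, W k ≤ W 0 := by
    intro k
    induction k with
    | zero => exact le_rfl
    | succ k ih => exact (hW k).trans ih
  set P : ℕ → Rˣ := fun k => ∏ i ∈ Finset.range k, ys i with hP
  have hP_succ : ∀ k, P (k + 1) = P k * ys k := fun k => Finset.prod_range_succ _ _
  have hP_mem : ∀ k, P k ∈ W 0 := fun k =>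
    Subgroup.prod_mem _ fun i _ => hWmono i (hys_mem i)
  have hΦP : ∀ k, Φ (P k) * (us k).1 = u₀ := by
    intro k
    induction k with
    | zero => simp [hP, hus_zero]
    | succ k ih =>
      rw [hP_succ, map_mul, hus_succ, ← ih]
      rw [mul_assoc, mul_div_cancel]
  -- Cauchy
  have hstep : ∀ k, ((P (k + 1) : Rˣ) : R) - P k ∈ I ^ (k + 1) := by
    intro k
    rw [hP_succ]
    have : ((P k * ys k : Rˣ) : R) - P k = (P k : R) * ((ys k : R) - 1) := by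
      rw [Units.val_mul]; ring
    rw [this]
    exact Ideal.mul_mem_left _ _ (hW1 k _ (hys_mem k))
  have hcauchy : ∀ m n, m ≤ n → ((P m : Rˣ) : R) - P n ∈ I ^ m := by
    intro m n hmn
    induction n, hmn using Nat.le_induction with
    | base => simp
    | succ n hmn ih =>
      have h1 : ((P m : Rˣ) : R) - P (n + 1) = ((P m : R) - P n) - ((P (n + 1) : R) - P n) := by ring
      rw [h1]
      refine Ideal.sub_mem _ ih ?_
      exact Ideal.pow_le_pow_right (by omega) (hstep n)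
  obtain ⟨P', hP'⟩ := IsPrecomplete.prec (I := I) (M := R) inferInstance
    (f := fun k => ((P k : Rˣ) : R))
    (fun {m n} hmn => (smodEq_pow_iff I).mpr (hcauchy m n hmn))
  have hP'k : ∀ k, ((P k : Rˣ) : R) - P' ∈ I ^ k := fun k => (smodEq_pow_iff I).mp (hP' k)
  -- `P'` is a unit
  have hP'1 : P' - 1 ∈ I := by
    have h1 : ((P 1 : Rˣ) : R) - P' ∈ I := by simpa using hP'k 1
    have h2 : ((P 1 : Rˣ) : R) - 1 ∈ I := by
      have : P 1 = ys 0 := by simp [hP]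
      rw [this]
      simpa using hW1 0 _ (hys_mem 0)
    have : P' - 1 = (((P 1 : Rˣ) : R) - 1) - (((P 1 : Rˣ) : R) - P') := by ring
    rw [this]
    exact Ideal.sub_mem _ h2 h1
  obtain ⟨Pu, hPu⟩ := hunit P' hP'1
  have hPuk : ∀ k, ((Pu : Rˣ) : R) - P k ∈ I ^ k := by
    intro k
    rw [hPu]
    have : P' - (P k : R) = -(((P k : Rˣ) : R) - P') := by ring
    rw [this]
    exact Ideal.neg_mem_iff _ |>.mpr (hP'k k)
  refine ⟨Pu, hclosed Pu fun k => ⟨P k, hP_mem k, hPuk k⟩, ?_⟩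
  apply Units.ext
  rw [IsHausdorff.eq_iff_smodEq (I := I)]
  intro k
  rw [smodEq_pow_iff]
  have h1 : ((Φ Pu : Rˣ) : R) - Φ (P k) ∈ I ^ k := hΦ k _ _ (hPuk k)
  have h2 : ((Φ (P k) : Rˣ) : R) - u₀ ∈ I ^ k := by
    have hu : (u₀ : R) = (Φ (P k) : R) * ((us k).1 : R) := by
      rw [← Units.val_mul, hΦP]
    rw [hu]
    have : ((Φ (P k) : Rˣ) : R) - (Φ (P k) : R) * ((us k).1 : R) =
        -((Φ (P k) : R) * (((us k).1 : R) - 1)) := by ring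
    rw [this]
    refine (Ideal.neg_mem_iff _).mpr (Ideal.mul_mem_left _ _ ?_)
    exact Ideal.pow_le_pow_right (Nat.le_succ k) (hW1 k _ (us k).2.2)
  have : ((Φ Pu : Rˣ) : R) - u₀ = (((Φ Pu : Rˣ) : R) - Φ (P k)) + (((Φ (P k) : Rˣ) : R) - u₀) := by
    ring
  rw [this]
  exact Ideal.add_mem _ h1 h2

/-! ### adic continuity of endomorphisms of the unit group -/

section Cont

variable {R : Type*} [CommRing R] (I : Ideal R)

/-- `Φ` preserves congruences modulo all powers of `I` -/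
def IsAdicCont (Φ : Rˣ →* Rˣ) : Prop :=
  ∀ (k : ℕ) (x y : Rˣ), ((x : Rˣ) : R) - y ∈ I ^ k → ((Φ x : Rˣ) : R) - Φ y ∈ I ^ k

variable {I}

theorem IsAdicCont.id : IsAdicCont I (MonoidHom.id Rˣ) := fun _ _ _ h => h

theorem IsAdicCont.one : IsAdicCont I (1 : Rˣ →* Rˣ) := fun k _ _ _ => by simp

theorem IsAdicCont.mul {Φ Ψ : Rˣ →* Rˣ} (hΦ : IsAdicCont I Φ) (hΨ : IsAdicCont I Ψ) :
    IsAdicCont I (Φ * Ψ) := by
  intro k x y h
  have e : (((Φ * Ψ) x : Rˣ) : R) - ((Φ * Ψ) y : Rˣ) =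
      (Φ x : R) * ((Ψ x : R) - Ψ y) + ((Φ x : R) - Φ y) * (Ψ y : R) := by
    simp only [MonoidHom.mul_apply, Units.val_mul]; ring
  rw [e]
  exact Ideal.add_mem _ (Ideal.mul_mem_left _ _ (hΨ k x y h)) (Ideal.mul_mem_right _ _ (hΦ k x y h))

theorem IsAdicCont.inv {Φ : Rˣ →* Rˣ} (hΦ : IsAdicCont I Φ) : IsAdicCont I Φ⁻¹ := by
  intro k x y h
  have e : ((Φ⁻¹ x : Rˣ) : R) - (Φ⁻¹ y : Rˣ) =
      -(((Φ x)⁻¹ : Rˣ) : R) * ((Φ x : R) - Φ y) * (((Φ y)⁻¹ : Rˣ) : R) := by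
    simp only [MonoidHom.inv_apply]
    have h1 : (((Φ x)⁻¹ : Rˣ) : R) * (Φ x : R) = 1 := Units.inv_mul _
    have h2 : ((Φ y : Rˣ) : R) * (((Φ y)⁻¹ : Rˣ) : R) = 1 := Units.mul_inv _
    calc (((Φ x)⁻¹ : Rˣ) : R) - (((Φ y)⁻¹ : Rˣ) : R)
        = (((Φ x)⁻¹ : Rˣ) : R) * (((Φ y : Rˣ) : R) * (((Φ y)⁻¹ : Rˣ) : R)) -
          ((((Φ x)⁻¹ : Rˣ) : R) * (Φ x : R)) * (((Φ y)⁻¹ : Rˣ) : R) := by rw [h1, h2]; ring
      _ = _ := by ring
  rw [e]
  exact Ideal.mul_mem_right _ _ (Ideal.mul_mem_left _ _ (hΦ k x y h))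

theorem IsAdicCont.div {Φ Ψ : Rˣ →* Rˣ} (hΦ : IsAdicCont I Φ) (hΨ : IsAdicCont I Ψ) :
    IsAdicCont I (Φ / Ψ) := by
  have e : Φ / Ψ = Φ * Ψ⁻¹ := div_eq_mul_inv Φ Ψ
  rw [e]
  exact hΦ.mul hΨ.inv

theorem IsAdicCont.finset_prod {ι : Type*} (s : Finset ι) (Φ : ι → Rˣ →* Rˣ)
    (h : ∀ i ∈ s, IsAdicCont I (Φ i)) : IsAdicCont I (∏ i ∈ s, Φ i) := by
  classical
  induction s using Finset.induction_on with
  | empty => simpa using IsAdicCont.one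
  | insert i s hi ih =>
    rw [Finset.prod_insert hi]
    exact (h i (Finset.mem_insert_self _ _)).mul (ih fun j hj => h j (Finset.mem_insert_of_mem hj))

theorem IsAdicCont.unitsMap (e : R →+* R) (he : ∀ (k : ℕ) (x : R), x ∈ I ^ k → e x ∈ I ^ k) :
    IsAdicCont I (Units.map (e : R →* R)) := by
  intro k x y h
  have : ((Units.map (e : R →* R) x : Rˣ) : R) - (Units.map (e : R →* R) y : Rˣ) =
      e ((x : R) - y) := by simp
  rw [this]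
  exact he k _ h

end Cont

end Fermat.Agent.S55lib.LocalH
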