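/-
S55lib / LocalH / Herbrand (helper6).
Herbrand-quotient calculus for a commutative group `G` with two endomorphisms `f g` whose
composites are trivial, entirely as an INDEX calculus in the subgroup lattice of `G`
(no quotient maps, no connecting homomorphisms):
* `hIdx f g      = [ker f : range g]`
* `hIdxSub f g B = [B ∩ ker f : g(B)]`            (the group `B` with the restricted maps)
* `hIdxQuot f g B = [f⁻¹(B) : range g · B]`        (the group `G / B` with the induced maps)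
and the multiplicativity (exact hexagon, in multiplicative form, valid in `ℕ` with `0 = ∞`)
`hIdx f g * hIdxSub g f B * hIdxQuot g f B = hIdx g f * hIdxSub f g B * hIdxQuot f g B`.
-/
import Mathlib

set_option autoImplicit false

namespace Fermat.Agent.S55lib.LocalH

variable {G : Type*} [CommGroup G]

/-- `[ker f : range g]` (`0` if infinite). -/
noncomputable def hIdx (f g : G →* G) : ℕ := g.range.relIndex f.ker

/-- `[B ∩ ker f : g(B)]` (`0` if infinite). -/
noncomputable def hIdxSub (f g : G →* G) (B : Subgroup G) : ℕ := (B.map g).relIndex (B ⊓ f.ker)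

/-- `[f⁻¹(B) : range g · B]` (`0` if infinite). -/
noncomputable def hIdxQuot (f g : G →* G) (B : Subgroup G) : ℕ :=
  (g.range ⊔ B).relIndex (B.comap f)

/-- `[B ∩ ker f : B ∩ range g]` -/
noncomputable def hM1 (f g : G →* G) (B : Subgroup G) : ℕ := (B ⊓ g.range).relIndex (B ⊓ f.ker)

/-- `[ker f · B : range g · B]` -/
noncomputable def hM2 (f g : G →* G) (B : Subgroup G) : ℕ := (g.range ⊔ B).relIndex (f.ker ⊔ B)

/-- `[B ∩ range f : f(B)]` -/
noncomputable def hM3 (f : G →* G) (B : Subgroup G) : ℕ := (B.map f).relIndex (B ⊓ f.range)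

section

variable {f g : G →* G} {B : Subgroup G}

theorem range_le_ker (hfg : ∀ x, f (g x) = 1) : g.range ≤ f.ker := by
  rintro _ ⟨x, rfl⟩
  exact hfg x

theorem hIdxSub_eq (hfg : ∀ x, f (g x) = 1) (hgB : ∀ b ∈ B, g b ∈ B) :
    hIdxSub f g B = hM3 g B * hM1 f g B := by
  unfold hIdxSub hM3 hM1
  refine (Subgroup.relIndex_mul_relIndex _ _ _ ?_ ?_).symm
  · rintro _ ⟨b, hb, rfl⟩
    exact ⟨hgB b hb, ⟨b, rfl⟩⟩
  · exact inf_le_inf_left _ (range_le_ker hfg)

theorem hM1_eq (hfg : ∀ x, f (g x) = 1) :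
    hM1 f g B = g.range.relIndex (g.range ⊔ (B ⊓ f.ker)) := by
  unfold hM1
  rw [Subgroup.relIndex_sup_left, ← Subgroup.inf_relIndex_right g.range]
  congr 1
  rw [inf_comm B f.ker, ← inf_assoc, inf_eq_left.mpr (range_le_ker hfg), inf_comm]

theorem hM2_eq (hfg : ∀ x, f (g x) = 1) :
    hM2 f g B = (g.range ⊔ (B ⊓ f.ker)).relIndex f.ker := by
  unfold hM2
  have h1 : f.ker ⊔ B = f.ker ⊔ (g.range ⊔ B) := by
    rw [← sup_assoc, sup_eq_left.mpr (range_le_ker hfg)]
  rw [h1, Subgroup.relIndex_sup_right, ← Subgroup.inf_relIndex_right (g.range ⊔ B)]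
  congr 1
  -- modular law
  apply le_antisymm
  · rintro x ⟨hx, hxk⟩
    obtain ⟨y, hy, b, hb, rfl⟩ := Subgroup.mem_sup.mp hx
    refine Subgroup.mul_mem_sup hy ⟨hb, ?_⟩
    have hyk : y ∈ f.ker := range_le_ker hfg hy
    have : b = y⁻¹ * (y * b) := by group
    rw [this]
    exact Subgroup.mul_mem _ (Subgroup.inv_mem _ hyk) hxk
  · refine le_inf (sup_le_sup_left inf_le_left _) (sup_le (range_le_ker hfg) inf_le_right)

theorem hIdx_eq (hfg : ∀ x, f (g x) = 1) : hIdx f g = hM1 f g B * hM2 f g B := by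
  rw [hM1_eq hfg, hM2_eq hfg]
  unfold hIdx
  exact (Subgroup.relIndex_mul_relIndex _ _ _ le_sup_left
    (sup_le (range_le_ker hfg) inf_le_right)).symm

theorem hM3_eq : hM3 f B = (f.ker ⊔ B).relIndex (B.comap f) := by
  unfold hM3
  have h1 : f.ker ⊔ B = (B.map f).comap f := by rw [Subgroup.comap_map_eq, sup_comm]
  rw [h1, Subgroup.relIndex_comap, Subgroup.map_comap_eq, inf_comm]

theorem hIdxQuot_eq (hfg : ∀ x, f (g x) = 1) (hfB : ∀ b ∈ B, f b ∈ B) :
    hIdxQuot f g B = hM2 f g B * hM3 f B := by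
  rw [hM3_eq]
  unfold hIdxQuot hM2
  refine (Subgroup.relIndex_mul_relIndex _ _ _ (sup_le_sup_right (range_le_ker hfg) _) ?_).symm
  refine sup_le ?_ (fun b hb => hfB b hb)
  intro x hx
  show f x ∈ B
  rw [MonoidHom.mem_ker.mp hx]
  exact B.one_mem

/-- **Herbrand multiplicativity** (the exact hexagon as an identity of indices, `0 = ∞`). -/
theorem hIdx_mul (hfg : ∀ x, f (g x) = 1) (hgf : ∀ x, g (f x) = 1)
    (hfB : ∀ b ∈ B, f b ∈ B) (hgB : ∀ b ∈ B, g b ∈ B) :
    hIdx f g * hIdxSub g f B * hIdxQuot g f B = hIdx g f * hIdxSub f g B * hIdxQuot f g B := by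
  rw [hIdx_eq (B := B) hfg, hIdx_eq (B := B) hgf, hIdxSub_eq hgf hfB, hIdxSub_eq hfg hgB,
    hIdxQuot_eq hgf hgB, hIdxQuot_eq hfg hfB]
  ring

/-- finiteness transfer: sub and quotient finite ⇒ the whole group is. -/
theorem hIdx_ne_zero (hfg : ∀ x, f (g x) = 1) (hfB : ∀ b ∈ B, f b ∈ B) (hgB : ∀ b ∈ B, g b ∈ B)
    (h1 : hIdxSub f g B ≠ 0) (h2 : hIdxQuot f g B ≠ 0) : hIdx f g ≠ 0 := by
  rw [hIdx_eq (B := B) hfg]
  rw [hIdxSub_eq hfg hgB] at h1
  rw [hIdxQuot_eq hfg hfB] at h2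
  exact mul_ne_zero (right_ne_zero_of_mul h1) (left_ne_zero_of_mul h2)

end

/-! ### finite quotients -/

section Finite

variable {f g : G →* G} {B : Subgroup G}

theorem hIdxQuot_mul_eq_index (hfg : ∀ x, f (g x) = 1)
    (hfB : ∀ b ∈ B, f b ∈ B) :
    hIdxQuot f g B * B.relIndex (g.range ⊔ B) * B.relIndex (f.range ⊔ B) = B.index := by
  have hle : B ≤ B.comap f := fun b hb => hfB b hb
  have h1 : B.relIndex (B.comap f) * (B.comap f).index = B.index :=
    Subgroup.relIndex_mul_index hle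
  have h2 : (B.comap f).index = B.relIndex (f.range ⊔ B) := by
    rw [Subgroup.index_comap, Subgroup.relIndex_sup_right]
  have h3 : B.relIndex (g.range ⊔ B) * hIdxQuot f g B = B.relIndex (B.comap f) := by
    unfold hIdxQuot
    refine Subgroup.relIndex_mul_relIndex _ _ _ le_sup_right (sup_le ?_ hle)
    rintro _ ⟨x, rfl⟩
    show f (g x) ∈ B
    rw [hfg x]
    exact B.one_mem
  rw [← h1, h2, ← h3]
  ring

/-- a finite quotient has Herbrand quotient `1`. -/
theorem hIdxQuot_comm_of_index_ne_zero (hfg : ∀ x, f (g x) = 1) (hgf : ∀ x, g (f x) = 1)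
    (hfB : ∀ b ∈ B, f b ∈ B) (hgB : ∀ b ∈ B, g b ∈ B) (hB : B.index ≠ 0) :
    hIdxQuot f g B = hIdxQuot g f B ∧ hIdxQuot f g B ≠ 0 := by
  have h1 := hIdxQuot_mul_eq_index (f := f) (g := g) (B := B) hfg hfB
  have h2 := hIdxQuot_mul_eq_index (f := g) (g := f) (B := B) hgf hgB
  have hne : hIdxQuot f g B * B.relIndex (g.range ⊔ B) * B.relIndex (f.range ⊔ B) ≠ 0 := by
    rw [h1]; exact hB
  have hX : B.relIndex (g.range ⊔ B) * B.relIndex (f.range ⊔ B) ≠ 0 := by
    rw [mul_assoc] at hne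
    exact right_ne_zero_of_mul hne
  refine ⟨?_, ?_⟩
  · apply Nat.eq_of_mul_eq_mul_right (Nat.pos_of_ne_zero hX)
    rw [← mul_assoc, h1, mul_comm (B.relIndex (g.range ⊔ B)), ← mul_assoc, h2]
  · rw [mul_assoc] at hne
    exact left_ne_zero_of_mul hne

/-- **finite index does not change the Herbrand quotient** (cross-multiplied form). -/
theorem hIdx_mul_of_index_ne_zero (hfg : ∀ x, f (g x) = 1) (hgf : ∀ x, g (f x) = 1)
    (hfB : ∀ b ∈ B, f b ∈ B) (hgB : ∀ b ∈ B, g b ∈ B) (hB : B.index ≠ 0) :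
    hIdx f g * hIdxSub g f B = hIdx g f * hIdxSub f g B := by
  obtain ⟨h1, h2⟩ := hIdxQuot_comm_of_index_ne_zero hfg hgf hfB hgB hB
  have h := hIdx_mul (B := B) hfg hgf hfB hgB
  rw [← h1] at h
  exact Nat.eq_of_mul_eq_mul_right (Nat.pos_of_ne_zero h2) h

end Finite

/-! ### restriction to a stable subgroup -/

section Restrict

variable (f g : G →* G) (B : Subgroup G)

/-- the restriction of an endomorphism to a stable subgroup -/
def resHom (hfB : ∀ b ∈ B, f b ∈ B) : B →* B :=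
  (f.comp B.subtype).codRestrict B fun b => hfB b b.2

@[simp] theorem coe_resHom (hfB : ∀ b ∈ B, f b ∈ B) (b : B) : (resHom f B hfB b : G) = f b := rfl

theorem map_subtype_ker_resHom (hfB : ∀ b ∈ B, f b ∈ B) :
    (resHom f B hfB).ker.map B.subtype = B ⊓ f.ker := by
  ext x
  constructor
  · rintro ⟨b, hb, rfl⟩
    refine ⟨b.2, ?_⟩
    have := MonoidHom.mem_ker.mp hb
    exact MonoidHom.mem_ker.mpr (by simpa using congrArg Subtype.val this)
  · rintro ⟨hxB, hxk⟩
    refine ⟨⟨x, hxB⟩, ?_, rfl⟩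
    apply MonoidHom.mem_ker.mpr
    apply Subtype.ext
    simpa using MonoidHom.mem_ker.mp hxk

theorem map_subtype_range_resHom (hgB : ∀ b ∈ B, g b ∈ B) :
    (resHom g B hgB).range.map B.subtype = B.map g := by
  ext x
  constructor
  · rintro ⟨_, ⟨b, rfl⟩, rfl⟩
    exact ⟨b, b.2, rfl⟩
  · rintro ⟨b, hb, rfl⟩
    exact ⟨_, ⟨⟨b, hb⟩, rfl⟩, rfl⟩

/-- the Herbrand index of the subgroup, intrinsically -/
theorem hIdx_resHom (hfB : ∀ b ∈ B, f b ∈ B) (hgB : ∀ b ∈ B, g b ∈ B) :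
    hIdx (resHom f B hfB) (resHom g B hgB) = hIdxSub f g B := by
  unfold hIdx hIdxSub
  rw [← Subgroup.relIndex_map_map_of_injective _ _ B.subtype_injective,
    map_subtype_ker_resHom, map_subtype_range_resHom]

/-- the Herbrand index of a smaller subgroup, computed inside the subgroup -/
theorem hIdxSub_resHom (hfB : ∀ b ∈ B, f b ∈ B) (hgB : ∀ b ∈ B, g b ∈ B) (B' : Subgroup G)
    (hB' : B' ≤ B) :
    hIdxSub (resHom f B hfB) (resHom g B hgB) (B'.subgroupOf B) = hIdxSub f g B' := by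
  unfold hIdxSub
  rw [← Subgroup.relIndex_map_map_of_injective _ _ B.subtype_injective]
  congr 1
  · ext x
    constructor
    · rintro ⟨_, ⟨b, hb, rfl⟩, rfl⟩
      exact ⟨b, hb, rfl⟩
    · rintro ⟨b, hb, rfl⟩
      exact ⟨_, ⟨⟨b, hB' hb⟩, hb, rfl⟩, rfl⟩
  · ext x
    constructor
    · rintro ⟨b, ⟨hb1, hb2⟩, rfl⟩
      refine ⟨hb1, ?_⟩
      have := MonoidHom.mem_ker.mp hb2
      exact MonoidHom.mem_ker.mpr (by simpa using congrArg Subtype.val this)
    · rintro ⟨hxB, hxk⟩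
      refine ⟨⟨x, hB' hxB⟩, ⟨hxB, ?_⟩, rfl⟩
      apply MonoidHom.mem_ker.mpr
      apply Subtype.ext
      simpa using MonoidHom.mem_ker.mp hxk

/-- If `W ≤ U` are stable, `[U : W]` is finite and `W` has both Herbrand indices equal to `1`, then
the two Herbrand indices of `U` are equal and finite (`h(U) = 1`). -/
theorem hIdxSub_eq_of_relIndex_ne_zero {f g : G →* G} {U W : Subgroup G}
    (hfg : ∀ x, f (g x) = 1) (hgf : ∀ x, g (f x) = 1)
    (hfU : ∀ b ∈ U, f b ∈ U) (hgU : ∀ b ∈ U, g b ∈ U)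
    (hfW : ∀ b ∈ W, f b ∈ W) (hgW : ∀ b ∈ W, g b ∈ W)
    (hWU : W ≤ U) (hfin : W.relIndex U ≠ 0)
    (h1 : hIdxSub f g W = 1) (h2 : hIdxSub g f W = 1) :
    hIdxSub f g U = hIdxSub g f U ∧ hIdxSub f g U ≠ 0 := by
  set f' := resHom f U hfU
  set g' := resHom g U hgU
  set B : Subgroup U := W.subgroupOf U
  have hfg' : ∀ x, f' (g' x) = 1 := fun x => Subtype.ext (by
    simp only [f', g', coe_resHom, Subgroup.coe_one]; exact hfg x)
  have hgf' : ∀ x, g' (f' x) = 1 := fun x => Subtype.ext (by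
    simp only [f', g', coe_resHom, Subgroup.coe_one]; exact hgf x)
  have hfB : ∀ b ∈ B, f' b ∈ B := fun b hb => by
    rw [Subgroup.mem_subgroupOf] at hb ⊢
    exact hfW _ hb
  have hgB : ∀ b ∈ B, g' b ∈ B := fun b hb => by
    rw [Subgroup.mem_subgroupOf] at hb ⊢
    exact hgW _ hb
  have hB : B.index ≠ 0 := hfin
  have e1 : hIdxSub f' g' B = 1 := by rw [hIdxSub_resHom f g U hfU hgU W hWU, h1]
  have e2 : hIdxSub g' f' B = 1 := by rw [hIdxSub_resHom g f U hgU hfU W hWU, h2]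
  have key := hIdx_mul_of_index_ne_zero hfg' hgf' hfB hgB hB
  rw [e1, e2, mul_one, mul_one, hIdx_resHom f g U hfU hgU, hIdx_resHom g f U hgU hfU] at key
  refine ⟨key, ?_⟩
  rw [← hIdx_resHom f g U hfU hgU]
  refine hIdx_ne_zero (B := B) hfg' hfB hgB (by rw [e1]; exact one_ne_zero) ?_
  exact (hIdxQuot_comm_of_index_ne_zero hfg' hgf' hfB hgB hB).2

end Restrict

end Fermat.Agent.S55lib.LocalH
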