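/-
S55lib / LocalH / Ord (helper6).
The normalised `ℤ`-valued order homomorphism `Lˣ →* Multiplicative ℤ` of a discrete valuation
subring `𝒪` of a field `L`: surjective, kernel `𝒪.unitGroup`, invariant under ring automorphisms
of `L` preserving `𝒪`.
-/
import Mathlib

set_option autoImplicit false

namespace Fermat.Agent.S55lib.LocalH

open IsDiscreteValuationRing

variable {L : Type*} [Field L] (𝒪 : ValuationSubring L) [IsDiscreteValuationRing 𝒪]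

/-- a chosen uniformiser -/
noncomputable def unif : 𝒪 := (exists_irreducible 𝒪).choose

theorem unif_irreducible : Irreducible (unif 𝒪) := (exists_irreducible 𝒪).choose_spec

theorem unif_ne_zero : ((unif 𝒪 : 𝒪) : L) ≠ 0 := by
  have := (unif_irreducible 𝒪).ne_zero
  simpa using this

theorem unif_mem : ((unif 𝒪 : 𝒪) : L) ∈ 𝒪 := (unif 𝒪).2

variable {𝒪}

theorem coe_units_inv (u : 𝒪ˣ) : (((u⁻¹ : 𝒪ˣ) : 𝒪) : L) = (((u : 𝒪ˣ) : 𝒪) : L)⁻¹ := by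
  have h1 : ((u⁻¹ : 𝒪ˣ) : 𝒪) * (u : 𝒪) = 1 := Units.inv_mul u
  have h4 : (((u⁻¹ : 𝒪ˣ) : 𝒪) : L) * (((u : 𝒪ˣ) : 𝒪) : L) = 1 := by
    have h2 := congrArg (Subtype.val) h1
    rwa [MulMemClass.coe_mul, OneMemClass.coe_one] at h2
  exact eq_inv_of_mul_eq_one_left h4

theorem coe_units_zpow (w : 𝒪ˣ) (n : ℤ) : ((w : 𝒪) : L) ^ n = (((w ^ n : 𝒪ˣ) : 𝒪) : L) := by
  rcases n with m | m
  · simp
  · rw [zpow_negSucc, zpow_negSucc, coe_units_inv]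
    simp

theorem exists_unit_mul_zpow {π : 𝒪} (hπ : Irreducible π) (x : Lˣ) :
    ∃ (n : ℤ) (u : 𝒪ˣ), (x : L) = ((u : 𝒪) : L) * ((π : 𝒪) : L) ^ n := by
  obtain ⟨n, u, hu⟩ := exists_units_eq_smul_zpow_of_irreducible (K := L) hπ x.ne_zero
  refine ⟨n, u, ?_⟩
  rw [hu, Units.smul_def, Algebra.smul_def]
  rfl

theorem zpow_eq_unit_imp {π : 𝒪} (hπ : Irreducible π) {k : ℤ} {u : 𝒪ˣ}
    (h : ((π : 𝒪) : L) ^ k = ((u : 𝒪) : L)) : k = 0 := by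
  have hπ0 : ((π : 𝒪) : L) ≠ 0 := by simpa using hπ.ne_zero
  rcases k with m | m
  · -- `k = m ≥ 0`
    rcases Nat.eq_zero_or_pos m with rfl | hm
    · rfl
    · exfalso
      have h' : ((π ^ m : 𝒪) : L) = ((u : 𝒪) : L) := by
        simpa using h
      have h'' : π ^ m = (u : 𝒪) := Subtype.ext h'
      have hu : IsUnit (π ^ m) := h'' ▸ u.isUnit
      exact hπ.not_isUnit ((isUnit_pow_iff hm.ne').mp hu)
  · exfalso
    have h1 : ((π : 𝒪) : L) ^ (m + 1) = (((u⁻¹ : 𝒪ˣ) : 𝒪) : L) := by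
      have h2 : ((π : 𝒪) : L) ^ (Int.negSucc m) = (((π : 𝒪) : L) ^ (m + 1))⁻¹ := by
        rw [zpow_negSucc]
      rw [h2] at h
      rw [coe_units_inv, ← h, inv_inv]
    have h' : ((π ^ (m + 1) : 𝒪) : L) = (((u⁻¹ : 𝒪ˣ) : 𝒪) : L) := by
      simpa using h1
    have h'' : π ^ (m + 1) = ((u⁻¹ : 𝒪ˣ) : 𝒪) := Subtype.ext h'
    have hu : IsUnit (π ^ (m + 1)) := h'' ▸ (u⁻¹).isUnit
    exact hπ.not_isUnit ((isUnit_pow_iff (Nat.succ_ne_zero m)).mp hu)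

theorem unit_mul_zpow_unique {π : 𝒪} (hπ : Irreducible π) {n m : ℤ} {u w : 𝒪ˣ}
    (h : ((u : 𝒪) : L) * ((π : 𝒪) : L) ^ n = ((w : 𝒪) : L) * ((π : 𝒪) : L) ^ m) : n = m := by
  have hπ0 : ((π : 𝒪) : L) ≠ 0 := by simpa using hπ.ne_zero
  have hu0 : ((u : 𝒪) : L) ≠ 0 := by simp
  have key : ((π : 𝒪) : L) ^ (n - m) = (((u⁻¹ * w : 𝒪ˣ) : 𝒪) : L) := by
    rw [zpow_sub₀ hπ0]
    have : (((u⁻¹ * w : 𝒪ˣ) : 𝒪) : L) = (((u : 𝒪ˣ) : 𝒪) : L)⁻¹ * ((w : 𝒪) : L) := by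
      rw [← coe_units_inv]; simp
    rw [this]
    have hm0 : ((π : 𝒪) : L) ^ m ≠ 0 := zpow_ne_zero _ hπ0
    field_simp
    rw [mul_comm] at h
    linear_combination h
  have := zpow_eq_unit_imp hπ key
  omega

variable (𝒪)

/-- the order of a unit of `L` (with respect to the chosen uniformiser; independent of it) -/
noncomputable def ordInt (x : Lˣ) : ℤ := (exists_unit_mul_zpow (unif_irreducible 𝒪) x).choose

theorem ordInt_spec (x : Lˣ) :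
    ∃ u : 𝒪ˣ, (x : L) = ((u : 𝒪) : L) * ((unif 𝒪 : 𝒪) : L) ^ (ordInt 𝒪 x) :=
  (exists_unit_mul_zpow (unif_irreducible 𝒪) x).choose_spec

variable {𝒪}

theorem ordInt_eq {x : Lˣ} {n : ℤ} {u : 𝒪ˣ}
    (h : (x : L) = ((u : 𝒪) : L) * ((unif 𝒪 : 𝒪) : L) ^ n) : ordInt 𝒪 x = n := by
  obtain ⟨w, hw⟩ := ordInt_spec 𝒪 x
  exact unit_mul_zpow_unique (unif_irreducible 𝒪) (hw.symm.trans h)

/-- the order with respect to ANY uniformiser -/
theorem ordInt_eq' {π : 𝒪} (hπ : Irreducible π) {x : Lˣ} {n : ℤ} {u : 𝒪ˣ}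
    (h : (x : L) = ((u : 𝒪) : L) * ((π : 𝒪) : L) ^ n) : ordInt 𝒪 x = n := by
  -- `π = w * unif`
  obtain ⟨w, hw⟩ := (associated_of_irreducible 𝒪 (unif_irreducible 𝒪) hπ)
  -- `unif * w = π`
  have hπL : ((π : 𝒪) : L) = ((unif 𝒪 : 𝒪) : L) * ((w : 𝒪) : L) := by
    rw [← hw]; rfl
  have hw0 : ((w : 𝒪) : L) ≠ 0 := by simp
  have hwpow : ((w : 𝒪) : L) ^ n = (((w ^ n : 𝒪ˣ) : 𝒪) : L) := coe_units_zpow w n
  refine ordInt_eq (u := u * w ^ n) ?_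
  rw [h, hπL, mul_zpow, hwpow]
  simp only [Units.val_mul, MulMemClass.coe_mul]
  ring

variable (𝒪)

/-- the order homomorphism -/
noncomputable def ordHom : Lˣ →* Multiplicative ℤ where
  toFun x := Multiplicative.ofAdd (ordInt 𝒪 x)
  map_one' := by
    show Multiplicative.ofAdd (ordInt 𝒪 1) = 1
    rw [ordInt_eq (x := 1) (n := 0) (u := 1) (by simp)]
    rfl
  map_mul' x y := by
    show Multiplicative.ofAdd (ordInt 𝒪 (x * y)) =
      Multiplicative.ofAdd (ordInt 𝒪 x) * Multiplicative.ofAdd (ordInt 𝒪 y)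
    rw [← ofAdd_add]
    congr 1
    obtain ⟨u, hu⟩ := ordInt_spec 𝒪 x
    obtain ⟨w, hw⟩ := ordInt_spec 𝒪 y
    refine ordInt_eq (u := u * w) ?_
    rw [Units.val_mul, hu, hw, zpow_add₀ (unif_ne_zero 𝒪)]
    simp only [Units.val_mul, MulMemClass.coe_mul]
    ring

theorem ordHom_apply (x : Lˣ) : ordHom 𝒪 x = Multiplicative.ofAdd (ordInt 𝒪 x) := rfl

theorem ordInt_mul (x y : Lˣ) : ordInt 𝒪 (x * y) = ordInt 𝒪 x + ordInt 𝒪 y := by
  have := map_mul (ordHom 𝒪) x y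
  simpa [ordHom_apply, ← ofAdd_add] using this

theorem ordInt_unifUnit :
    ordInt 𝒪 (Units.mk0 ((unif 𝒪 : 𝒪) : L) (unif_ne_zero 𝒪)) = 1 :=
  ordInt_eq (u := 1) (by simp)

theorem ordHom_surjective : Function.Surjective (ordHom 𝒪) := by
  intro z
  refine ⟨(Units.mk0 ((unif 𝒪 : 𝒪) : L) (unif_ne_zero 𝒪)) ^ (Multiplicative.toAdd z), ?_⟩
  rw [map_zpow, ordHom_apply, ordInt_unifUnit]
  show Multiplicative.ofAdd (1 : ℤ) ^ (Multiplicative.toAdd z) = z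
  rw [← ofAdd_zsmul]
  simp

theorem mem_unitGroup_iff_ordInt (x : Lˣ) : x ∈ 𝒪.unitGroup ↔ ordInt 𝒪 x = 0 := by
  constructor
  · intro hx
    -- `x` is a unit of `𝒪`
    let a : 𝒪ˣ := 𝒪.unitGroupMulEquiv ⟨x, hx⟩
    refine ordInt_eq (u := a) ?_
    simp only [zpow_zero, mul_one]
    exact (ValuationSubring.coe_unitGroupMulEquiv_apply 𝒪 ⟨x, hx⟩).symm
  · intro h0
    obtain ⟨u, hu⟩ := ordInt_spec 𝒪 x
    rw [h0, zpow_zero, mul_one] at hu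
    have : x = ((𝒪.unitGroupMulEquiv.symm u : 𝒪.unitGroup) : Lˣ) := by
      apply Units.ext
      rw [hu]
      exact (ValuationSubring.coe_unitGroupMulEquiv_symm_apply 𝒪 u).symm
    rw [this]
    exact (𝒪.unitGroupMulEquiv.symm u).2

theorem ker_ordHom : (ordHom 𝒪).ker = 𝒪.unitGroup := by
  ext x
  rw [MonoidHom.mem_ker, mem_unitGroup_iff_ordInt, ordHom_apply]
  exact ⟨fun h => by simpa using h, fun h => by rw [h]; rfl⟩

end Fermat.Agent.S55lib.LocalH
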