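/-
S55lib / LocalH / Cyclic (helper6).
A finite cyclic Galois extension `L/K` with generator `σ`: the endomorphisms
`dHom σ : x ↦ σ x / x` and `nmHom : x ↦ ∏ τ, τ x` of `Lˣ`, their kernels and ranges
(fixed field, Hilbert 90), and — for a `Gal(L/K)`-stable discrete valuation subring `𝒪` of `L` —
the Herbrand indices of the quotient `Lˣ / 𝒪ˣ ≅ ℤ`.
-/
import Mathlib
import Fermat.Agent.S55lib.LocalH.Herbrand
import Fermat.Agent.S55lib.LocalH.Ord

set_option autoImplicit false
set_option linter.unusedSectionVars false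

namespace Fermat.Agent.S55lib.LocalH

open scoped Classical

variable {K L : Type} [Field K] [Field L] [Algebra K L] [FiniteDimensional K L] [IsGalois K L]

/-- the automorphism `τ` on units -/
def unitsAut (τ : Gal(L/K)) : Lˣ →* Lˣ := Units.map ((τ : L →+* L) : L →* L)

@[simp] theorem coe_unitsAut (τ : Gal(L/K)) (x : Lˣ) : ((unitsAut τ x : Lˣ) : L) = τ (x : L) := rfl

variable (K L) in
/-- the norm endomorphism `x ↦ ∏ τ, τ x` of `Lˣ` -/
noncomputable def nmHom : Lˣ →* Lˣ := ∏ τ : Gal(L/K), unitsAut τ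

theorem nmHom_apply (x : Lˣ) : nmHom K L x = ∏ τ : Gal(L/K), unitsAut τ x := by
  unfold nmHom
  rw [MonoidHom.finsetProd_apply]

theorem coe_nmHom (x : Lˣ) : ((nmHom K L x : Lˣ) : L) = algebraMap K L (Algebra.norm K (x : L)) := by
  rw [nmHom_apply, Algebra.norm_eq_prod_automorphisms, Units.coe_prod]
  rfl

/-- `x ↦ σ x / x` -/
def dHom (σ : Gal(L/K)) : Lˣ →* Lˣ := unitsAut σ / MonoidHom.id _

theorem dHom_apply (σ : Gal(L/K)) (x : Lˣ) : dHom σ x = unitsAut σ x / x := rfl

theorem unitsAut_nmHom (σ : Gal(L/K)) (x : Lˣ) : unitsAut σ (nmHom K L x) = nmHom K L x := by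
  apply Units.ext
  rw [coe_unitsAut, coe_nmHom]
  exact σ.commutes _

theorem nmHom_unitsAut (σ : Gal(L/K)) (x : Lˣ) : nmHom K L (unitsAut σ x) = nmHom K L x := by
  rw [nmHom_apply, nmHom_apply]
  refine Fintype.prod_equiv (Equiv.mulRight σ) _ _ fun τ => ?_
  apply Units.ext
  rfl

theorem dHom_nmHom (σ : Gal(L/K)) (x : Lˣ) : dHom σ (nmHom K L x) = 1 := by
  rw [dHom_apply, unitsAut_nmHom, div_self']

theorem nmHom_dHom (σ : Gal(L/K)) (x : Lˣ) : nmHom K L (dHom σ x) = 1 := by
  rw [dHom_apply, map_div, nmHom_unitsAut, div_self']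

/-- the units of `K` inside `Lˣ` -/
def baseUnits : Subgroup Lˣ := (Units.map ((algebraMap K L : K →+* L) : K →* L)).range

variable {σ : Gal(L/K)}

theorem ker_dHom (hσ : ∀ τ : Gal(L/K), τ ∈ Subgroup.zpowers σ) :
    (dHom σ).ker = baseUnits (K := K) (L := L) := by
  ext x
  rw [MonoidHom.mem_ker, dHom_apply, div_eq_one]
  constructor
  · intro hx
    have hfix : ∀ τ : Gal(L/K), τ (x : L) = x := by
      intro τ
      obtain ⟨k, rfl⟩ := Subgroup.mem_zpowers_iff.mp (hσ τ)
      have h1 : σ (x : L) = x := by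
        have := congrArg (Units.val) hx
        simpa using this
      have hmem : σ ∈ MulAction.stabilizer Gal(L/K) (x : L) := h1
      have hle : Subgroup.zpowers σ ≤ MulAction.stabilizer Gal(L/K) (x : L) :=
        (Subgroup.zpowers_le).mpr hmem
      exact hle (Subgroup.zpow_mem_zpowers σ k)
    obtain ⟨a, ha⟩ := (IsGalois.mem_range_algebraMap_iff_fixed (F := K) (E := L) (x : L)).mpr hfix
    have ha0 : a ≠ 0 := by
      rintro rfl
      rw [map_zero] at ha
      exact x.ne_zero ha.symm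
    refine ⟨Units.mk0 a ha0, ?_⟩
    apply Units.ext
    simpa using ha
  · rintro ⟨a, rfl⟩
    apply Units.ext
    show σ (algebraMap K L (a : K)) = algebraMap K L (a : K)
    exact σ.commutes _

/-- **Hilbert 90**: the kernel of the norm is the range of `σ - 1`. -/
theorem ker_nmHom (hσ : ∀ τ : Gal(L/K), τ ∈ Subgroup.zpowers σ) :
    (nmHom K L).ker = (dHom σ).range := by
  apply le_antisymm
  · intro x hx
    have hx' : Algebra.norm K (x : L) = 1 := by
      have h1 := congrArg (Units.val) (MonoidHom.mem_ker.mp hx)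
      rw [coe_nmHom] at h1
      exact (algebraMap K L).injective (by simpa using h1)
    have : IsCyclic (L ≃ₐ[K] L) := ⟨σ, hσ⟩
    obtain ⟨y, hy⟩ := groupCohomology.exists_div_of_norm_eq_one (K := K) (L := L) (g := σ) hσ hx'
    refine ⟨y⁻¹, ?_⟩
    apply Units.ext
    rw [dHom_apply]
    simp only [map_inv, Units.val_div_eq_div_val, Units.val_inv_eq_inv_val, coe_unitsAut]
    rw [← hy]
    have hy0 : (y : L) ≠ 0 := y.ne_zero
    have hsy0 : σ (y : L) ≠ 0 := (map_ne_zero _).mpr hy0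
    field_simp
  · rintro _ ⟨y, rfl⟩
    exact MonoidHom.mem_ker.mpr (nmHom_dHom σ y)

theorem hIdx_nmHom_dHom (hσ : ∀ τ : Gal(L/K), τ ∈ Subgroup.zpowers σ) :
    hIdx (nmHom K L) (dHom σ) = 1 := by
  unfold hIdx
  rw [ker_nmHom hσ, Subgroup.relIndex_self]

end Fermat.Agent.S55lib.LocalH
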