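/-
S55lib / LocalH / Quot (helper6).
`L/K` finite cyclic Galois with generator `σ`, `𝒪` a `Gal(L/K)`-stable discrete valuation subring
of `L`, `U = 𝒪.unitGroup`.  The order is Galois invariant, `ord (N x) = n · ord x`, `U` is stable
under `dHom σ` and `nmHom`, and the Herbrand indices of the quotient `Lˣ / U ≅ ℤ` are
`hIdxQuot (dHom σ) nmHom U = n`, `hIdxQuot nmHom (dHom σ) U = 1`.
-/
import Mathlib
import Fermat.Agent.S55lib.LocalH.Cyclic

set_option autoImplicit false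
set_option linter.unusedSectionVars false

namespace Fermat.Agent.S55lib.LocalH

open scoped Classical

variable {K L : Type} [Field K] [Field L] [Algebra K L] [FiniteDimensional K L] [IsGalois K L]
variable (𝒪 : ValuationSubring L) [IsDiscreteValuationRing 𝒪]

/-- Galois stability of the valuation subring -/
def GalStable : Prop := ∀ τ : Gal(L/K), ∀ x ∈ 𝒪, τ x ∈ 𝒪

variable {𝒪}

/-- the ring automorphism of `𝒪` induced by `τ` -/
def galRestrict (hG : GalStable (K := K) 𝒪) (τ : Gal(L/K)) : 𝒪 ≃+* 𝒪 where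
  toFun x := ⟨τ x, hG τ x x.2⟩
  invFun x := ⟨τ.symm x, hG τ.symm x x.2⟩
  left_inv x := Subtype.ext (τ.symm_apply_apply x)
  right_inv x := Subtype.ext (τ.apply_symm_apply x)
  map_mul' x y := Subtype.ext (map_mul τ (x : L) y)
  map_add' x y := Subtype.ext (map_add τ (x : L) y)

@[simp] theorem coe_galRestrict (hG : GalStable (K := K) 𝒪) (τ : Gal(L/K)) (x : 𝒪) :
    ((galRestrict hG τ x : 𝒪) : L) = τ x := rfl

theorem ordInt_unitsAut (hG : GalStable (K := K) 𝒪) (τ : Gal(L/K)) (x : Lˣ) :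
    ordInt 𝒪 (unitsAut τ x) = ordInt 𝒪 x := by
  obtain ⟨u, hu⟩ := ordInt_spec 𝒪 x
  set e := galRestrict hG τ
  have hπ : Irreducible (e (unif 𝒪)) := (MulEquiv.irreducible_iff e.toMulEquiv).mpr
    (unif_irreducible 𝒪)
  refine ordInt_eq' hπ (u := Units.map (e : 𝒪 →* 𝒪) u) ?_
  rw [coe_unitsAut, hu, map_mul, map_zpow₀]
  rfl

theorem ordInt_nmHom (hG : GalStable (K := K) 𝒪) (x : Lˣ) :
    ordInt 𝒪 (nmHom K L x) = (Fintype.card Gal(L/K) : ℤ) * ordInt 𝒪 x := by
  have h : ordHom 𝒪 (nmHom K L x) = (ordHom 𝒪 x) ^ (Fintype.card Gal(L/K)) := by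
    rw [nmHom_apply, map_prod]
    have : ∀ τ : Gal(L/K), ordHom 𝒪 (unitsAut τ x) = ordHom 𝒪 x := fun τ => by
      rw [ordHom_apply, ordHom_apply, ordInt_unitsAut hG]
    simp only [this, Finset.prod_const, Finset.card_univ]
  rw [ordHom_apply, ordHom_apply, ← ofAdd_nsmul] at h
  have h' := Multiplicative.ofAdd.injective h
  rw [h', nsmul_eq_mul]

theorem unitGroup_stable_unitsAut (hG : GalStable (K := K) 𝒪) (τ : Gal(L/K)) {x : Lˣ}
    (hx : x ∈ 𝒪.unitGroup) : unitsAut τ x ∈ 𝒪.unitGroup := by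
  rw [mem_unitGroup_iff_ordInt] at hx ⊢
  rw [ordInt_unitsAut hG, hx]

theorem dHom_mem_unitGroup (hG : GalStable (K := K) 𝒪) (σ : Gal(L/K)) (x : Lˣ) :
    dHom σ x ∈ 𝒪.unitGroup := by
  rw [mem_unitGroup_iff_ordInt, dHom_apply, div_eq_mul_inv, ordInt_mul, ordInt_unitsAut hG]
  have : ordInt 𝒪 x⁻¹ = - ordInt 𝒪 x := by
    have h := ordInt_mul 𝒪 x x⁻¹
    rw [mul_inv_cancel, (mem_unitGroup_iff_ordInt 𝒪 1).mp (Subgroup.one_mem _)] at h
    omega
  rw [this]; ring

theorem nmHom_mem_unitGroup_iff (hG : GalStable (K := K) 𝒪) (x : Lˣ) :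
    nmHom K L x ∈ 𝒪.unitGroup ↔ x ∈ 𝒪.unitGroup := by
  rw [mem_unitGroup_iff_ordInt, mem_unitGroup_iff_ordInt, ordInt_nmHom hG]
  have hn : (Fintype.card Gal(L/K) : ℤ) ≠ 0 := by
    exact_mod_cast Fintype.card_ne_zero
  constructor
  · intro h
    rcases mul_eq_zero.mp h with h | h
    · exact absurd h hn
    · exact h
  · intro h; rw [h, mul_zero]

/-- the subgroup `nℤ` of `Multiplicative ℤ` -/
def nZ (n : ℕ) : Subgroup (Multiplicative ℤ) :=
  AddSubgroup.toSubgroup (AddSubgroup.zmultiples (n : ℤ))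

theorem mem_nZ {n : ℕ} {z : Multiplicative ℤ} : z ∈ nZ n ↔ (n : ℤ) ∣ Multiplicative.toAdd z := by
  unfold nZ
  rw [← Int.mem_zmultiples_iff]
  rfl

theorem index_nZ (n : ℕ) : (nZ n).index = n := by
  unfold nZ
  rw [AddSubgroup.index_toSubgroup, Int.index_zmultiples, Int.natAbs_natCast]

variable {σ : Gal(L/K)}

theorem range_nmHom_sup_unitGroup (hG : GalStable (K := K) 𝒪) :
    (nmHom K L).range ⊔ 𝒪.unitGroup = (nZ (Fintype.card Gal(L/K))).comap (ordHom 𝒪) := by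
  apply le_antisymm
  · refine sup_le ?_ ?_
    · rintro _ ⟨y, rfl⟩
      rw [Subgroup.mem_comap, mem_nZ, ordHom_apply, toAdd_ofAdd, ordInt_nmHom hG]
      exact dvd_mul_right _ _
    · intro u hu
      rw [Subgroup.mem_comap, mem_nZ, ordHom_apply, toAdd_ofAdd,
        (mem_unitGroup_iff_ordInt 𝒪 u).mp hu]
      exact dvd_zero _
  · intro x hx
    rw [Subgroup.mem_comap, mem_nZ, ordHom_apply, toAdd_ofAdd] at hx
    obtain ⟨k, hk⟩ := hx
    -- `y = π ^ k`
    set π : Lˣ := Units.mk0 ((unif 𝒪 : 𝒪) : L) (unif_ne_zero 𝒪)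
    have hy : ordInt 𝒪 (nmHom K L (π ^ k)) = ordInt 𝒪 x := by
      rw [ordInt_nmHom hG, hk]
      congr 1
      have := congrArg Multiplicative.toAdd (map_zpow (ordHom 𝒪) π k)
      rw [ordHom_apply, ordHom_apply, ordInt_unifUnit] at this
      simpa using this
    have hu : x / nmHom K L (π ^ k) ∈ 𝒪.unitGroup := by
      rw [mem_unitGroup_iff_ordInt, div_eq_mul_inv, ordInt_mul]
      have : ordInt 𝒪 (nmHom K L (π ^ k))⁻¹ = - ordInt 𝒪 (nmHom K L (π ^ k)) := by
        have h := ordInt_mul 𝒪 (nmHom K L (π ^ k)) (nmHom K L (π ^ k))⁻¹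
        rw [mul_inv_cancel, (mem_unitGroup_iff_ordInt 𝒪 1).mp (Subgroup.one_mem _)] at h
        omega
      rw [this, hy]; ring
    have : x = nmHom K L (π ^ k) * (x / nmHom K L (π ^ k)) := by
      rw [mul_div_cancel]
    rw [this]
    exact Subgroup.mul_mem_sup ⟨_, rfl⟩ hu

/-- the Herbrand index `[Lˣ : N(Lˣ)·U] = n` of the value group, in degree `0`. -/
theorem hIdxQuot_dHom_nmHom (hG : GalStable (K := K) 𝒪) :
    hIdxQuot (dHom σ) (nmHom K L) 𝒪.unitGroup = Fintype.card Gal(L/K) := by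
  unfold hIdxQuot
  have htop : (𝒪.unitGroup).comap (dHom σ) = ⊤ := by
    ext x
    simp only [Subgroup.mem_comap, Subgroup.mem_top, iff_true]
    exact dHom_mem_unitGroup hG σ x
  rw [htop, Subgroup.relIndex_top_right, range_nmHom_sup_unitGroup hG,
    Subgroup.index_comap_of_surjective _ (ordHom_surjective 𝒪), index_nZ]

/-- the Herbrand index of the value group in degree `1` is trivial. -/
theorem hIdxQuot_nmHom_dHom (hG : GalStable (K := K) 𝒪) :
    hIdxQuot (nmHom K L) (dHom σ) 𝒪.unitGroup = 1 := by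
  unfold hIdxQuot
  have h1 : (𝒪.unitGroup).comap (nmHom K L) = 𝒪.unitGroup := by
    ext x
    rw [Subgroup.mem_comap, nmHom_mem_unitGroup_iff hG]
  have h2 : (dHom σ).range ⊔ 𝒪.unitGroup = 𝒪.unitGroup := by
    refine sup_eq_right.mpr ?_
    rintro _ ⟨y, rfl⟩
    exact dHom_mem_unitGroup hG σ y
  rw [h1, h2, Subgroup.relIndex_self]

end Fermat.Agent.S55lib.LocalH
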