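/-
S55lib / LocalH / Val (helper6).
Valuation calculus for a Galois-stable discrete valuation subring `𝒪 ⊂ L`:
Galois invariance of `𝒪.valuation`, discreteness, powers of the maximal ideal, and the
first-order expansion of a product `∏ (1 + z i)`.
-/
import Mathlib
import Fermat.Agent.S55lib.LocalH.Quot

set_option autoImplicit false

namespace Fermat.Agent.S55lib.LocalH

open scoped Classical

variable {K L : Type} [Field K] [Field L] [Algebra K L] [FiniteDimensional K L] [IsGalois K L]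
variable {𝒪 : ValuationSubring L} [IsDiscreteValuationRing 𝒪]

/-- Galois invariance of the valuation. -/
theorem val_aut (hG : GalStable (K := K) 𝒪) (τ : Gal(L/K)) (x : L) :
    𝒪.valuation (τ x) = 𝒪.valuation x := by
  by_cases hx : x = 0
  · simp [hx]
  · have h := dHom_mem_unitGroup hG τ (Units.mk0 x hx)
    rw [ValuationSubring.mem_unitGroup_iff, dHom_apply] at h
    have h2 : ((unitsAut τ (Units.mk0 x hx) / Units.mk0 x hx : Lˣ) : L) = τ x / x := by
      rw [Units.val_div_eq_div_val]; rfl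
    rw [h2, map_div₀] at h
    have hv : 𝒪.valuation x ≠ 0 := (Valuation.ne_zero_iff _).mpr hx
    exact (div_eq_one_iff_eq hv).mp h

variable (𝒪) in
/-- the valuation of the chosen uniformiser -/
noncomputable def vpi : 𝒪.ValueGroup := 𝒪.valuation ((unif 𝒪 : 𝒪) : L)

theorem vpi_lt_one : vpi 𝒪 < 1 := by
  unfold vpi
  rw [← ValuationSubring.valuation_lt_one_iff]
  exact (unif_irreducible 𝒪).not_isUnit

theorem vpi_ne_zero : vpi 𝒪 ≠ 0 := (Valuation.ne_zero_iff _).mpr (unif_ne_zero 𝒪)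

theorem vpi_pos : 0 < vpi 𝒪 := zero_lt_iff.mpr vpi_ne_zero

theorem vpi_le_one : vpi 𝒪 ≤ 1 := vpi_lt_one.le

theorem exists_val_eq_zpow {x : L} (hx : x ≠ 0) : ∃ k : ℤ, 𝒪.valuation x = vpi 𝒪 ^ k := by
  obtain ⟨n, u, hu⟩ := exists_unit_mul_zpow (unif_irreducible 𝒪) (Units.mk0 x hx)
  refine ⟨n, ?_⟩
  have : x = ((u : 𝒪) : L) * ((unif 𝒪 : 𝒪) : L) ^ n := hu
  rw [this, map_mul, map_zpow₀, ValuationSubring.valuation_unit, one_mul]
  rfl

/-- every element becomes integral after multiplication by a power of the uniformiser -/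
theorem exists_val_mul_pow_le_one (x : L) : ∃ m : ℕ, 𝒪.valuation x * vpi 𝒪 ^ m ≤ 1 := by
  by_cases hx : x = 0
  · exact ⟨0, by simp [hx]⟩
  · obtain ⟨k, hk⟩ := exists_val_eq_zpow (𝒪 := 𝒪) hx
    refine ⟨k.natAbs, ?_⟩
    rw [hk, ← zpow_natCast, ← zpow_add₀ vpi_ne_zero]
    have h0 : 0 ≤ k + (k.natAbs : ℤ) := by omega
    obtain ⟨m, hm⟩ := Int.eq_ofNat_of_zero_le h0
    rw [hm, zpow_natCast]
    exact pow_le_one₀ vpi_pos.le vpi_le_one

theorem mem_maxIdeal_pow_iff (x : 𝒪) (k : ℕ) :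
    x ∈ IsLocalRing.maximalIdeal 𝒪 ^ k ↔ 𝒪.valuation (x : L) ≤ vpi 𝒪 ^ k := by
  rw [(unif_irreducible 𝒪).maximalIdeal_eq, Ideal.span_singleton_pow, Ideal.mem_span_singleton']
  unfold vpi
  rw [← map_pow, ValuationSubring.valuation_le_iff]
  constructor
  · rintro ⟨a, ha⟩
    exact ⟨a, by rw [← ha]; rfl⟩
  · rintro ⟨a, ha⟩
    exact ⟨a, Subtype.ext (by rw [← ha]; rfl)⟩

/-- first-order expansion of `∏ (1 + z i)` -/
theorem val_prod_one_add_sub_le {R Γ₀ ι : Type*} [CommRing R] [LinearOrderedCommGroupWithZero Γ₀]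
    (v : Valuation R Γ₀) {δ : Γ₀} (hδ : δ ≤ 1) (s : Finset ι) (z : ι → R)
    (hz : ∀ i ∈ s, v (z i) ≤ δ) :
    v (∏ i ∈ s, (1 + z i) - 1 - ∑ i ∈ s, z i) ≤ δ ^ 2 := by
  induction s using Finset.induction_on with
  | empty => simp
  | insert i s hi ih =>
    rw [Finset.prod_insert hi, Finset.sum_insert hi]
    have hzi := hz i (Finset.mem_insert_self _ _)
    have hzs : ∀ j ∈ s, v (z j) ≤ δ := fun j hj => hz j (Finset.mem_insert_of_mem hj)
    have ih' := ih hzs
    set E := ∏ j ∈ s, (1 + z j) - 1 - ∑ j ∈ s, z j with hE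
    set S := ∑ j ∈ s, z j with hS
    have hP : ∏ j ∈ s, (1 + z j) = 1 + S + E := by rw [hE]; ring
    rw [hP]
    have : (1 + z i) * (1 + S + E) - 1 - (z i + S) = E + z i * S + z i * E := by ring
    rw [this]
    have hSv : v S ≤ δ := Valuation.map_sum_le v hzs
    have h1 : v (z i * S) ≤ δ ^ 2 := by
      rw [map_mul, sq]; exact mul_le_mul' hzi hSv
    have h2 : v (z i * E) ≤ δ ^ 2 := by
      rw [map_mul]
      calc v (z i) * v E ≤ δ * δ ^ 2 := mul_le_mul' hzi ih'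
        _ ≤ 1 * δ ^ 2 := mul_le_mul' hδ le_rfl
        _ = δ ^ 2 := one_mul _
    exact (v.map_add_le (v.map_add_le ih' h1) h2)

end Fermat.Agent.S55lib.LocalH
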