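/-
S55lib / LocalH / Lattice (helper6).
The normal-basis lattice filtration `M j = {x : every component of x has valuation ≤ ϖ^j}` in a
finite Galois extension `L/K` with a Galois-stable discrete valuation subring `𝒪 ⊂ L`,
and the subgroups `1 + M j` of `Lˣ`.
-/
import Mathlib
import Fermat.Agent.S55lib.LocalH.Val

set_option autoImplicit false

namespace Fermat.Agent.S55lib.LocalH

open scoped Classical

variable {K L : Type} [Field K] [Field L] [Algebra K L] [FiniteDimensional K L] [IsGalois K L]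
variable {𝒪 : ValuationSubring L} [IsDiscreteValuationRing 𝒪]

theorem vpi_pow_anti {i j : ℕ} (h : i ≤ j) : vpi 𝒪 ^ j ≤ vpi 𝒪 ^ i :=
  pow_le_pow_of_le_one zero_le vpi_le_one h

theorem vpi_pow_pos (j : ℕ) : 0 < vpi 𝒪 ^ j := pow_pos vpi_pos j

/-- a normal basis together with a bound for the coordinate functionals -/
structure NBData (K : Type) {L : Type} [Field K] [Field L] [Algebra K L] [FiniteDimensional K L]
    [IsGalois K L] (𝒪 : ValuationSubring L) [IsDiscreteValuationRing 𝒪] where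
  /-- the basis -/
  b : Module.Basis Gal(L/K) K L
  /-- Galois equivariance -/
  hb : ∀ σ τ : Gal(L/K), σ (b τ) = b (σ * τ)
  /-- the constant -/
  m₀ : ℕ
  /-- the components of `x` are bounded by `x` -/
  hm₀ : ∀ (x : L) (τ : Gal(L/K)), 𝒪.valuation (b.repr x τ • b τ) * vpi 𝒪 ^ m₀ ≤ 𝒪.valuation x

theorem nonempty_nbData (hG : GalStable (K := K) 𝒪) : Nonempty (NBData K 𝒪) := by
  let b := IsGalois.normalBasis K L
  have hb : ∀ σ τ : Gal(L/K), σ (b τ) = b (σ * τ) := by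
    intro σ τ
    rw [IsGalois.normalBasis_apply τ, IsGalois.normalBasis_apply (σ * τ)]; rfl
  have hnd : (Algebra.traceForm K L).Nondegenerate := traceForm_nondegenerate K L
  have hsymm : (Algebra.traceForm K L).IsSymm := Algebra.traceForm_isSymm K
  let d := (Algebra.traceForm K L).dualBasis hnd b
  have hrepr : ∀ x τ, b.repr x τ = Algebra.trace K L (x * d τ) := by
    intro x τ
    have := LinearMap.BilinForm.dualBasis_repr_apply hnd d x τ
    rw [LinearMap.BilinForm.dualBasis_dualBasis hnd hsymm b] at this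
    rw [this, Algebra.traceForm_apply]
  choose m hm using fun τ => exists_val_mul_pow_le_one (𝒪 := 𝒪) (d τ * b τ)
  refine ⟨⟨b, hb, ∑ τ, m τ, ?_⟩⟩
  intro x τ
  rw [hrepr, Algebra.smul_def, trace_eq_sum_automorphisms, map_mul]
  have h1 : 𝒪.valuation (∑ σ : Gal(L/K), σ (x * d τ)) ≤ 𝒪.valuation (x * d τ) := by
    refine Valuation.map_sum_le _ fun σ _ => ?_
    rw [val_aut hG]
  have h2 : vpi 𝒪 ^ (∑ τ, m τ) ≤ vpi 𝒪 ^ m τ :=
    vpi_pow_anti (Finset.single_le_sum (f := m) (fun _ _ => Nat.zero_le _) (Finset.mem_univ τ))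
  calc 𝒪.valuation (∑ σ : Gal(L/K), σ (x * d τ)) * 𝒪.valuation (b τ) * vpi 𝒪 ^ (∑ τ, m τ)
      ≤ 𝒪.valuation (x * d τ) * 𝒪.valuation (b τ) * vpi 𝒪 ^ m τ :=
        mul_le_mul' (mul_le_mul' h1 le_rfl) h2
    _ = 𝒪.valuation x * (𝒪.valuation (d τ * b τ) * vpi 𝒪 ^ m τ) := by
        rw [map_mul, map_mul]; simp only [mul_assoc]
    _ ≤ 𝒪.valuation x * 1 := mul_le_mul' le_rfl (hm τ)
    _ = 𝒪.valuation x := mul_one _

namespace NBData

variable (D : NBData K 𝒪)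

theorem repr_aut (σ : Gal(L/K)) (x : L) (τ : Gal(L/K)) :
    D.b.repr (σ x) τ = D.b.repr x (σ⁻¹ * τ) := by
  have key : ∀ y : L, ∀ ρ : Gal(L/K), D.b.repr y ρ = D.b.repr (σ y) (σ * ρ) := by
    intro y ρ
    refine Module.Basis.repr_apply_eq D.b (fun y ρ => D.b.repr (σ y) (σ * ρ)) ?_ ?_ ?_ y ρ
    · intro y z; ext ρ; simp
    · intro c y; ext ρ; simp
    · intro i; ext ρ
      simp only [D.hb, Module.Basis.repr_self, Finsupp.single_apply]
      simp
  rw [key x (σ⁻¹ * τ), mul_inv_cancel_left]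

/-- the `τ`-component of `x` -/
noncomputable def comp (x : L) (τ : Gal(L/K)) : L := D.b.repr x τ • D.b τ

theorem sum_comp (x : L) : ∑ τ, D.comp x τ = x := D.b.sum_repr x

@[simp] theorem comp_zero (τ : Gal(L/K)) : D.comp 0 τ = 0 := by simp [comp]

theorem comp_add (x y : L) (τ : Gal(L/K)) : D.comp (x + y) τ = D.comp x τ + D.comp y τ := by
  simp [comp, add_smul]

theorem comp_neg (x : L) (τ : Gal(L/K)) : D.comp (-x) τ = -D.comp x τ := by
  simp [comp]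

theorem comp_sub (x y : L) (τ : Gal(L/K)) : D.comp (x - y) τ = D.comp x τ - D.comp y τ := by
  simp [comp, sub_smul]

theorem comp_aut (σ : Gal(L/K)) (x : L) (τ : Gal(L/K)) :
    D.comp (σ x) τ = σ (D.comp x (σ⁻¹ * τ)) := by
  unfold comp
  rw [D.repr_aut, map_smul, D.hb, mul_inv_cancel_left]

theorem val_comp_le (x : L) (τ : Gal(L/K)) :
    𝒪.valuation (D.comp x τ) * vpi 𝒪 ^ D.m₀ ≤ 𝒪.valuation x := D.hm₀ x τ

/-- the lattice `M j`: all components have valuation `≤ ϖ^j` -/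
def Mlat (j : ℕ) : AddSubgroup L where
  carrier := {x | ∀ τ, 𝒪.valuation (D.comp x τ) ≤ vpi 𝒪 ^ j}
  zero_mem' := by intro τ; simp
  add_mem' := by
    intro x y hx hy τ
    rw [comp_add]
    exact Valuation.map_add_le _ (hx τ) (hy τ)
  neg_mem' := by
    intro x hx τ
    rw [comp_neg, Valuation.map_neg]
    exact hx τ

theorem mem_Mlat {j : ℕ} {x : L} :
    x ∈ D.Mlat j ↔ ∀ τ, 𝒪.valuation (D.comp x τ) ≤ vpi 𝒪 ^ j := Iff.rfl

theorem Mlat_anti {i j : ℕ} (h : i ≤ j) : D.Mlat j ≤ D.Mlat i :=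
  fun _ hx τ => (hx τ).trans (vpi_pow_anti h)

theorem val_le_of_mem_Mlat {j : ℕ} {x : L} (hx : x ∈ D.Mlat j) :
    𝒪.valuation x ≤ vpi 𝒪 ^ j := by
  rw [← D.sum_comp x]
  exact Valuation.map_sum_le _ fun τ _ => hx τ

theorem mem_Mlat_of_val_le {j : ℕ} {x : L} (hx : 𝒪.valuation x ≤ vpi 𝒪 ^ (j + D.m₀)) :
    x ∈ D.Mlat j := by
  intro τ
  have h := D.val_comp_le x τ
  rw [pow_add] at hx
  exact le_of_mul_le_mul_right (h.trans hx) (vpi_pow_pos _)

theorem aut_mem_Mlat (hG : GalStable (K := K) 𝒪) {j : ℕ} {x : L} (hx : x ∈ D.Mlat j)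
    (σ : Gal(L/K)) : σ x ∈ D.Mlat j := by
  intro τ
  rw [comp_aut, val_aut hG]
  exact hx _

theorem mul_mem_Mlat {i j l : ℕ} {x y : L} (hx : 𝒪.valuation x ≤ vpi 𝒪 ^ i)
    (hy : 𝒪.valuation y ≤ vpi 𝒪 ^ j) (h : l + D.m₀ ≤ i + j) : x * y ∈ D.Mlat l := by
  apply D.mem_Mlat_of_val_le
  rw [map_mul]
  calc 𝒪.valuation x * 𝒪.valuation y ≤ vpi 𝒪 ^ i * vpi 𝒪 ^ j := mul_le_mul' hx hy
    _ = vpi 𝒪 ^ (i + j) := (pow_add _ _ _).symm
    _ ≤ vpi 𝒪 ^ (l + D.m₀) := vpi_pow_anti h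

theorem val_lt_one_of_le {j : ℕ} (hj : 1 ≤ j) {x : L} (hx : 𝒪.valuation x ≤ vpi 𝒪 ^ j) :
    𝒪.valuation x < 1 := by
  refine hx.trans_lt ((vpi_pow_anti hj).trans_lt ?_)
  rw [pow_one]
  exact vpi_lt_one

theorem val_eq_one_of_sub_one {j : ℕ} (hj : 1 ≤ j) {u : L}
    (hu : 𝒪.valuation (u - 1) ≤ vpi 𝒪 ^ j) : 𝒪.valuation u = 1 := by
  have h := Valuation.map_one_add_of_lt (v := 𝒪.valuation) (val_lt_one_of_le hj hu)
  rwa [add_sub_cancel] at h

/-- the subgroup `1 + M (k + m₀ + 1)` of `Lˣ` -/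
def Wlat (k : ℕ) : Subgroup Lˣ where
  carrier := {u | (u : L) - 1 ∈ D.Mlat (k + D.m₀ + 1)}
  one_mem' := by simp
  mul_mem' := by
    intro u w hu hw
    have e : ((u * w : Lˣ) : L) - 1 =
        ((u : L) - 1) + ((w : L) - 1) + ((u : L) - 1) * ((w : L) - 1) := by
      push_cast; ring
    rw [Set.mem_ofPred_eq, e]
    exact add_mem (add_mem hu hw)
      (D.mul_mem_Mlat (D.val_le_of_mem_Mlat hu) (D.val_le_of_mem_Mlat hw) (by omega))
  inv_mem' := by
    intro u hu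
    have hval : 𝒪.valuation (u : L) = 1 :=
      val_eq_one_of_sub_one (by omega) (D.val_le_of_mem_Mlat hu)
    have e : ((u⁻¹ : Lˣ) : L) - 1 =
        -((u : L) - 1) + ((u : L) - 1) * (((u : L) - 1) * (u : L)⁻¹) := by
      have hu0 : (u : L) ≠ 0 := u.ne_zero
      rw [Units.val_inv_eq_inv_val]
      field_simp
      ring
    rw [Set.mem_ofPred_eq, e]
    refine add_mem (neg_mem hu) (D.mul_mem_Mlat (D.val_le_of_mem_Mlat hu)
      (j := k + D.m₀ + 1) ?_ (by omega))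
    rw [map_mul, map_inv₀, hval, inv_one, mul_one]
    exact D.val_le_of_mem_Mlat hu

theorem mem_Wlat {k : ℕ} {u : Lˣ} : u ∈ D.Wlat k ↔ (u : L) - 1 ∈ D.Mlat (k + D.m₀ + 1) := Iff.rfl

theorem Wlat_anti {i j : ℕ} (h : i ≤ j) : D.Wlat j ≤ D.Wlat i :=
  fun _ hu => D.Mlat_anti (by omega) hu

theorem val_eq_one_of_mem_Wlat {k : ℕ} {u : Lˣ} (hu : u ∈ D.Wlat k) :
    𝒪.valuation (u : L) = 1 :=
  val_eq_one_of_sub_one (j := k + D.m₀ + 1) (by omega) (D.val_le_of_mem_Mlat hu)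

theorem Wlat_le_unitGroup (k : ℕ) : D.Wlat k ≤ 𝒪.unitGroup := fun _ hu =>
  (ValuationSubring.mem_unitGroup_iff _ _).mpr (D.val_eq_one_of_mem_Wlat hu)

theorem unitsAut_mem_Wlat (hG : GalStable (K := K) 𝒪) {k : ℕ} {u : Lˣ} (hu : u ∈ D.Wlat k)
    (τ : Gal(L/K)) : unitsAut τ u ∈ D.Wlat k := by
  rw [mem_Wlat] at hu ⊢
  have : ((unitsAut τ u : Lˣ) : L) - 1 = τ ((u : L) - 1) := by simp
  rw [this]
  exact D.aut_mem_Mlat hG hu τ

end NBData

end Fermat.Agent.S55lib.LocalH
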