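/-
S55lib / LocalH / Shift (helper6).
For a finite group `G` generated by `σ` and any additive group `R`: every function `c : G → R`
is, up to the correction `Pi.single 1 (∑ c)`, of the form `τ ↦ d (σ⁻¹ τ) - d τ`
(vanishing of `Ĥ⁻¹` of the induced module, in explicit form).
-/
import Mathlib

set_option autoImplicit false

namespace Fermat.Agent.S55lib.LocalH

theorem exists_shift_sub {G : Type*} [Group G] [Fintype G] [DecidableEq G] {σ : G}
    (hσ : ∀ τ : G, τ ∈ Subgroup.zpowers σ) {R : Type*} [AddCommGroup R] (c : G → R) :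
    ∃ d : G → R, ∀ τ, d (σ⁻¹ * τ) - d τ = c τ - (if τ = 1 then ∑ ρ, c ρ else 0) := by
  let T : (G → R) →+ (G → R) :=
    { toFun := fun d τ => d (σ⁻¹ * τ) - d τ
      map_zero' := by ext; simp
      map_add' := by intro d e; ext τ; simp only [Pi.add_apply]; abel }
  have hTapp : ∀ (d : G → R) (τ : G), T d τ = d (σ⁻¹ * τ) - d τ := fun _ _ => rfl
  have hT : ∀ (ρ : G) (r : R), T (Pi.single ρ r) = Pi.single (σ * ρ) r - Pi.single ρ r := by
    intro ρ r
    ext τ
    rw [hTapp, Pi.sub_apply, Pi.single_apply, Pi.single_apply, Pi.single_apply]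
    have : σ⁻¹ * τ = ρ ↔ τ = σ * ρ := inv_mul_eq_iff_eq_mul
    simp only [this]
  have key : ∀ k : ℤ, ∀ r : R, (Pi.single (σ ^ k) r - Pi.single 1 r : G → R) ∈ T.range := by
    intro k
    induction k using Int.induction_on with
    | zero => intro r; simp
    | succ i ih =>
      intro r
      have e : (Pi.single (σ ^ ((i : ℤ) + 1)) r - Pi.single 1 r : G → R) =
          T (Pi.single (σ ^ (i : ℤ)) r) + (Pi.single (σ ^ (i : ℤ)) r - Pi.single 1 r) := by
        rw [hT, add_comm (i : ℤ) 1, zpow_one_add]; abel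
      rw [e]
      exact add_mem ⟨_, rfl⟩ (ih r)
    | pred i ih =>
      intro r
      have e : (Pi.single (σ ^ (-(i : ℤ) - 1)) r - Pi.single 1 r : G → R) =
          (Pi.single (σ ^ (-(i : ℤ))) r - Pi.single 1 r) - T (Pi.single (σ ^ (-(i : ℤ) - 1)) r) := by
        rw [hT, ← zpow_one_add]
        have : (1 : ℤ) + (-(i : ℤ) - 1) = -(i : ℤ) := by ring
        rw [this]; abel
      rw [e]
      exact sub_mem (ih r) ⟨_, rfl⟩
  have hc : c - Pi.single 1 (∑ ρ, c ρ) = ∑ τ, (Pi.single τ (c τ) - Pi.single 1 (c τ) : G → R) := by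
    rw [Finset.sum_sub_distrib, Finset.univ_sum_single]
    congr 1
    exact map_sum (AddMonoidHom.single (fun _ : G => R) 1) c Finset.univ
  have hmem : c - Pi.single 1 (∑ ρ, c ρ) ∈ T.range := by
    rw [hc]
    refine sum_mem fun τ _ => ?_
    obtain ⟨k, hk⟩ := Subgroup.mem_zpowers_iff.mp (hσ τ)
    rw [← hk]
    exact key k (c (σ ^ k))
  obtain ⟨d, hd⟩ := hmem
  refine ⟨d, fun τ => ?_⟩
  have := congrFun hd τ
  rw [hTapp, Pi.sub_apply, Pi.single_apply] at this
  rw [this]

/-- the same with all values in a given additive subgroup -/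
theorem exists_shift_sub_mem {G : Type*} [Group G] [Fintype G] [DecidableEq G] {σ : G}
    (hσ : ∀ τ : G, τ ∈ Subgroup.zpowers σ) {R : Type*} [AddCommGroup R] (H : AddSubgroup R)
    (c : G → R) (hc : ∀ τ, c τ ∈ H) :
    ∃ d : G → R, (∀ τ, d τ ∈ H) ∧
      ∀ τ, d (σ⁻¹ * τ) - d τ = c τ - (if τ = 1 then ∑ ρ, c ρ else 0) := by
  obtain ⟨d', hd'⟩ := exists_shift_sub hσ (fun τ => (⟨c τ, hc τ⟩ : H))
  refine ⟨fun τ => (d' τ : R), fun τ => (d' τ).2, fun τ => ?_⟩
  have := congrArg (fun a : H => (a : R)) (hd' τ)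
  simp only [AddSubgroupClass.coe_sub] at this
  rw [this]
  congr 1
  split_ifs
  · simp
  · rfl

end Fermat.Agent.S55lib.LocalH
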