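/-
S55lib / LocalH / LatticeApprox (helper6).
The two approximation steps for the filtration `W k = 1 + M (k + m₀ + 1)`:
* a Galois-fixed element of `W k` is a norm from `W k` modulo `W (k+1)`;
* an element of `W k` of norm `1` is of the form `σ y / y`, `y ∈ W k`, modulo `W (k+1)`.
-/
import Mathlib
import Fermat.Agent.S55lib.LocalH.Lattice
import Fermat.Agent.S55lib.LocalH.Shift

set_option autoImplicit false

namespace Fermat.Agent.S55lib.LocalH

open scoped Classical

variable {K L : Type} [Field K] [Field L] [Algebra K L] [FiniteDimensional K L] [IsGalois K L]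
variable {𝒪 : ValuationSubring L} [IsDiscreteValuationRing 𝒪]

theorem coe_nmHom' (x : Lˣ) : ((nmHom K L x : Lˣ) : L) = ∏ τ : Gal(L/K), τ (x : L) := by
  rw [nmHom_apply, Units.coe_prod]
  rfl

namespace NBData

variable (D : NBData K 𝒪)

theorem comp_smul_b (a : K) (ρ τ : Gal(L/K)) :
    D.comp (a • D.b ρ) τ = if τ = ρ then a • D.b ρ else 0 := by
  unfold comp
  rw [map_smul, Module.Basis.repr_self]
  by_cases h : τ = ρ
  · subst h; simp
  · simp [h, Ne.symm h]

theorem comp_comp (x : L) (ρ τ : Gal(L/K)) :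
    D.comp (D.comp x ρ) τ = if τ = ρ then D.comp x ρ else 0 := D.comp_smul_b _ ρ τ

theorem val_b (hG : GalStable (K := K) 𝒪) (τ : Gal(L/K)) :
    𝒪.valuation (D.b τ) = 𝒪.valuation (D.b 1) := by
  have := D.hb τ 1
  rw [mul_one] at this
  rw [← this, val_aut hG]

theorem val_smul_b (hG : GalStable (K := K) 𝒪) (a : K) (τ : Gal(L/K)) :
    𝒪.valuation (a • D.b τ) = 𝒪.valuation (a • D.b 1) := by
  rw [Algebra.smul_def, Algebra.smul_def, map_mul, map_mul, D.val_b hG]

theorem nmHom_mem_Wlat (hG : GalStable (K := K) 𝒪) {k : ℕ} {u : Lˣ} (hu : u ∈ D.Wlat k) :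
    nmHom K L u ∈ D.Wlat k := by
  rw [nmHom_apply]
  exact Subgroup.prod_mem _ fun τ _ => D.unitsAut_mem_Wlat hG hu τ

theorem dHom_mem_Wlat (hG : GalStable (K := K) 𝒪) (σ : Gal(L/K)) {k : ℕ} {u : Lˣ}
    (hu : u ∈ D.Wlat k) : dHom σ u ∈ D.Wlat k := by
  rw [dHom_apply]
  exact Subgroup.div_mem _ (D.unitsAut_mem_Wlat hG hu σ) hu

/-- norm approximation step -/
theorem approx_norm (hG : GalStable (K := K) 𝒪) {k : ℕ} {u : Lˣ} (hu : u ∈ D.Wlat k)
    (hfix : ∀ τ : Gal(L/K), τ (u : L) = u) :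
    ∃ y ∈ D.Wlat k, u / nmHom K L y ∈ D.Wlat (k + 1) := by
  set j := k + D.m₀ + 1 with hj
  set x : L := (u : L) - 1 with hx
  have hxM : x ∈ D.Mlat j := hu
  have hxfix : ∀ τ : Gal(L/K), τ x = x := fun τ => by rw [hx, map_sub, map_one, hfix]
  set z : L := D.comp x 1 with hz
  have hzM : z ∈ D.Mlat j := by
    intro τ
    rw [hz, D.comp_comp]
    split_ifs
    · exact hxM 1
    · rw [map_zero]; exact zero_le
  have hτz : ∀ τ : Gal(L/K), τ z = D.comp x τ := by
    intro τ
    have := D.comp_aut τ x τ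
    rw [hxfix, inv_mul_cancel] at this
    exact this.symm
  have hy1 : 𝒪.valuation (1 + z) = 1 :=
    val_eq_one_of_sub_one (j := j) (by omega)
      (by rw [add_sub_cancel_left]; exact D.val_le_of_mem_Mlat hzM)
  have hy0 : (1 + z) ≠ 0 := by
    intro h
    rw [h, map_zero] at hy1
    exact zero_ne_one hy1
  set y : Lˣ := Units.mk0 (1 + z) hy0 with hy
  have hyW : y ∈ D.Wlat k := by
    rw [mem_Wlat]
    show (1 + z) - 1 ∈ _
    rw [add_sub_cancel_left]
    exact hzM
  refine ⟨y, hyW, ?_⟩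
  have hNy : ((nmHom K L y : Lˣ) : L) = ∏ τ : Gal(L/K), (1 + D.comp x τ) := by
    rw [coe_nmHom']
    refine Finset.prod_congr rfl fun τ _ => ?_
    show τ (1 + z) = _
    rw [map_add, map_one, hτz]
  have hE : 𝒪.valuation (((nmHom K L y : Lˣ) : L) - u) ≤ (vpi 𝒪 ^ j) ^ 2 := by
    have := val_prod_one_add_sub_le 𝒪.valuation (δ := vpi 𝒪 ^ j)
      (pow_le_one₀ zero_le vpi_le_one) Finset.univ (fun τ => D.comp x τ) (fun τ _ => hxM τ)
    rw [D.sum_comp, ← hNy] at this
    have e : ((nmHom K L y : Lˣ) : L) - u = ((nmHom K L y : Lˣ) : L) - 1 - x := by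
      rw [hx]; ring
    rw [e]
    exact this
  have hNval : 𝒪.valuation ((nmHom K L y : Lˣ) : L) = 1 :=
    D.val_eq_one_of_mem_Wlat (D.nmHom_mem_Wlat hG hyW)
  rw [mem_Wlat]
  apply D.mem_Mlat_of_val_le
  have hN0 : ((nmHom K L y : Lˣ) : L) ≠ 0 := Units.ne_zero _
  have e : ((u / nmHom K L y : Lˣ) : L) - 1 =
      -(((nmHom K L y : Lˣ) : L) - u) * ((nmHom K L y : Lˣ) : L)⁻¹ := by
    rw [Units.val_div_eq_div_val]
    field_simp
    ring
  rw [e, map_mul, map_inv₀, hNval, inv_one, mul_one, Valuation.map_neg]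
  refine hE.trans ?_
  rw [← pow_mul]
  exact vpi_pow_anti (by omega)

/-- `σ y / y` approximation step -/
theorem approx_D (hG : GalStable (K := K) 𝒪) {σ : Gal(L/K)}
    (hσ : ∀ τ : Gal(L/K), τ ∈ Subgroup.zpowers σ) {k : ℕ} {u : Lˣ} (hu : u ∈ D.Wlat k)
    (hN : nmHom K L u = 1) :
    ∃ y ∈ D.Wlat k, u / dHom σ y ∈ D.Wlat (k + 1) := by
  set j := k + D.m₀ + 1 with hj
  set x : L := (u : L) - 1 with hx
  have hxM : x ∈ D.Mlat j := hu
  -- Step 1: the trace of `x` is small
  have hTr : 𝒪.valuation (∑ ρ : Gal(L/K), ρ x) ≤ (vpi 𝒪 ^ j) ^ 2 := by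
    have := val_prod_one_add_sub_le 𝒪.valuation (δ := vpi 𝒪 ^ j)
      (pow_le_one₀ zero_le vpi_le_one) Finset.univ (fun ρ : Gal(L/K) => ρ x)
      (fun ρ _ => by rw [val_aut hG]; exact D.val_le_of_mem_Mlat hxM)
    have hprod : ∏ ρ : Gal(L/K), (1 + ρ x) = 1 := by
      have h1 : ((nmHom K L u : Lˣ) : L) = 1 := by rw [hN]; rfl
      rw [coe_nmHom'] at h1
      calc ∏ ρ : Gal(L/K), (1 + ρ x) = ∏ ρ : Gal(L/K), ρ (u : L) :=
            Finset.prod_congr rfl fun ρ _ => by rw [hx, map_sub, map_one]; ring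
        _ = 1 := h1
    rw [hprod, sub_self, zero_sub, Valuation.map_neg] at this
    exact this
  have hTrM : (∑ ρ : Gal(L/K), ρ x) ∈ D.Mlat (j + 1) := by
    apply D.mem_Mlat_of_val_le
    refine hTr.trans ?_
    rw [← pow_mul]
    exact vpi_pow_anti (by omega)
  -- Step 2: the coordinates of the trace
  set c : Gal(L/K) → K := fun τ => D.b.repr x τ with hc
  set s : K := ∑ ρ, c ρ with hs
  have hreprTr : ∀ τ, D.b.repr (∑ ρ : Gal(L/K), ρ x) τ = s := by
    intro τ
    rw [map_sum, Finsupp.coe_finsetSum, Finset.sum_apply]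
    simp only [D.repr_aut]
    exact Fintype.sum_equiv ((Equiv.inv _).trans (Equiv.mulRight τ)) _ _ (fun ρ => rfl)
  have hs1 : 𝒪.valuation (s • D.b 1) ≤ vpi 𝒪 ^ (j + 1) := by
    have := hTrM 1
    unfold comp at this
    rwa [hreprTr] at this
  -- Step 3: solve the shift equation inside the subgroup of small coefficients
  let H : AddSubgroup K :=
    { carrier := {a | 𝒪.valuation (a • D.b 1) ≤ vpi 𝒪 ^ j}
      zero_mem' := by simp
      add_mem' := by
        intro a a' ha ha'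
        show 𝒪.valuation ((a + a') • D.b 1) ≤ _
        rw [add_smul]
        exact Valuation.map_add_le _ ha ha'
      neg_mem' := by
        intro a ha
        show 𝒪.valuation ((-a) • D.b 1) ≤ _
        rw [neg_smul, Valuation.map_neg]
        exact ha }
  have hcH : ∀ τ, c τ ∈ H := by
    intro τ
    show 𝒪.valuation (c τ • D.b 1) ≤ _
    rw [← D.val_smul_b hG (c τ) τ]
    exact hxM τ
  obtain ⟨d, hdH', hd⟩ := exists_shift_sub_mem hσ H c hcH
  have hdH : ∀ τ, 𝒪.valuation (d τ • D.b τ) ≤ vpi 𝒪 ^ j := fun τ => by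
    rw [D.val_smul_b hG]
    exact hdH' τ
  have hshift : ∀ τ, c τ + d τ - d (σ⁻¹ * τ) = if τ = 1 then s else 0 := by
    intro τ
    have := hd τ
    rw [sub_eq_sub_iff_add_eq_add] at this
    rw [sub_eq_iff_eq_add, ← this]
    exact add_comm _ _
  -- Step 4: the element `y`
  set z : L := ∑ τ, d τ • D.b τ with hz
  have hreprz : ∀ τ, D.b.repr z τ = d τ := by
    intro τ
    rw [hz, Module.Basis.repr_sum_self]
  have hzM : z ∈ D.Mlat j := by
    intro τ
    unfold comp
    rw [hreprz]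
    exact hdH τ
  have hy1 : 𝒪.valuation (1 + z) = 1 :=
    val_eq_one_of_sub_one (j := j) (by omega)
      (by rw [add_sub_cancel_left]; exact D.val_le_of_mem_Mlat hzM)
  have hy0 : (1 + z) ≠ 0 := by
    intro h
    rw [h, map_zero] at hy1
    exact zero_ne_one hy1
  set y : Lˣ := Units.mk0 (1 + z) hy0 with hy
  have hyW : y ∈ D.Wlat k := by
    rw [mem_Wlat]
    show (1 + z) - 1 ∈ _
    rw [add_sub_cancel_left]
    exact hzM
  refine ⟨y, hyW, ?_⟩
  -- Step 5
  have hw1 : x + z - σ z ∈ D.Mlat (j + 1) := by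
    intro τ
    have : D.comp (x + z - σ z) τ = (if τ = 1 then s else 0) • D.b τ := by
      unfold comp
      rw [map_sub, map_add, Finsupp.sub_apply, Finsupp.add_apply, D.repr_aut, hreprz, hreprz,
        ← hshift τ]
    rw [this]
    split_ifs with h
    · subst h; exact hs1
    · rw [zero_smul, map_zero]; exact zero_le
  have hw2 : x * z ∈ D.Mlat (j + 1) :=
    D.mul_mem_Mlat (D.val_le_of_mem_Mlat hxM) (D.val_le_of_mem_Mlat hzM) (by omega)
  set w : L := x + z - σ z + x * z with hw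
  have hwM : w ∈ D.Mlat (j + 1) := add_mem hw1 hw2
  have hσy1 : 𝒪.valuation (1 + σ z) = 1 := by
    have : 1 + σ z = σ (1 + z) := by rw [map_add, map_one]
    rw [this, val_aut hG, hy1]
  have hσy0 : (1 + σ z) ≠ 0 := by
    intro h
    rw [h, map_zero] at hσy1
    exact zero_ne_one hσy1
  have e : ((u / dHom σ y : Lˣ) : L) - 1 = w + w * (-(σ z) * (1 + σ z)⁻¹) := by
    have hu' : (u : L) = 1 + x := by rw [hx]; ring
    have h1 : ((dHom σ y : Lˣ) : L) = (1 + σ z) / (1 + z) := by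
      rw [dHom_apply, Units.val_div_eq_div_val]
      show σ (1 + z) / (1 + z) = _
      rw [map_add, map_one]
    rw [Units.val_div_eq_div_val, h1, hu', hw]
    field_simp
    ring
  have hjj : k + 1 + D.m₀ + 1 = j + 1 := by omega
  rw [mem_Wlat, hjj, e]
  refine add_mem hwM (D.mul_mem_Mlat (D.val_le_of_mem_Mlat hwM) (j := j) ?_ (by omega))
  rw [map_mul, map_inv₀, hσy1, inv_one, mul_one, Valuation.map_neg, val_aut hG]
  exact D.val_le_of_mem_Mlat hzM

end NBData

end Fermat.Agent.S55lib.LocalH
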