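/-
S55lib / LocalH / UnitsH (helper6).
For a cyclic extension `L/K` with Galois-stable complete discrete valuation subring `𝒪 ⊂ L` with
finite residue field: the unit group has trivial Herbrand quotient, and
`[Kˣ : N Lˣ] = [L : K]` (in the form `hIdx (dHom σ) (nmHom K L) = card Gal(L/K)`).
-/
import Mathlib
import Fermat.Agent.S55lib.LocalH.LatticeApprox
import Fermat.Agent.S55lib.LocalH.Approx

set_option autoImplicit false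

namespace Fermat.Agent.S55lib.LocalH

open scoped Classical

variable {K L : Type} [Field K] [Field L] [Algebra K L] [FiniteDimensional K L] [IsGalois K L]
variable {𝒪 : ValuationSubring L} [IsDiscreteValuationRing 𝒪]

variable (𝒪) in
/-- the inclusion `𝒪ˣ → Lˣ` -/
def unitsIncl : 𝒪ˣ →* Lˣ := Units.map (𝒪.subtype : 𝒪 →* L)

@[simp] theorem coe_unitsIncl (u : 𝒪ˣ) : ((unitsIncl 𝒪 u : Lˣ) : L) = ((u : 𝒪) : L) := rfl

theorem unitsIncl_injective : Function.Injective (unitsIncl 𝒪) := by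
  intro u w h
  apply Units.ext
  apply Subtype.ext
  have := congrArg (fun x : Lˣ => (x : L)) h
  simpa using this

theorem unitsIncl_mem_unitGroup (u : 𝒪ˣ) : unitsIncl 𝒪 u ∈ 𝒪.unitGroup := by
  rw [ValuationSubring.mem_unitGroup_iff]
  exact 𝒪.valuation_unit u

theorem exists_unitsIncl_eq {x : Lˣ} (hx : x ∈ 𝒪.unitGroup) : ∃ u : 𝒪ˣ, unitsIncl 𝒪 u = x := by
  refine ⟨𝒪.unitGroupMulEquiv ⟨x, hx⟩, Units.ext ?_⟩
  exact 𝒪.coe_unitGroupMulEquiv_apply ⟨x, hx⟩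

theorem range_unitsIncl : (unitsIncl 𝒪).range = 𝒪.unitGroup := by
  ext x
  constructor
  · rintro ⟨u, rfl⟩
    exact unitsIncl_mem_unitGroup u
  · intro hx
    exact exists_unitsIncl_eq hx

/-- the norm on `𝒪ˣ` -/
noncomputable def nmUnits (hG : GalStable (K := K) 𝒪) : 𝒪ˣ →* 𝒪ˣ :=
  ∏ τ : Gal(L/K), Units.map (((galRestrict hG τ : 𝒪 ≃+* 𝒪) : 𝒪 →+* 𝒪) : 𝒪 →* 𝒪)

/-- `u ↦ σ u / u` on `𝒪ˣ` -/
noncomputable def dUnits (hG : GalStable (K := K) 𝒪) (σ : Gal(L/K)) : 𝒪ˣ →* 𝒪ˣ :=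
  Units.map (((galRestrict hG σ : 𝒪 ≃+* 𝒪) : 𝒪 →+* 𝒪) : 𝒪 →* 𝒪) / MonoidHom.id _

theorem unitsIncl_map_galRestrict (hG : GalStable (K := K) 𝒪) (τ : Gal(L/K)) (u : 𝒪ˣ) :
    unitsIncl 𝒪 (Units.map (((galRestrict hG τ : 𝒪 ≃+* 𝒪) : 𝒪 →+* 𝒪) : 𝒪 →* 𝒪) u) =
      unitsAut τ (unitsIncl 𝒪 u) := Units.ext rfl

theorem unitsIncl_nmUnits (hG : GalStable (K := K) 𝒪) (u : 𝒪ˣ) :
    unitsIncl 𝒪 (nmUnits hG u) = nmHom K L (unitsIncl 𝒪 u) := by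
  unfold nmUnits
  rw [MonoidHom.finset_prod_apply, map_prod, nmHom_apply]
  exact Finset.prod_congr rfl fun τ _ => unitsIncl_map_galRestrict hG τ u

theorem unitsIncl_dUnits (hG : GalStable (K := K) 𝒪) (σ : Gal(L/K)) (u : 𝒪ˣ) :
    unitsIncl 𝒪 (dUnits hG σ u) = dHom σ (unitsIncl 𝒪 u) := by
  unfold dUnits
  rw [MonoidHom.div_apply, map_div, dHom_apply, unitsIncl_map_galRestrict]
  rfl

theorem galRestrict_mem_pow (hG : GalStable (K := K) 𝒪) (τ : Gal(L/K)) (k : ℕ) (x : 𝒪)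
    (hx : x ∈ IsLocalRing.maximalIdeal 𝒪 ^ k) :
    ((galRestrict hG τ : 𝒪 ≃+* 𝒪) : 𝒪 →+* 𝒪) x ∈ IsLocalRing.maximalIdeal 𝒪 ^ k := by
  rw [mem_maxIdeal_pow_iff] at hx ⊢
  show 𝒪.valuation (τ (x : L)) ≤ _
  rw [val_aut hG]
  exact hx

theorem isAdicCont_nmUnits (hG : GalStable (K := K) 𝒪) :
    IsAdicCont (IsLocalRing.maximalIdeal 𝒪) (nmUnits hG) :=
  IsAdicCont.finset_prod _ _ fun τ _ => IsAdicCont.unitsMap _ (galRestrict_mem_pow hG τ)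

theorem isAdicCont_dUnits (hG : GalStable (K := K) 𝒪) (σ : Gal(L/K)) :
    IsAdicCont (IsLocalRing.maximalIdeal 𝒪) (dUnits hG σ) :=
  (IsAdicCont.unitsMap _ (galRestrict_mem_pow hG σ)).div IsAdicCont.id

namespace NBData

variable (D : NBData K 𝒪)

/-- the filtration on `𝒪ˣ` -/
def Wun (k : ℕ) : Subgroup 𝒪ˣ := (D.Wlat k).comap (unitsIncl 𝒪)

theorem mem_Wun {k : ℕ} {u : 𝒪ˣ} : u ∈ D.Wun k ↔ unitsIncl 𝒪 u ∈ D.Wlat k := Iff.rfl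

theorem Wun_succ_le (k : ℕ) : D.Wun (k + 1) ≤ D.Wun k :=
  Subgroup.comap_mono (D.Wlat_anti (Nat.le_succ k))

theorem Wun_sub_one_mem (k : ℕ) (w : 𝒪ˣ) (hw : w ∈ D.Wun k) :
    ((w : 𝒪ˣ) : 𝒪) - 1 ∈ IsLocalRing.maximalIdeal 𝒪 ^ (k + 1) := by
  rw [mem_maxIdeal_pow_iff]
  have h : 𝒪.valuation (((w : 𝒪) : L) - 1) ≤ vpi 𝒪 ^ (k + D.m₀ + 1) :=
    D.val_le_of_mem_Mlat hw
  exact h.trans (vpi_pow_anti (by omega))

theorem Wun_closed (z : 𝒪ˣ)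
    (hz : ∀ k, ∃ w ∈ D.Wun 0, ((z : 𝒪ˣ) : 𝒪) - w ∈ IsLocalRing.maximalIdeal 𝒪 ^ k) :
    z ∈ D.Wun 0 := by
  obtain ⟨w, hw, hzw⟩ := hz ((0 + D.m₀ + 1) + D.m₀)
  rw [mem_maxIdeal_pow_iff] at hzw
  rw [mem_Wun, mem_Wlat]
  have e : ((unitsIncl 𝒪 z : Lˣ) : L) - 1 =
      (((z : 𝒪) : L) - ((w : 𝒪) : L)) + (((unitsIncl 𝒪 w : Lˣ) : L) - 1) := by
    simp
  rw [e]
  exact add_mem (D.mem_Mlat_of_val_le hzw) hw

end NBData

theorem isUnit_of_sub_one_mem (x : 𝒪) (hx : x - 1 ∈ IsLocalRing.maximalIdeal 𝒪) : IsUnit x := by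
  by_contra h
  have hx' : x ∈ IsLocalRing.maximalIdeal 𝒪 := (IsLocalRing.mem_maximalIdeal x).mpr h
  have h1 : (1 : 𝒪) ∈ IsLocalRing.maximalIdeal 𝒪 := by
    have := Ideal.sub_mem _ hx' hx
    simpa using this
  exact (IsLocalRing.maximalIdeal.isMaximal 𝒪).ne_top ((Ideal.eq_top_iff_one _).mpr h1)

section Complete

variable [IsAdicComplete (IsLocalRing.maximalIdeal 𝒪) 𝒪] {σ : Gal(L/K)}

namespace NBData

variable (D : NBData K 𝒪)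

/-- `Ĥ⁰(W) = 0` -/
theorem exists_norm_eq (hG : GalStable (K := K) 𝒪) (hσ : ∀ τ : Gal(L/K), τ ∈ Subgroup.zpowers σ)
    {u : Lˣ} (hu : u ∈ D.Wlat 0) (hD : dHom σ u = 1) : ∃ y ∈ D.Wlat 0, nmHom K L y = u := by
  obtain ⟨u', rfl⟩ := exists_unitsIncl_eq (D.Wlat_le_unitGroup 0 hu)
  have happrox : ∀ k, ∀ w ∈ (dHom σ).ker.comap (unitsIncl 𝒪) ⊓ D.Wun k,
      ∃ y ∈ D.Wun k, w / nmUnits hG y ∈ (dHom σ).ker.comap (unitsIncl 𝒪) ⊓ D.Wun (k + 1) := by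
    rintro k w ⟨hwT, hwW⟩
    have hwT' : dHom σ (unitsIncl 𝒪 w) = 1 := MonoidHom.mem_ker.mp hwT
    have hfix : ∀ τ : Gal(L/K), τ ((unitsIncl 𝒪 w : Lˣ) : L) = (unitsIncl 𝒪 w : Lˣ) := by
      have hmem : unitsIncl 𝒪 w ∈ (dHom σ).ker := hwT
      rw [ker_dHom hσ] at hmem
      obtain ⟨a, ha⟩ := hmem
      intro τ
      rw [← ha]
      exact τ.commutes _
    obtain ⟨y, hy, hyw⟩ := D.approx_norm hG hwW hfix
    obtain ⟨y', rfl⟩ := exists_unitsIncl_eq (D.Wlat_le_unitGroup k hy)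
    refine ⟨y', hy, ?_, ?_⟩
    · show dHom σ (unitsIncl 𝒪 (w / nmUnits hG y')) = 1
      rw [map_div, map_div, unitsIncl_nmUnits, dHom_nmHom, hwT', div_one]
    · show unitsIncl 𝒪 (w / nmUnits hG y') ∈ D.Wlat (k + 1)
      rw [map_div, unitsIncl_nmUnits]
      exact hyw
  obtain ⟨P, hP, hΦ⟩ := exists_preimage_of_approx (IsLocalRing.maximalIdeal 𝒪)
    isUnit_of_sub_one_mem D.Wun D.Wun_succ_le D.Wun_sub_one_mem D.Wun_closed (nmUnits hG)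
    (isAdicCont_nmUnits hG) ((dHom σ).ker.comap (unitsIncl 𝒪)) happrox u' ⟨hD, hu⟩
  exact ⟨unitsIncl 𝒪 P, hP, by rw [← unitsIncl_nmUnits hG, hΦ]⟩

/-- `Ĥ⁻¹(W) = 0` -/
theorem exists_dHom_eq (hG : GalStable (K := K) 𝒪) (hσ : ∀ τ : Gal(L/K), τ ∈ Subgroup.zpowers σ)
    {u : Lˣ} (hu : u ∈ D.Wlat 0) (hN : nmHom K L u = 1) : ∃ y ∈ D.Wlat 0, dHom σ y = u := by
  obtain ⟨u', rfl⟩ := exists_unitsIncl_eq (D.Wlat_le_unitGroup 0 hu)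
  have happrox : ∀ k, ∀ w ∈ (nmHom K L).ker.comap (unitsIncl 𝒪) ⊓ D.Wun k,
      ∃ y ∈ D.Wun k, w / dUnits hG σ y ∈ (nmHom K L).ker.comap (unitsIncl 𝒪) ⊓ D.Wun (k + 1) := by
    rintro k w ⟨hwT, hwW⟩
    have hwT' : nmHom K L (unitsIncl 𝒪 w) = 1 := MonoidHom.mem_ker.mp hwT
    obtain ⟨y, hy, hyw⟩ := D.approx_D hG hσ hwW hwT'
    obtain ⟨y', rfl⟩ := exists_unitsIncl_eq (D.Wlat_le_unitGroup k hy)
    refine ⟨y', hy, ?_, ?_⟩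
    · show nmHom K L (unitsIncl 𝒪 (w / dUnits hG σ y')) = 1
      rw [map_div, map_div, unitsIncl_dUnits, nmHom_dHom, hwT', div_one]
    · show unitsIncl 𝒪 (w / dUnits hG σ y') ∈ D.Wlat (k + 1)
      rw [map_div, unitsIncl_dUnits]
      exact hyw
  obtain ⟨P, hP, hΦ⟩ := exists_preimage_of_approx (IsLocalRing.maximalIdeal 𝒪)
    isUnit_of_sub_one_mem D.Wun D.Wun_succ_le D.Wun_sub_one_mem D.Wun_closed (dUnits hG σ)
    (isAdicCont_dUnits hG σ) ((nmHom K L).ker.comap (unitsIncl 𝒪)) happrox u' ⟨hN, hu⟩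
  exact ⟨unitsIncl 𝒪 P, hP, by rw [← unitsIncl_dUnits hG, hΦ]⟩

theorem hIdxSub_dHom_nmHom_Wlat (hG : GalStable (K := K) 𝒪)
    (hσ : ∀ τ : Gal(L/K), τ ∈ Subgroup.zpowers σ) :
    hIdxSub (dHom σ) (nmHom K L) (D.Wlat 0) = 1 := by
  unfold hIdxSub
  rw [Subgroup.relIndex_eq_one]
  rintro u ⟨hu, hD⟩
  obtain ⟨y, hy, rfl⟩ := D.exists_norm_eq hG hσ hu (MonoidHom.mem_ker.mp hD)
  exact ⟨y, hy, rfl⟩

theorem hIdxSub_nmHom_dHom_Wlat (hG : GalStable (K := K) 𝒪)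
    (hσ : ∀ τ : Gal(L/K), τ ∈ Subgroup.zpowers σ) :
    hIdxSub (nmHom K L) (dHom σ) (D.Wlat 0) = 1 := by
  unfold hIdxSub
  rw [Subgroup.relIndex_eq_one]
  rintro u ⟨hu, hN⟩
  obtain ⟨y, hy, rfl⟩ := D.exists_dHom_eq hG hσ hu (MonoidHom.mem_ker.mp hN)
  exact ⟨y, hy, rfl⟩

end NBData

end Complete

namespace NBData

variable (D : NBData K 𝒪)

theorem relIndex_Wlat_ne_zero [Finite (IsLocalRing.ResidueField 𝒪)] (k : ℕ) :
    (D.Wlat k).relIndex 𝒪.unitGroup ≠ 0 := by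
  rw [← range_unitsIncl, ← Subgroup.index_comap]
  set n := (k + D.m₀ + 1) + D.m₀ with hn
  let q : 𝒪ˣ →* (𝒪 ⧸ IsLocalRing.maximalIdeal 𝒪 ^ n)ˣ :=
    Units.map ((Ideal.Quotient.mk (IsLocalRing.maximalIdeal 𝒪 ^ n) : 𝒪 →+* _) : 𝒪 →* _)
  haveI : Finite (𝒪 ⧸ IsLocalRing.maximalIdeal 𝒪) :=
    inferInstanceAs (Finite (IsLocalRing.ResidueField 𝒪))
  haveI : Finite (𝒪 ⧸ IsLocalRing.maximalIdeal 𝒪 ^ n) :=
    Ideal.finite_quotient_pow (IsNoetherian.noetherian _) n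
  have hker : q.ker ≤ (D.Wlat k).comap (unitsIncl 𝒪) := by
    intro u hu
    have h1 : Units.val (q u) = 1 := by
      rw [MonoidHom.mem_ker.mp hu]; rfl
    have h2 : ((u : 𝒪) - 1) ∈ IsLocalRing.maximalIdeal 𝒪 ^ n := by
      rw [← Ideal.Quotient.eq_zero_iff_mem, map_sub, map_one, sub_eq_zero]
      exact h1
    rw [mem_maxIdeal_pow_iff] at h2
    show unitsIncl 𝒪 u ∈ D.Wlat k
    rw [mem_Wlat]
    exact D.mem_Mlat_of_val_le h2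
  have : q.ker.FiniteIndex := inferInstance
  exact (Subgroup.finiteIndex_of_le hker).index_ne_zero

end NBData

section Main

variable [IsAdicComplete (IsLocalRing.maximalIdeal 𝒪) 𝒪] [Finite (IsLocalRing.ResidueField 𝒪)]
  {σ : Gal(L/K)}

/-- **The unit group has trivial Herbrand quotient** (and both indices are finite). -/
theorem hIdxSub_unitGroup (hG : GalStable (K := K) 𝒪)
    (hσ : ∀ τ : Gal(L/K), τ ∈ Subgroup.zpowers σ) :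
    hIdxSub (dHom σ) (nmHom K L) 𝒪.unitGroup = hIdxSub (nmHom K L) (dHom σ) 𝒪.unitGroup ∧
      hIdxSub (dHom σ) (nmHom K L) 𝒪.unitGroup ≠ 0 := by
  obtain ⟨D⟩ := nonempty_nbData hG
  exact hIdxSub_eq_of_relIndex_ne_zero (dHom_nmHom σ) (nmHom_dHom σ)
    (fun b _ => dHom_mem_unitGroup hG σ b)
    (fun b hb => (nmHom_mem_unitGroup_iff hG b).mpr hb)
    (fun _ hb => D.dHom_mem_Wlat hG σ hb) (fun _ hb => D.nmHom_mem_Wlat hG hb)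
    (D.Wlat_le_unitGroup 0) (D.relIndex_Wlat_ne_zero 0)
    (D.hIdxSub_dHom_nmHom_Wlat hG hσ) (D.hIdxSub_nmHom_dHom_Wlat hG hσ)

/-- **Local norm index for cyclic extensions**: `[Kˣ : N Lˣ] = [L : K]`, in the form
`[ker (x ↦ σx/x) : range N] = card Gal(L/K)`. -/
theorem hIdx_dHom_nmHom (hG : GalStable (K := K) 𝒪)
    (hσ : ∀ τ : Gal(L/K), τ ∈ Subgroup.zpowers σ) :
    hIdx (dHom σ) (nmHom K L) = Fintype.card Gal(L/K) := by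
  obtain ⟨h1, h2⟩ := hIdxSub_unitGroup hG hσ
  have key := hIdx_mul (f := dHom σ) (g := nmHom K L) (B := 𝒪.unitGroup)
    (dHom_nmHom σ) (nmHom_dHom σ) (fun b _ => dHom_mem_unitGroup hG σ b)
    (fun b hb => (nmHom_mem_unitGroup_iff hG b).mpr hb)
  rw [hIdx_nmHom_dHom hσ, hIdxQuot_nmHom_dHom hG, hIdxQuot_dHom_nmHom hG, ← h1, mul_one, one_mul]
    at key
  rw [mul_comm] at key
  exact Nat.eq_of_mul_eq_mul_left (Nat.pos_of_ne_zero h2) key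

/-- the same as an index in `Kˣ`-language: `[baseUnits : range N] = card Gal(L/K)` -/
theorem relIndex_range_nmHom_baseUnits (hG : GalStable (K := K) 𝒪)
    (hσ : ∀ τ : Gal(L/K), τ ∈ Subgroup.zpowers σ) :
    (nmHom K L).range.relIndex (baseUnits (K := K) (L := L)) = Fintype.card Gal(L/K) := by
  rw [← ker_dHom hσ]
  exact hIdx_dHom_nmHom hG hσ

end Main

end Fermat.Agent.S55lib.LocalH
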