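/-
S55lib / LocalH / CyclicH2 (helper6).
For a cyclic extension `L/K` with Galois-stable complete discrete valuation subring `𝒪 ⊂ L` with
finite residue field: `H²(Gal(L/K), Lˣ)` (Mathlib's `groupCohomology.H2` of
`Rep.ofAlgebraAutOnUnits K L`) has exactly `[L : K]` elements.
Bridge: helper9's cyclic cup-δ calculus (`Recip/CupDelta.lean`) + the local norm index theorem.
-/
import Mathlib
import Fermat.Agent.S55lib.LocalH.UnitsH
import Fermat.Agent.S55lib.Recip.CupDelta

set_option autoImplicit false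

namespace Fermat.Agent.S55lib.LocalH

open scoped Classical
open groupCohomology Fermat.Agent.S55lib.Recip

section ToA

variable {K L : Type} [Field K] [Field L] [Algebra K L]

variable (K) in
/-- `Lˣ → (Rep.ofAlgebraAutOnUnits K L)` -/
def toA (x : Lˣ) : Rep.ofAlgebraAutOnUnits K L := Additive.ofMul x

variable (K) in
/-- `(Rep.ofAlgebraAutOnUnits K L) → Lˣ` -/
def ofA (a : Rep.ofAlgebraAutOnUnits K L) : Lˣ := Additive.toMul a

@[simp] theorem toA_ofA (a : Rep.ofAlgebraAutOnUnits K L) : toA K (ofA K a) = a := rfl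

@[simp] theorem ofA_toA (x : Lˣ) : ofA K (toA K x) = x := rfl

theorem toA_injective : Function.Injective (toA K (L := L)) := fun x y h => by
  have := congrArg (ofA K) h
  simpa using this

theorem toA_mul (x y : Lˣ) : toA K (x * y) = toA K x + toA K y := rfl

theorem toA_one : toA K (1 : Lˣ) = 0 := rfl

theorem ofA_add (a b : Rep.ofAlgebraAutOnUnits K L) : ofA K (a + b) = ofA K a * ofA K b := rfl

theorem ofA_zero : ofA K (0 : Rep.ofAlgebraAutOnUnits K L) = 1 := rfl

theorem coe_ofA_ρ (g : L ≃ₐ[K] L) (a : Rep.ofAlgebraAutOnUnits K L) :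
    ((ofA K ((Rep.ofAlgebraAutOnUnits K L).ρ g a) : Lˣ) : L) = g ((ofA K a : Lˣ) : L) := rfl

end ToA

variable {K L : Type} [Field K] [Field L] [Algebra K L] [FiniteDimensional K L] [IsGalois K L]

theorem ρ_toA (g : Gal(L/K)) (x : Lˣ) :
    (Rep.ofAlgebraAutOnUnits K L).ρ g (toA K x) = toA K (unitsAut g x) := rfl

theorem ρ_toA_of_mem_baseUnits {x : Lˣ} (hx : x ∈ baseUnits (K := K) (L := L))
    (g : Gal(L/K)) :
    (Rep.ofAlgebraAutOnUnits K L).ρ g (toA K x) = toA K x := by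
  rw [ρ_toA]
  congr 1
  obtain ⟨a, rfl⟩ := hx
  apply Units.ext
  simp

theorem norm_toA (y : Lˣ) :
    (Rep.ofAlgebraAutOnUnits K L).ρ.norm (toA K y) = toA K (nmHom K L y) := by
  have h := Representation.norm_ofMulDistribMulAction_eq (G := Gal(L/K)) (M := Lˣ)
    (Additive.ofMul y)
  have h2 : (∏ g : Gal(L/K), g • Additive.toMul (Additive.ofMul y)) = nmHom K L y := by
    rw [nmHom_apply]; rfl
  rw [h2] at h
  exact Additive.toMul.injective h

section

variable {n : ℕ} [NeZero n] {χ : Gal(L/K) → ZMod n} (hχ : ∀ g h, χ (g * h) = χ g + χ h)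

/-- `x ↦ x ∪ δχ` as a homomorphism `Kˣ → H²(Gal(L/K), Lˣ)` -/
noncomputable def cupHom :
    baseUnits (K := K) (L := L) →* Multiplicative (H2 (Rep.ofAlgebraAutOnUnits K L)) where
  toFun x := Multiplicative.ofAdd (cupδ χ hχ (toA K (x : Lˣ)) (ρ_toA_of_mem_baseUnits x.2))
  map_one' := by
    rw [← ofAdd_zero]
    congr 1
    exact cupδ_zero hχ
  map_mul' x y := by
    rw [← ofAdd_add]
    congr 1
    exact cupδ_add hχ (toA K (x : Lˣ)) (toA K (y : Lˣ)) (ρ_toA_of_mem_baseUnits x.2)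
      (ρ_toA_of_mem_baseUnits y.2)

theorem cupHom_apply (x : baseUnits (K := K) (L := L)) :
    cupHom hχ x =
      Multiplicative.ofAdd (cupδ χ hχ (toA K (x : Lˣ)) (ρ_toA_of_mem_baseUnits x.2)) := rfl

variable (hinj : Function.Injective χ) {σ : Gal(L/K)} (hσ1 : χ σ = 1)

include hinj hσ1 in
theorem cupHom_surjective (hσ : ∀ τ : Gal(L/K), τ ∈ Subgroup.zpowers σ) :
    Function.Surjective (cupHom (K := K) (L := L) hχ) := by
  intro c
  obtain ⟨a, ha, hc⟩ := exists_eq_cupδ hχ hinj hσ1 (Multiplicative.toAdd c)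
  have hx : ofA K a ∈ baseUnits (K := K) (L := L) := by
    rw [← ker_dHom hσ, MonoidHom.mem_ker, dHom_apply, div_eq_one]
    have h := ha σ
    rw [← toA_ofA a, ρ_toA] at h
    exact toA_injective h
  refine ⟨⟨ofA K a, hx⟩, ?_⟩
  rw [cupHom_apply]
  apply Multiplicative.toAdd.injective
  rw [toAdd_ofAdd, hc]
  rfl

include hinj hσ1 in
theorem ker_cupHom :
    (cupHom (K := K) (L := L) hχ).ker = (nmHom K L).range.subgroupOf baseUnits := by
  ext x
  rw [MonoidHom.mem_ker, Subgroup.mem_subgroupOf, cupHom_apply]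
  have h1 : (Multiplicative.ofAdd (cupδ χ hχ (toA K (x : Lˣ))
      (ρ_toA_of_mem_baseUnits x.2)) = 1) ↔
      cupδ χ hχ (toA K (x : Lˣ)) (ρ_toA_of_mem_baseUnits x.2) = 0 := by
    rw [← ofAdd_zero]
    exact Multiplicative.ofAdd.injective.eq_iff
  rw [h1, cupδ_eq_zero_iff hχ hinj hσ1]
  constructor
  · rintro ⟨b, hb⟩
    refine ⟨ofA K b, ?_⟩
    have h2 := norm_toA (K := K) (L := L) (ofA K b)
    rw [toA_ofA] at h2
    exact toA_injective (h2.symm.trans hb)
  · rintro ⟨y, hy⟩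
    refine ⟨toA K y, ?_⟩
    rw [← hy]
    exact norm_toA y

end

/-- **`|H²(Gal(L/K), Lˣ)| = [L : K]` for cyclic `L/K`** over a complete discretely valued field with
finite residue field. -/
theorem card_H2_units_of_isCyclic {𝒪 : ValuationSubring L} [IsDiscreteValuationRing 𝒪]
    [IsAdicComplete (IsLocalRing.maximalIdeal 𝒪) 𝒪] [Finite (IsLocalRing.ResidueField 𝒪)]
    (hG : GalStable (K := K) 𝒪) [IsCyclic Gal(L/K)] :
    Nat.card (H2 (Rep.ofAlgebraAutOnUnits K L)) = Nat.card Gal(L/K) := by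
  haveI : NeZero (Nat.card Gal(L/K)) := ⟨Nat.card_pos.ne'⟩
  let e : Multiplicative (ZMod (Nat.card Gal(L/K))) ≃* Gal(L/K) :=
    zmodCyclicMulEquiv (inferInstance : IsCyclic Gal(L/K))
  let χ : Gal(L/K) → ZMod (Nat.card Gal(L/K)) := fun g => Multiplicative.toAdd (e.symm g)
  have hχ : ∀ g h, χ (g * h) = χ g + χ h := fun g h => by
    simp only [χ, map_mul, toAdd_mul]
  have hinj : Function.Injective χ := fun g h hgh =>
    e.symm.injective (Multiplicative.toAdd.injective hgh)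
  let σ : Gal(L/K) := e (Multiplicative.ofAdd 1)
  have hσ1 : χ σ = 1 := by simp [χ, σ]
  have hσ : ∀ τ : Gal(L/K), τ ∈ Subgroup.zpowers σ := by
    intro τ
    refine Subgroup.mem_zpowers_iff.mpr ⟨((χ τ).val : ℤ), ?_⟩
    apply hinj
    have h1 : ∀ m : ℕ, χ (σ ^ m) = (m : ZMod (Nat.card Gal(L/K))) := by
      intro m
      induction m with
      | zero => simp [χ]
      | succ m ih => rw [pow_succ, hχ, ih, hσ1]; push_cast; rfl
    rw [zpow_natCast, h1, ZMod.natCast_zmod_val]
  have hcard := Subgroup.index_ker (cupHom (K := K) (L := L) hχ)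
  rw [ker_cupHom hχ hinj hσ1, MonoidHom.range_eq_top.mpr (cupHom_surjective hχ hinj hσ1 hσ)]
    at hcard
  have h2 : ((nmHom K L).range.subgroupOf (baseUnits (K := K) (L := L))).index =
      (nmHom K L).range.relIndex (baseUnits (K := K) (L := L)) := rfl
  rw [h2, relIndex_range_nmHom_baseUnits hG hσ] at hcard
  rw [Nat.card_eq_fintype_card (α := Gal(L/K)), hcard]
  have h3 : Nat.card (⊤ : Subgroup (Multiplicative (H2 (Rep.ofAlgebraAutOnUnits K L)))) =
      Nat.card (Multiplicative (H2 (Rep.ofAlgebraAutOnUnits K L))) :=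
    Nat.card_congr Subgroup.topEquiv.toEquiv
  rw [h3]
  exact Nat.card_congr Multiplicative.ofAdd

end Fermat.Agent.S55lib.LocalH
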