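/-
S55lib / LocalH / Normed (helper6).
Instantiation of the abstract bundle of `LocalH` (`𝒪 : ValuationSubring L`, DVR, adically
complete, finite residue field, Galois stable) for a normed local field `L`
(`[NontriviallyNormedField L] [IsUltrametricDist L] [ProperSpace L]`, helper3's currency in
`LocalUnr/Basic.lean`), and the resulting concrete theorems for cyclic extensions.
-/
import Mathlib
import Fermat.Agent.S55lib.LocalUnr.Basic
import Fermat.Agent.S55lib.LocalH.CyclicH2

set_option autoImplicit false
set_option linter.unusedSectionVars false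

open scoped NormedField Valued NNReal

namespace Fermat.Agent.S55lib.LocalH

open Fermat.Agent.S55lib.LocalUnr groupCohomology

variable (L : Type) [NontriviallyNormedField L] [IsUltrametricDist L] [ProperSpace L]

/-- the unit ball of a normed local field as a valuation subring -/
noncomputable def normedIntegers : ValuationSubring L :=
  (Valued.v : Valuation L ℝ≥0).valuationSubring

theorem mem_normedIntegers (x : L) : x ∈ normedIntegers L ↔ ‖x‖ ≤ 1 := by
  unfold normedIntegers
  rw [Valuation.mem_valuationSubring_iff]
  exact (Valued.integer.mem_iff (K := L) (x := x))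

instance isDVR_normedIntegers : IsDiscreteValuationRing ↥(normedIntegers L) := isDVR_integer L

instance finite_residue_normedIntegers :
    Finite (IsLocalRing.ResidueField ↥(normedIntegers L)) := finite_residue L

open scoped Pointwise in
theorem isAdicComplete_integer : IsAdicComplete 𝓂[L] 𝒪[L] :=
  haveI := compactSpace_integer L
  haveI := isDVR_integer L
  { prec' := fun f hf => by
      let S n : Set 𝒪[L] := f n +ᵥ ((𝓂[L] ^ n : Ideal 𝒪[L]) : Set 𝒪[L])
      have hS n : S (n + 1) ⊆ S n := by
        apply (Set.vadd_set_subset_vadd_set_iff.mpr (Ideal.pow_le_pow_right n.le_succ)).trans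
        simpa [S] using (hf n.le_succ).symm
      have h n : IsClosed (S n) := (IsNoetherianRing.isClosed_ideal (𝓂[L] ^ n)).vadd (f n)
      obtain ⟨L', hL⟩ :=
        (h 0).isCompact.nonempty_iInter_of_sequence_nonempty_isCompact_isClosed S hS
          (by simp [S]) h
      refine ⟨L', fun n ↦ ?_⟩
      obtain ⟨y, hy, rfl⟩ := Set.mem_iInter.mp hL n
      simpa [SModEq.sub_mem] using hy }

instance isAdicComplete_normedIntegers :
    IsAdicComplete (IsLocalRing.maximalIdeal ↥(normedIntegers L)) ↥(normedIntegers L) :=
  isAdicComplete_integer L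

section Galois

variable (K : Type) [Field K] [Algebra K L] [FiniteDimensional K L] [IsGalois K L]

variable {L K} in
/-- Galois stability of the unit ball from Galois invariance of the norm -/
theorem galStable_normedIntegers (hnorm : ∀ (τ : Gal(L/K)) (x : L), ‖τ x‖ = ‖x‖) :
    GalStable (K := K) (normedIntegers L) := fun τ x hx => by
  rw [mem_normedIntegers] at hx ⊢
  rwa [hnorm τ x]

variable {L K} in
/-- **Local norm index**: `[Kˣ : N Lˣ] = [L : K]` for a cyclic extension `L/K` of a normed local
field `L` (the norm being Galois invariant). -/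
theorem normed_relIndex_range_nmHom (hnorm : ∀ (τ : Gal(L/K)) (x : L), ‖τ x‖ = ‖x‖)
    {σ : Gal(L/K)} (hσ : ∀ τ : Gal(L/K), τ ∈ Subgroup.zpowers σ) :
    (nmHom K L).range.relIndex (baseUnits (K := K) (L := L)) = Fintype.card Gal(L/K) :=
  relIndex_range_nmHom_baseUnits (galStable_normedIntegers hnorm) hσ

variable {L K} in
/-- **`|H²(Gal(L/K), Lˣ)| = [L : K]`** for a cyclic extension of a normed local field. -/
theorem normed_card_H2_of_isCyclic (hnorm : ∀ (τ : Gal(L/K)) (x : L), ‖τ x‖ = ‖x‖)
    [IsCyclic Gal(L/K)] :
    Nat.card (H2 (Rep.ofAlgebraAutOnUnits K L)) = Nat.card Gal(L/K) :=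
  card_H2_units_of_isCyclic (galStable_normedIntegers hnorm)

end Galois

section NormedBase

variable (K : Type) [NontriviallyNormedField K] [IsUltrametricDist K] [ProperSpace K]
  [NormedAlgebra K L] [FiniteDimensional K L] [IsGalois K L]

/-- for a normed base field the Galois invariance of the norm is automatic -/
theorem norm_gal_eq (τ : Gal(L/K)) (x : L) : ‖τ x‖ = ‖x‖ := norm_algEquiv K L τ x

/-- the same for an intermediate base field -/
theorem norm_gal_intermediate_eq (E : IntermediateField K L) (τ : Gal(L/E)) (x : L) :
    ‖τ x‖ = ‖x‖ := norm_algEquiv K L (τ.restrictScalars K) x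

end NormedBase

end Fermat.Agent.S55lib.LocalH
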