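/-
S55lib / LocalH / GalInfRes (helper6).
Inflation–restriction in degree 2 for the multiplicative group in a tower of finite Galois
extensions `F ⊂ M ⊂ N` (`N/F` and `M/F` Galois), in the `resHom`/units-map language:
* `galInf F M N : H²(Gal(M/F), Mˣ) → H²(Gal(N/F), Nˣ)` is injective;
* a class of `H²(Gal(N/F), Nˣ)` whose restriction `galRes F M N` to `Gal(N/M)` vanishes is inflated
  from `H²(Gal(M/F), Mˣ)`.
Proof: helper5's `Dev/InfRes2` transported through `groupCohomology.mapIso`, with Hilbert 90.
-/
import Mathlib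
import Fermat.Agent.S55lib.LocalH.CyclicH2
import Fermat.Agent.S55lib.Dev.InfRes2
import Fermat.Agent.S55lib.LocalUnr.Tower

set_option autoImplicit false
set_option linter.unusedSectionVars false
set_option linter.style.haveILetI false

namespace Fermat.Agent.S55lib.LocalH

open groupCohomology CategoryTheory Rep Fermat.Agent.S55lib.Dev Fermat.Agent.S55lib.LocalUnr

section GalMap

variable (K K' L L' : Type) [Field K] [Field K'] [Field L] [Field L'] [Algebra K K']
  [Algebra K L] [Algebra K L'] [Algebra K' L'] [Algebra L L'] [IsScalarTower K K' L']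
  [IsScalarTower K L L'] [Normal K L]

theorem algebraMap_resHom' (σ : L' ≃ₐ[K'] L') (x : L) :
    algebraMap L L' (LocalUnr.resHom K K' L L' σ x) = σ (algebraMap L L' x) :=
  AlgEquiv.restrictNormal_commutes (σ.restrictScalars K) L x

/-- The inclusion `Lˣ → L'ˣ` as a morphism of representations along `resHom` (plain fields). -/
noncomputable def galUnitsMap :
    Rep.res (LocalUnr.resHom K K' L L') (Rep.ofAlgebraAutOnUnits K L) ⟶ Rep.ofAlgebraAutOnUnits K' L' :=
  Rep.ofHom
    { toLinearMap := (MonoidHom.toAdditive (Units.map (algebraMap L L' : L →* L'))).toIntLinearMap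
      isIntertwining' := fun g => by
        ext v
        exact algebraMap_resHom' K K' L L' g _ }

theorem coe_galUnitsMap (a : Rep.ofAlgebraAutOnUnits K L) :
    ((ofA K' ((galUnitsMap K K' L L').hom a) : L'ˣ) : L') =
      algebraMap L L' ((ofA K a : Lˣ) : L) := rfl

end GalMap

section Tower

variable (F M N : Type) [Field F] [Field M] [Field N] [Algebra F M] [Algebra F N] [Algebra M N]
  [IsScalarTower F M N] [FiniteDimensional F N] [IsGalois F N] [IsGalois F M]

/-- inflation `H²(Gal(M/F), Mˣ) → H²(Gal(N/F), Nˣ)` -/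
noncomputable abbrev galInf (n : ℕ) :
    groupCohomology (Rep.ofAlgebraAutOnUnits F M) n ⟶
      groupCohomology (Rep.ofAlgebraAutOnUnits F N) n :=
  groupCohomology.map (LocalUnr.resHom F F M N) (galUnitsMap F F M N) n

/-- restriction `H²(Gal(N/F), Nˣ) → H²(Gal(N/M), Nˣ)` -/
noncomputable abbrev galRes (n : ℕ) :
    groupCohomology (Rep.ofAlgebraAutOnUnits F N) n ⟶
      groupCohomology (Rep.ofAlgebraAutOnUnits M N) n :=
  groupCohomology.map (LocalUnr.resHom F M N N) (galUnitsMap F M N N) n

theorem resHom_top_apply (τ : N ≃ₐ[M] N) (x : N) : LocalUnr.resHom F M N N τ x = τ x := by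
  have := algebraMap_resHom' F M N N τ x
  simpa using this

theorem resHom_top_injective : Function.Injective (LocalUnr.resHom F M N N) := by
  intro τ τ' h
  ext x
  rw [← resHom_top_apply F M N τ x, h, resHom_top_apply]

theorem mem_ker_resHom_iff (σ : N ≃ₐ[F] N) :
    σ ∈ (LocalUnr.resHom F F M N).ker ↔ ∀ m : M, σ (algebraMap M N m) = algebraMap M N m := by
  rw [MonoidHom.mem_ker]
  constructor
  · intro h m
    rw [← algebraMap_resHom' F F M N σ m, h]
    rfl
  · intro h
    ext m
    apply (algebraMap M N).injective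
    rw [algebraMap_resHom' F F M N σ m, h]
    rfl

/-- `Gal(N/M) ≃* ker (Gal(N/F) → Gal(M/F))` -/
noncomputable def galKerEquiv : (N ≃ₐ[M] N) ≃* (LocalUnr.resHom F F M N).ker where
  toFun τ := ⟨LocalUnr.resHom F M N N τ, by
    rw [mem_ker_resHom_iff]
    intro m
    rw [resHom_top_apply]
    exact τ.commutes m⟩
  invFun s := AlgEquiv.ofRingEquiv (f := (s.1 : N ≃ₐ[F] N).toRingEquiv)
    (fun m => (mem_ker_resHom_iff F M N s.1).mp s.2 m)
  left_inv τ := by
    ext x
    exact resHom_top_apply F M N τ x
  right_inv s := by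
    apply Subtype.ext
    ext x
    exact resHom_top_apply F M N _ x
  map_mul' τ τ' := by
    apply Subtype.ext
    exact map_mul (LocalUnr.resHom F M N N) τ τ'

theorem galKerEquiv_apply (τ : N ≃ₐ[M] N) (x : N) :
    ((galKerEquiv F M N τ : (LocalUnr.resHom F F M N).ker) : N ≃ₐ[F] N) x = τ x :=
  resHom_top_apply F M N τ x

theorem subtype_comp_galKerEquiv :
    ((LocalUnr.resHom F F M N).ker.subtype).comp (galKerEquiv F M N).toMonoidHom =
      LocalUnr.resHom F M N N := by
  ext τ x
  rfl

/-- the `Gal(N/F)`-module `Nˣ` -/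
noncomputable abbrev topRep : Rep ℤ (N ≃ₐ[F] N) := Rep.ofAlgebraAutOnUnits F N

/-- cohomology of the kernel subgroup = Galois cohomology of `N/M` -/
noncomputable def kerCohIso (n : ℕ) :
    groupCohomology (Rep.ofAlgebraAutOnUnits M N) n ≅
      groupCohomology (Rep.res (LocalUnr.resHom F F M N).ker.subtype (topRep F N)) n :=
  groupCohomology.mapIso (galKerEquiv F M N) (LinearEquiv.refl ℤ _)
    (fun g => by
      ext a
      apply toA_injective (K := F)
      apply Units.ext
      exact (galKerEquiv_apply F M N g _).symm) n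

instance subsingleton_H1_ker :
    Subsingleton (groupCohomology
      (Rep.res (LocalUnr.resHom F F M N).ker.subtype (topRep F N)) 1) := by
  haveI : FiniteDimensional M N := FiniteDimensional.right F M N
  haveI := groupCohomology.H1ofAutOnUnitsUnique M N
  have : Subsingleton (H1 (Rep.ofAlgebraAutOnUnits M N)) := inferInstance
  exact (kerCohIso F M N 1).toLinearEquiv.symm.toEquiv.subsingleton

theorem galRes_comp_kerCohIso (n : ℕ) :
    galRes F M N n ≫ (kerCohIso F M N n).hom =
      restMap (topRep F N) (LocalUnr.resHom F F M N).ker n := by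
  unfold kerCohIso galRes restMap
  rw [groupCohomology.mapIso_hom, ← groupCohomology.map_comp]
  refine groupCohomology.map_congr ?_ ?_ n
  · ext s x
    show LocalUnr.resHom F M N N ((galKerEquiv F M N).symm s) x = (s : N ≃ₐ[F] N) x
    rw [resHom_top_apply]
    rfl
  · ext a
    rfl

theorem resHom_surjective : Function.Surjective (LocalUnr.resHom F F M N) := by
  intro g
  obtain ⟨σ, hσ⟩ := AlgEquiv.restrictNormalHom_surjective (F := F) (K₁ := M) N g
  exact ⟨σ, by rw [← hσ]; rfl⟩

/-- `Gal(N/F) ⧸ Gal(N/M) ≃* Gal(M/F)` -/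
noncomputable def galQuotEquiv : (N ≃ₐ[F] N) ⧸ (LocalUnr.resHom F F M N).ker ≃* (M ≃ₐ[F] M) :=
  QuotientGroup.quotientKerEquivOfSurjective (LocalUnr.resHom F F M N) (resHom_surjective F M N)

theorem galQuotEquiv_mk (σ : N ≃ₐ[F] N) :
    galQuotEquiv F M N (QuotientGroup.mk σ) = LocalUnr.resHom F F M N σ := rfl

/-- the invariants `(Nˣ)^{Gal(N/M)}` as a `Gal(N/F)/Gal(N/M)`-module -/
noncomputable abbrev quotRep : Rep ℤ ((N ≃ₐ[F] N) ⧸ (LocalUnr.resHom F F M N).ker) :=
  (topRep F N).quotientToInvariants (LocalUnr.resHom F F M N).ker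

/-- `Mˣ → (Nˣ)^{Gal(N/M)}` -/
noncomputable def toInvLin :
    (Rep.ofAlgebraAutOnUnits F M).V →ₗ[ℤ] (quotRep F M N).V where
  toFun b := ⟨(galUnitsMap F F M N).hom b, by
    rw [Representation.mem_invariants]
    rintro ⟨σ, hσ⟩
    apply toA_injective (K := F)
    apply Units.ext
    exact (mem_ker_resHom_iff F M N σ).mp hσ _⟩
  map_add' a b := Subtype.ext (map_add (galUnitsMap F F M N).hom a b)
  map_smul' r a := Subtype.ext (map_smul (galUnitsMap F F M N).hom r a)

theorem coe_toInvLin (b : (Rep.ofAlgebraAutOnUnits F M).V) :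
    ((toInvLin F M N b : (quotRep F M N).V) : (topRep F N).V) = (galUnitsMap F F M N).hom b := rfl

theorem toInvLin_bijective : Function.Bijective (toInvLin F M N) := by
  haveI : IsGalois M N := IsGalois.tower_top_of_isGalois F M N
  haveI : FiniteDimensional M N := FiniteDimensional.right F M N
  constructor
  · intro a b hab
    have h1 := congrArg (fun c : (quotRep F M N).V =>
      ((ofA F (c : (topRep F N).V) : Nˣ) : N)) hab
    have h2 : algebraMap M N ((ofA F a : Mˣ) : M) = algebraMap M N ((ofA F b : Mˣ) : M) := h1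
    apply toA_injective (K := F)
    apply Units.ext
    exact (algebraMap M N).injective h2
  · intro c
    have hfix : ∀ τ : N ≃ₐ[M] N, τ ((ofA F (c : (topRep F N).V) : Nˣ) : N) =
        ((ofA F (c : (topRep F N).V) : Nˣ) : N) := by
      intro τ
      have h := c.2 (galKerEquiv F M N τ)
      have h2 := congrArg (fun b : (topRep F N).V => ((ofA F b : Nˣ) : N)) h
      have h3 : (galKerEquiv F M N τ : N ≃ₐ[F] N) ((ofA F (c : (topRep F N).V) : Nˣ) : N) =
          ((ofA F (c : (topRep F N).V) : Nˣ) : N) := h2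
      rwa [galKerEquiv_apply] at h3
    obtain ⟨m, hm⟩ := (IsGalois.mem_range_algebraMap_iff_fixed (F := M) (E := N) _).mpr hfix
    have hm0 : m ≠ 0 := by
      rintro rfl
      rw [map_zero] at hm
      exact (Units.ne_zero _) hm.symm
    refine ⟨toA F (Units.mk0 m hm0), ?_⟩
    apply Subtype.ext
    apply toA_injective (K := F)
    apply Units.ext
    exact hm

/-- `Mˣ ≃ (Nˣ)^{Gal(N/M)}` -/
noncomputable def toInvEquiv :
    (Rep.ofAlgebraAutOnUnits F M).V ≃ₗ[ℤ] (quotRep F M N).V :=
  LinearEquiv.ofBijective (toInvLin F M N) (toInvLin_bijective F M N)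

theorem toInvEquiv_apply (b : (Rep.ofAlgebraAutOnUnits F M).V) :
    toInvEquiv F M N b = toInvLin F M N b := rfl

/-- Galois cohomology of `M/F` = cohomology of the quotient acting on the invariants -/
noncomputable def quotCohIso (n : ℕ) :
    groupCohomology (Rep.ofAlgebraAutOnUnits F M) n ≅ groupCohomology (quotRep F M N) n :=
  groupCohomology.mapIso (galQuotEquiv F M N).symm (toInvEquiv F M N)
    (fun g => by
      obtain ⟨σ, rfl⟩ := resHom_surjective F M N g
      have hσ : (galQuotEquiv F M N).symm (LocalUnr.resHom F F M N σ) = QuotientGroup.mk σ := by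
        rw [← galQuotEquiv_mk, MulEquiv.symm_apply_apply]
      rw [hσ]
      ext a
      apply toA_injective (K := F)
      apply Units.ext
      exact (algebraMap_resHom' F F M N σ _)) n

theorem quotCohIso_comp_inflMap (n : ℕ) :
    (quotCohIso F M N n).hom ≫ inflMap (topRep F N) (LocalUnr.resHom F F M N).ker n =
      galInf F M N n := by
  unfold quotCohIso inflMap galInf
  rw [groupCohomology.mapIso_hom, ← groupCohomology.map_comp]
  refine groupCohomology.map_congr ?_ ?_ n
  · ext σ x
    rfl
  · ext a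
    rfl

/-- **Inflation is injective in degree 2.** -/
theorem galInf_two_injective : Function.Injective (galInf F M N 2) := by
  rw [← quotCohIso_comp_inflMap]
  intro a b hab
  have h1 : inflMap (topRep F N) (LocalUnr.resHom F F M N).ker 2 ((quotCohIso F M N 2).hom a) =
      inflMap (topRep F N) (LocalUnr.resHom F F M N).ker 2 ((quotCohIso F M N 2).hom b) := hab
  have h2 := inflMap_two_injective (topRep F N) (LocalUnr.resHom F F M N).ker h1
  have h3 := congrArg (quotCohIso F M N 2).inv h2
  rwa [Iso.hom_inv_id_apply, Iso.hom_inv_id_apply] at h3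

/-- **Inflation–restriction**: a class dying on `Gal(N/M)` is inflated from `Gal(M/F)`. -/
theorem exists_galInf_eq_of_galRes_eq_zero (x : groupCohomology (Rep.ofAlgebraAutOnUnits F N) 2)
    (hx : galRes F M N 2 x = 0) : ∃ u, galInf F M N 2 u = x := by
  have h1 : restMap (topRep F N) (LocalUnr.resHom F F M N).ker 2 x = 0 := by
    rw [← galRes_comp_kerCohIso]
    show (kerCohIso F M N 2).hom (galRes F M N 2 x) = 0
    rw [hx, map_zero]
  obtain ⟨y, hy⟩ := exists_inflMap_eq_of_restMap_eq_zero (topRep F N)
    (LocalUnr.resHom F F M N).ker x h1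
  refine ⟨(quotCohIso F M N 2).inv y, ?_⟩
  rw [← quotCohIso_comp_inflMap]
  show inflMap (topRep F N) (LocalUnr.resHom F F M N).ker 2
    ((quotCohIso F M N 2).hom ((quotCohIso F M N 2).inv y)) = x
  rw [← hy]
  congr 1
  exact Iso.inv_hom_id_apply _ y

end Tower

end Fermat.Agent.S55lib.LocalH
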