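/-
S55 sprint, block (II-b): the lattice of subfields of an ambient field as a category of extensions.
For `E F : IntermediateField K₀ Ω` with `[Fact (E ≤ F)]` we get `Algebra E F` (inclusion), all
scalar towers, and (in the normed setting) `NormedAlgebra E F`.  With these instances every
abstract theorem about towers of (normed) fields applies verbatim to subfields of `Ω`.
-/
import Mathlib
import Fermat.Agent.S55lib.LocalUnr.Padic

set_option autoImplicit false
set_option linter.unusedSectionVars false
set_option linter.style.haveILetI false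

namespace Fermat.Agent.S55lib.LocalH

section Plain

variable {K₀ Ω : Type} [Field K₀] [Field Ω] [Algebra K₀ Ω]

/-- `F` is an algebra over `E` when `E ≤ F` (inclusion of subfields of `Ω`) -/
noncomputable instance algebraOfLE (E F : IntermediateField K₀ Ω) [h : Fact (E ≤ F)] :
    Algebra E F :=
  (IntermediateField.inclusion h.out).toRingHom.toAlgebra

theorem coe_algebraMap_ofLE (E F : IntermediateField K₀ Ω) [Fact (E ≤ F)] (x : E) :
    ((algebraMap E F x : F) : Ω) = (x : Ω) := rfl

instance isScalarTower_ofLE (E F F' : IntermediateField K₀ Ω) [Fact (E ≤ F)] [Fact (F ≤ F')]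
    [Fact (E ≤ F')] : IsScalarTower E F F' :=
  IsScalarTower.of_algebraMap_eq (fun _ => rfl)

instance isScalarTower_base_ofLE (E F : IntermediateField K₀ Ω) [Fact (E ≤ F)] :
    IsScalarTower K₀ E F :=
  IsScalarTower.of_algebraMap_eq (fun _ => rfl)

instance isScalarTower_top_ofLE (E F : IntermediateField K₀ Ω) [Fact (E ≤ F)] :
    IsScalarTower E F Ω :=
  IsScalarTower.of_algebraMap_eq (fun _ => rfl)

/-- towers with the identity algebra on the left -/
instance isScalarTower_id_left_ofLE (E F : IntermediateField K₀ Ω) [Fact (E ≤ F)] :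
    IsScalarTower E E F :=
  IsScalarTower.of_algebraMap_eq (fun _ => rfl)

instance isScalarTower_id_right_ofLE (E F : IntermediateField K₀ Ω) [Fact (E ≤ F)] :
    IsScalarTower E F F :=
  IsScalarTower.of_algebraMap_eq (fun _ => rfl)

instance finiteDimensional_ofLE (E F : IntermediateField K₀ Ω) [Fact (E ≤ F)]
    [FiniteDimensional K₀ F] : FiniteDimensional E F :=
  FiniteDimensional.right K₀ E F

theorem finiteDimensional_bot_ofLE (E F : IntermediateField K₀ Ω) [Fact (E ≤ F)]
    [FiniteDimensional K₀ F] : FiniteDimensional K₀ E :=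
  FiniteDimensional.left K₀ E F

theorem finrank_mul_finrank_ofLE (E F F' : IntermediateField K₀ Ω) [Fact (E ≤ F)]
    [Fact (F ≤ F')] [Fact (E ≤ F')] :
    Module.finrank E F * Module.finrank F F' = Module.finrank E F' :=
  Module.finrank_mul_finrank E F F'

theorem finrank_base_mul_finrank_ofLE (E F : IntermediateField K₀ Ω) [Fact (E ≤ F)] :
    Module.finrank K₀ E * Module.finrank E F = Module.finrank K₀ F :=
  Module.finrank_mul_finrank K₀ E F

end Plain

section Normed

open Fermat.Agent.S55lib.LocalUnr

variable {K₀ Ω : Type} [NontriviallyNormedField K₀] [NormedField Ω] [NormedAlgebra K₀ Ω]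

noncomputable instance normedAlgebraOfLE (E F : IntermediateField K₀ Ω) [Fact (E ≤ F)] :
    NormedAlgebra E F where
  __ := algebraOfLE E F
  norm_smul_le e x := by
    rw [Algebra.smul_def, norm_mul]
    exact le_of_eq rfl

theorem norm_algebraMap_ofLE (E F : IntermediateField K₀ Ω) [Fact (E ≤ F)] (x : E) :
    ‖algebraMap E F x‖ = ‖x‖ := rfl

end Normed

section Test

open Fermat.Agent.S55lib.LocalUnr groupCohomology

variable {K₀ Ω : Type} [NontriviallyNormedField K₀] [IsUltrametricDist K₀] [ProperSpace K₀]
  [NormedField Ω] [NormedAlgebra K₀ Ω] [IsUltrametricDist Ω]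
  (E F F' : IntermediateField K₀ Ω) [Fact (E ≤ F)] [Fact (F ≤ F')] [Fact (E ≤ F')]
  [FiniteDimensional K₀ F']

noncomputable example : NontriviallyNormedField E := inferInstance
noncomputable example : NormedAlgebra E F := inferInstance
example : IsUltrametricDist E := inferInstance
example : IsScalarTower E F F' := inferInstance
example : (normedAlgebraOfLE E F).toAlgebra = algebraOfLE E F := rfl

end Test

end Fermat.Agent.S55lib.LocalH
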