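/-
S55lib / LocalH / CycloNorm (helper6).
**(LN) at `q = p`**: the norm group of `F = ℚ_p(ζ_{p^(m+1)})` (`p` odd).
* `index_range_unitsNorm_adjoin` : `[ℚ_pˣ : N Fˣ] = φ(p^(m+1))` (cyclic norm index, `LocalH/Normed`);
* `unifQ_mem_range_unitsNorm_adjoin` : `p = N(ζ - 1)`;
* `exists_unitsNorm_eq_zpow_mul_pow` : for every finite `E ∋ ζ_{p^(m+1)}` inside `ℚ̄_p` and every
  `z ∈ Eˣ`: `N_{E/ℚ_p} z = p^j · y^(φ(p^(m+1)))` with `y ∈ ℤ_pˣ`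
  (lead's `Places.exists_eq_zpow_mul_pow_of_mem` + transitivity of norms).
-/
import Mathlib
import Fermat.Agent.S55lib.LocalH.Normed
import Fermat.Agent.S55lib.LocalH.SubExt
import Fermat.Agent.S55lib.LocalUnr.Padic
import Fermat.Agent.S55lib.Places.PadicPow
import Fermat.Agent.S55lib.Places.Cyclo

set_option autoImplicit false
set_option linter.unusedSectionVars false
set_option linter.style.haveILetI false

noncomputable section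

namespace Fermat.Agent.S55lib.LocalH

open Fermat.Agent.S55lib.LocalUnr Fermat.Agent.S55lib.Places IntermediateField Polynomial

variable {p : ℕ} [hp : Fact p.Prime]

/-- the norm `Eˣ → ℚ_pˣ` of a finite extension of `ℚ_p` inside `ℚ̄_p` -/
def unitsNorm (E : IntermediateField ℚ_[p] (PadicAlgCl p)) : (E)ˣ →* ℚ_[p]ˣ :=
  Units.map (Algebra.norm ℚ_[p] : E →* ℚ_[p])

@[simp] theorem coe_unitsNorm (E : IntermediateField ℚ_[p] (PadicAlgCl p)) (z : (E)ˣ) :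
    ((unitsNorm E z : ℚ_[p]ˣ) : ℚ_[p]) = Algebra.norm ℚ_[p] (z : E) := rfl

section Adjoin

variable {m : ℕ} {ζ : PadicAlgCl p}

theorem isCyclotomicExtension_adjoin (hζ : IsPrimitiveRoot ζ (p ^ (m + 1))) :
    IsCyclotomicExtension {p ^ (m + 1)} ℚ_[p] ℚ_[p]⟮ζ⟯ :=
  hζ.intermediateField_adjoin_isCyclotomicExtension ℚ_[p]

theorem finrank_adjoin_primitiveRoot_prime_pow (hζ : IsPrimitiveRoot ζ (p ^ (m + 1))) :
    Module.finrank ℚ_[p] ℚ_[p]⟮ζ⟯ = (p ^ (m + 1)).totient := by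
  haveI := isCyclotomicExtension_adjoin hζ
  exact IsCyclotomicExtension.finrank (n := p ^ (m + 1)) ℚ_[p]⟮ζ⟯
    (irreducible_cyclotomic_prime_pow_padic p m)

/-- the norm index of `ℚ_p(ζ_{p^(m+1)})` is its degree -/
theorem index_range_unitsNorm_adjoin (hp2 : p ≠ 2) (hζ : IsPrimitiveRoot ζ (p ^ (m + 1))) :
    (unitsNorm ℚ_[p]⟮ζ⟯).range.index = (p ^ (m + 1)).totient := by
  haveI := isCyclotomicExtension_adjoin hζ
  haveI : IsGalois ℚ_[p] ℚ_[p]⟮ζ⟯ := IsCyclotomicExtension.isGalois {p ^ (m + 1)} ℚ_[p] _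
  haveI : FiniteDimensional ℚ_[p] ℚ_[p]⟮ζ⟯ :=
    IsCyclotomicExtension.finiteDimensional {p ^ (m + 1)} ℚ_[p] _
  have hirr := irreducible_cyclotomic_prime_pow_padic p m
  let e := IsCyclotomicExtension.autEquivPow ℚ_[p]⟮ζ⟯ hirr
  haveI : IsCyclic (ZMod (p ^ (m + 1)))ˣ := ZMod.isCyclic_units_of_prime_pow p hp.out hp2 (m + 1)
  haveI : IsCyclic Gal(ℚ_[p]⟮ζ⟯/ℚ_[p]) := isCyclic_of_surjective e.symm e.symm.surjective
  obtain ⟨σ, hσ⟩ := IsCyclic.exists_generator (α := Gal(ℚ_[p]⟮ζ⟯/ℚ_[p]))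
  have h1 := normed_relIndex_range_nmHom (K := ℚ_[p]) (L := ℚ_[p]⟮ζ⟯)
    (norm_gal_eq ℚ_[p]⟮ζ⟯ ℚ_[p]) hσ
  have h2 : (nmHom ℚ_[p] ℚ_[p]⟮ζ⟯).range.comap
      (Units.map ((algebraMap ℚ_[p] ℚ_[p]⟮ζ⟯ : ℚ_[p] →+* ℚ_[p]⟮ζ⟯) : ℚ_[p] →* ℚ_[p]⟮ζ⟯)) =
      (unitsNorm ℚ_[p]⟮ζ⟯).range := by
    ext x
    rw [Subgroup.mem_comap, MonoidHom.mem_range, MonoidHom.mem_range]
    constructor
    · rintro ⟨y, hy⟩
      refine ⟨y, ?_⟩
      have h3 := congrArg (fun u : (ℚ_[p]⟮ζ⟯)ˣ => (u : ℚ_[p]⟮ζ⟯)) hy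
      simp only [coe_nmHom, Units.coe_map, MonoidHom.coe_coe] at h3
      apply Units.ext
      rw [coe_unitsNorm]
      exact (algebraMap ℚ_[p] ℚ_[p]⟮ζ⟯).injective h3
    · rintro ⟨y, rfl⟩
      refine ⟨y, ?_⟩
      apply Units.ext
      rw [coe_nmHom]
      rfl
  rw [← h2, Subgroup.index_comap]
  have h4 : (Units.map ((algebraMap ℚ_[p] ℚ_[p]⟮ζ⟯ : ℚ_[p] →+* ℚ_[p]⟮ζ⟯) :
      ℚ_[p] →* ℚ_[p]⟮ζ⟯)).range = baseUnits (K := ℚ_[p]) (L := ℚ_[p]⟮ζ⟯) := rfl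
  rw [h4, h1, ← Nat.card_eq_fintype_card, IsGalois.card_aut_eq_finrank,
    finrank_adjoin_primitiveRoot_prime_pow hζ]

/-- `p = N(ζ - 1)` is a norm from `ℚ_p(ζ_{p^(m+1)})` -/
theorem unifQ_mem_range_unitsNorm_adjoin (hp2 : p ≠ 2) (hζ : IsPrimitiveRoot ζ (p ^ (m + 1))) :
    (unifQ : ℚ_[p]ˣ) ∈ (unitsNorm ℚ_[p]⟮ζ⟯).range := by
  haveI := isCyclotomicExtension_adjoin hζ
  haveI : FiniteDimensional ℚ_[p] ℚ_[p]⟮ζ⟯ :=
    IsCyclotomicExtension.finiteDimensional {p ^ (m + 1)} ℚ_[p] _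
  have hirr := irreducible_cyclotomic_prime_pow_padic p m
  have hprimE : IsPrimitiveRoot (⟨ζ, mem_adjoin_simple_self ℚ_[p] ζ⟩ : ℚ_[p]⟮ζ⟯)
      (p ^ (m + 1)) := by
    apply IsPrimitiveRoot.of_map_of_injective (f := (ℚ_[p]⟮ζ⟯).val) _ (ℚ_[p]⟮ζ⟯).val.injective
    exact hζ
  have hnorm := hprimE.norm_sub_one_of_prime_ne_two hirr hp2
  have hne : ((⟨ζ, mem_adjoin_simple_self ℚ_[p] ζ⟩ : ℚ_[p]⟮ζ⟯) - 1) ≠ 0 := by
    intro h0
    rw [h0, Algebra.norm_zero] at hnorm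
    exact (Nat.cast_ne_zero.mpr hp.out.ne_zero) hnorm.symm
  refine ⟨Units.mk0 _ hne, ?_⟩
  apply Units.ext
  rw [coe_unitsNorm, Units.val_mk0, hnorm, coe_unifQ]

/-- `φ(p^(m+1))`-th powers are norms from `ℚ_p(ζ_{p^(m+1)})` -/
theorem pow_mem_range_unitsNorm_adjoin (hζ : IsPrimitiveRoot ζ (p ^ (m + 1))) (y : ℚ_[p]ˣ) :
    y ^ (p ^ (m + 1)).totient ∈ (unitsNorm ℚ_[p]⟮ζ⟯).range := by
  refine ⟨Units.map ((algebraMap ℚ_[p] ℚ_[p]⟮ζ⟯ : ℚ_[p] →+* ℚ_[p]⟮ζ⟯) : ℚ_[p] →* ℚ_[p]⟮ζ⟯) y, ?_⟩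
  apply Units.ext
  rw [coe_unitsNorm, Units.coe_map, MonoidHom.coe_coe, Algebra.norm_algebraMap,
    finrank_adjoin_primitiveRoot_prime_pow hζ, Units.val_pow_eq_pow_val]

/-- the norm group of `ℚ_p(ζ_{p^(m+1)})` is `⟨p⟩ · (ℤ_pˣ)^(φ(p^(m+1)))` -/
theorem exists_eq_zpow_mul_pow_of_mem_range_unitsNorm_adjoin (hp2 : p ≠ 2)
    (hζ : IsPrimitiveRoot ζ (p ^ (m + 1))) (a : ℚ_[p]ˣ) (ha : a ∈ (unitsNorm ℚ_[p]⟮ζ⟯).range) :
    ∃ (j : ℤ) (y : ℤ_[p]ˣ),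
      a = (unifQ : ℚ_[p]ˣ) ^ j * Places.unitsIncl (y ^ (p ^ (m + 1)).totient) := by
  have hppos : (0 : ℝ) < p := by exact_mod_cast hp.out.pos
  have hp1 : (1 : ℝ) < p := by exact_mod_cast hp.out.one_lt
  have htot : (p ^ (m + 1)).totient = p ^ m * (p - 1) := Nat.totient_prime_pow_succ hp.out m
  have hcop : ¬ p ∣ p - 1 := by
    intro h1
    have h2 := Nat.le_of_dvd (Nat.sub_pos_of_lt hp.out.one_lt) h1
    have := hp.out.one_lt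
    omega
  have hnorm1 : ‖((p - 1 : ℕ) : ℤ_[p])‖ = 1 :=
    PadicInt.norm_natCast_eq_one_iff.mpr ((Nat.Prime.coprime_iff_not_dvd hp.out).mpr hcop)
  have hnorm : ‖(((p ^ (m + 1)).totient : ℕ) : ℤ_[p])‖ = (p : ℝ) ^ (-(m : ℤ)) := by
    rw [htot, Nat.cast_mul, norm_mul, hnorm1, mul_one, Nat.cast_pow, norm_pow, PadicInt.norm_p,
      inv_pow, zpow_neg, zpow_natCast]
  refine exists_eq_zpow_mul_pow_of_mem (k := 2 * m + 1) (Nat.succ_ne_zero _) hp2 ?_ ?_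
    (unitsNorm ℚ_[p]⟮ζ⟯).range (unifQ_mem_range_unitsNorm_adjoin hp2 hζ)
    (pow_mem_range_unitsNorm_adjoin hζ) (index_range_unitsNorm_adjoin hp2 hζ) a ha
  · rw [hnorm, ← zpow_natCast ((p : ℝ) ^ (-(m : ℤ))) 2, ← zpow_mul]
    apply zpow_lt_zpow_right₀ hp1
    push_cast
    omega
  · rw [htot, Nat.totient_prime_pow_succ hp.out]
    exact Nat.mul_dvd_mul_right (pow_dvd_pow p (by omega)) _

end Adjoin

section General

/-- transitivity of norms: norms from `E ⊇ F` are norms from `F` -/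
theorem range_unitsNorm_le_of_le (F E : IntermediateField ℚ_[p] (PadicAlgCl p)) (h : F ≤ E) :
    (unitsNorm E).range ≤ (unitsNorm F).range := by
  haveI : Fact (F ≤ E) := ⟨h⟩
  rintro _ ⟨z, rfl⟩
  refine ⟨Units.map (Algebra.norm F : E →* F) z, ?_⟩
  apply Units.ext
  rw [coe_unitsNorm, coe_unitsNorm, Units.coe_map]
  exact Algebra.norm_norm

/-- **(LN) at `p`, explicit form**: the norm to `ℚ_p` of any unit of a finite extension `E` of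
`ℚ_p` containing a primitive `p^(m+1)`-th root of unity is `p^j · y^(φ(p^(m+1)))`, `y ∈ ℤ_pˣ`. -/
theorem exists_unitsNorm_eq_zpow_mul_pow (hp2 : p ≠ 2) {m : ℕ} {ζ : PadicAlgCl p}
    (hζ : IsPrimitiveRoot ζ (p ^ (m + 1))) (E : IntermediateField ℚ_[p] (PadicAlgCl p))
    (hζE : ζ ∈ E) (z : (E)ˣ) :
    ∃ (j : ℤ) (y : ℤ_[p]ˣ),
      unitsNorm E z = (unifQ : ℚ_[p]ˣ) ^ j * Places.unitsIncl (y ^ (p ^ (m + 1)).totient) := by
  have hle : ℚ_[p]⟮ζ⟯ ≤ E := by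
    rw [adjoin_simple_le_iff]
    exact hζE
  exact exists_eq_zpow_mul_pow_of_mem_range_unitsNorm_adjoin hp2 hζ _
    (range_unitsNorm_le_of_le _ _ hle ⟨z, rfl⟩)

end General

end Fermat.Agent.S55lib.LocalH
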