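/-
S55lib / LocalH / LNWild (helper6).
**R4 = (LN) at `q = p`** in literally helper2's shape (`Recip/ArtinPhiDefs.lean`):
`lnAt_self lam hp2 K ζ hζ : Recip.LNAt p m lam p K` for every `K ⊂ ℚ̄_p` containing a primitive
`p^(m+1)`-th root of unity (`p` odd): `Φ_p` kills the norms from `K`.
-/
import Mathlib
import Fermat.Agent.S55lib.LocalH.CycloNorm
import Fermat.Agent.S55lib.Recip.ArtinPhiDefs

set_option autoImplicit false

namespace Fermat.Agent.S55lib.LocalH

open Fermat.Agent.S55lib.Places Fermat.Agent.S55lib.Recip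

variable {p : ℕ} [hp : Fact p.Prime] {m : ℕ}
  (lam : (ZMod (p ^ (m + 1)))ˣ →* Multiplicative (ZMod (p ^ m)))

omit hp in
theorem pow_totient_eq_one_multiplicative_zmod (x : Multiplicative (ZMod (p ^ m))) (k : ℕ) :
    x ^ (p ^ m * k) = 1 := by
  apply Multiplicative.toAdd.injective
  rw [toAdd_pow, toAdd_one, mul_nsmul', nsmul_eq_mul (p ^ m), ZMod.natCast_self, zero_mul]

/-- **(LN) at `p`**: `Φ_p` kills the norms from any `K ⊂ ℚ̄_p` containing `ζ_{p^(m+1)}`. -/
theorem lnAt_self (hp2 : p ≠ 2) (K : IntermediateField ℚ_[p] (PadicAlgCl p)) (ζ : K)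
    (hζ : IsPrimitiveRoot ζ (p ^ (m + 1))) : LNAt p m lam p K := by
  intro z
  have hζ' : IsPrimitiveRoot (ζ : PadicAlgCl p) (p ^ (m + 1)) :=
    hζ.map_of_injective (f := K.val) K.val.injective
  obtain ⟨j, y, hy⟩ := exists_unitsNorm_eq_zpow_mul_pow hp2 hζ' K ζ.2 z
  have hy' : Units.map (Algebra.norm ℚ_[p] : ↥K →* ℚ_[p]) z =
      (unifQ : ℚ_[p]ˣ) ^ j * Places.unitsIncl (y ^ (p ^ (m + 1)).totient) := hy
  rw [hy', phiLoc_self, phiWild_apply, unitPart_unifQ_zpow_mul, map_pow, map_pow,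
    Nat.totient_prime_pow_succ hp.out]
  exact pow_totient_eq_one_multiplicative_zmod _ _

/-- **(LN) for a field `M ∋ ζ_{p^(m+1)}`, from the tame part**: the statement `Recip.LN` follows
from `LNAt` at the primes `q ≠ p` (lead's `Places.lnAt_of_ne`) and `lnAt_self`. -/
theorem ln_of_tame (hp2 : p ≠ 2) (M : Type*) [Field M] [Algebra ℚ M] (ζ : M)
    (hζ : IsPrimitiveRoot ζ (p ^ (m + 1)))
    (htame : ∀ (q : ℕ) [Fact q.Prime], q ≠ p → ∀ ι : Emb q M, LNAt p m lam q (localField q M ι)) :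
    LN p m lam M := by
  intro q hq ι
  by_cases hqp : q = p
  · subst hqp
    have hmem : ι ζ ∈ localField q M ι :=
      IntermediateField.subset_adjoin _ _ ⟨ζ, rfl⟩
    refine lnAt_self lam hp2 (localField q M ι) ⟨ι ζ, hmem⟩ ?_
    apply IsPrimitiveRoot.of_map_of_injective (f := (localField q M ι).val) _
      (localField q M ι).val.injective
    exact hζ.map_of_injective ι.injective
  · exact htame q hqp ι

end Fermat.Agent.S55lib.LocalH
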