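/-
S55lib / LocalH / K9Tame (helper6).
Local input of (K9-III) at the primes `q ∤ N`: for `β ∈ ℚ̄_q` a primitive `N`-th root of unity,
`E = ℚ_q(β)` is unramified over `ℚ_q` and its Frobenius is `β ↦ β ^ q`.
* `card_residue_padic : Nat.card 𝓀[ℚ_[q]] = q`;
* `isUnramified_adjoin_root` : `IsUnramified ℚ_[q] ℚ_[q]⟮β⟯`;
* `frob_adjoin_root_apply` : `frob β = β ^ q`.
-/
import Mathlib
import Fermat.Agent.S55lib.LocalUnr.Padic
import Fermat.Agent.S55lib.LocalUnr.UnrExist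
import Fermat.Agent.S55lib.Places.Cyclo

set_option autoImplicit false
set_option linter.unusedSectionVars false
set_option linter.style.haveILetI false

noncomputable section

namespace Fermat.Agent.S55lib.LocalH

open Fermat.Agent.S55lib.LocalUnr Fermat.Agent.S55lib.Places IntermediateField
open scoped NormedField Valued

variable {q : ℕ} [hq : Fact q.Prime]

/-- the unit ball of `ℚ_q` is `ℤ_q` -/
def integerEquivPadicInt : 𝒪[ℚ_[q]] ≃+* ℤ_[q] where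
  toFun x := ⟨x.1, Valued.integer.mem_iff.mp x.2⟩
  invFun y := ⟨y.1, Valued.integer.mem_iff.mpr y.2⟩
  left_inv _ := rfl
  right_inv _ := rfl
  map_mul' _ _ := rfl
  map_add' _ _ := rfl

/-- the residue field of `ℚ_q` has `q` elements -/
theorem card_residue_padic : Nat.card 𝓀[ℚ_[q]] = q := by
  have e1 : 𝓀[ℚ_[q]] ≃+* IsLocalRing.ResidueField ℤ_[q] :=
    IsLocalRing.ResidueField.mapEquiv (integerEquivPadicInt (q := q))
  rw [Nat.card_congr e1.toEquiv, Nat.card_congr (PadicInt.residueField (p := q)).toEquiv,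
    Nat.card_eq_fintype_card, ZMod.card]

section Adjoin

variable {N : ℕ} {β : PadicAlgCl q}

/-- the generator of `ℚ_q(β)` -/
def adjGen (β : PadicAlgCl q) : ℚ_[q]⟮β⟯ := ⟨β, mem_adjoin_simple_self ℚ_[q] β⟩

@[simp] theorem coe_adjGen (β : PadicAlgCl q) : ((adjGen β : ℚ_[q]⟮β⟯) : PadicAlgCl q) = β := rfl

theorem isPrimitiveRoot_adjGen (hβ : IsPrimitiveRoot β N) : IsPrimitiveRoot (adjGen β) N := by
  apply IsPrimitiveRoot.of_map_of_injective (f := (ℚ_[q]⟮β⟯).val) _ (ℚ_[q]⟮β⟯).val.injective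
  exact hβ

/-- a `ℚ_q`-automorphism of `ℚ_q(β)` fixing `β` is trivial -/
theorem eq_one_of_apply_adjGen (σ : ℚ_[q]⟮β⟯ ≃ₐ[ℚ_[q]] ℚ_[q]⟮β⟯) (h : σ (adjGen β) = adjGen β) :
    σ = 1 := by
  have key : (σ : ℚ_[q]⟮β⟯ →ₐ[ℚ_[q]] ℚ_[q]⟮β⟯) = AlgHom.id ℚ_[q] ℚ_[q]⟮β⟯ := by
    apply IntermediateField.adjoin_algHom_ext
    intro x hx
    have hx' : x = β := Set.mem_singleton_iff.mp hx
    subst hx'
    exact h
  ext x
  exact congrArg Subtype.val (DFunLike.congr_fun key x)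

instance finiteDimensional_adjoin_simple_padic (β : PadicAlgCl q) :
    FiniteDimensional ℚ_[q] ℚ_[q]⟮β⟯ :=
  IntermediateField.adjoin.finiteDimensional (Algebra.IsIntegral.isIntegral β)

theorem isGalois_adjoin_root [NeZero N] (hβ : IsPrimitiveRoot β N) :
    IsGalois ℚ_[q] ℚ_[q]⟮β⟯ := by
  haveI := hβ.intermediateField_adjoin_isCyclotomicExtension ℚ_[q]
  exact IsCyclotomicExtension.isGalois {N} ℚ_[q] _

theorem norm_natCast_padic_eq_one (hN : ¬ q ∣ N) : ‖(N : ℚ_[q])‖ = 1 :=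
  Padic.norm_natCast_eq_one_iff.mpr ((Nat.Prime.coprime_iff_not_dvd hq.out).mpr hN)

/-- `ℚ_q(β)/ℚ_q` is unramified for `β` a root of unity of order prime to `q` -/
theorem isUnramified_adjoin_root [NeZero N] (hN : ¬ q ∣ N) (hβ : IsPrimitiveRoot β N)
    [IsGalois ℚ_[q] ℚ_[q]⟮β⟯] : IsUnramified ℚ_[q] ℚ_[q]⟮β⟯ :=
  isUnramified_of_primitiveRoot_of_unit (NeZero.ne N) (norm_natCast_padic_eq_one hN)
    (isPrimitiveRoot_adjGen hβ) eq_one_of_apply_adjGen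

/-- the Frobenius of `ℚ_q(β)/ℚ_q` is `β ↦ β ^ q` -/
theorem frob_adjGen [NeZero N] (hN : ¬ q ∣ N) (hβ : IsPrimitiveRoot β N)
    [IsGalois ℚ_[q] ℚ_[q]⟮β⟯] (h : IsUnramified ℚ_[q] ℚ_[q]⟮β⟯) :
    h.frob (adjGen β) = adjGen β ^ q := by
  have hN0 : N ≠ 0 := NeZero.ne N
  have h1 : ‖(adjGen β : ℚ_[q]⟮β⟯)‖ ≤ 1 :=
    (norm_eq_one_of_pow_eq_one_padicAlgCl (q := q) hβ.pow_eq_one hN0).le
  have h2 := h.norm_frob_sub_pow_lt (adjGen β) h1
  rw [card_residue_padic] at h2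
  have hb1 : β ^ N = 1 := hβ.pow_eq_one
  have hb2 : ((h.frob (adjGen β) : ℚ_[q]⟮β⟯) : PadicAlgCl q) ^ N = 1 := by
    have h3 : (h.frob (adjGen β)) ^ N = 1 := by
      rw [← map_pow, (isPrimitiveRoot_adjGen hβ).pow_eq_one, map_one]
    have h4 := congrArg (fun y : ℚ_[q]⟮β⟯ => (y : PadicAlgCl q)) h3
    simpa using h4
  have hb3 : (β ^ q) ^ N = 1 := by rw [← pow_mul, mul_comm, pow_mul, hb1, one_pow]
  have h5 : ‖((h.frob (adjGen β) : ℚ_[q]⟮β⟯) : PadicAlgCl q) - β ^ q‖ < 1 := h2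
  have h6 := eq_of_pow_eq_one_of_norm_sub_lt_one hN hb2 hb3 h5
  apply Subtype.ext
  rw [SubmonoidClass.coe_pow, coe_adjGen]
  exact h6.symm

/-- a finite extension `E = ℚ_q(β)`, `β` a root of unity of order prime to `q`, is unramified with
Frobenius `β ↦ β ^ q` -/
theorem exists_isUnramified_of_eq_adjoin_root [NeZero N] (hN : ¬ q ∣ N)
    (hβ : IsPrimitiveRoot β N) (E : IntermediateField ℚ_[q] (PadicAlgCl q))
    [FiniteDimensional ℚ_[q] E] [IsGalois ℚ_[q] E] (hE : E = ℚ_[q]⟮β⟯) :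
    ∃ h : IsUnramified ℚ_[q] E, ∀ hβE : β ∈ E,
      ((h.frob ⟨β, hβE⟩ : E) : PadicAlgCl q) = β ^ q := by
  subst hE
  refine ⟨isUnramified_adjoin_root hN hβ, fun hβE => ?_⟩
  have h1 := frob_adjGen hN hβ (isUnramified_adjoin_root hN hβ)
  have h2 := congrArg (fun y : ℚ_[q]⟮β⟯ => (y : PadicAlgCl q)) h1
  have h3 : (⟨β, hβE⟩ : ℚ_[q]⟮β⟯) = adjGen β := rfl
  rw [h3]
  simpa using h2

/-- `q` is a uniformizer of `ℚ_q` -/
theorem isUniformizer_padic : IsUniformizer ℚ_[q] (q : ℚ_[q]) := by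
  refine ⟨?_, fun x hx => ?_⟩
  · rw [Padic.norm_p]
    exact inv_lt_one_of_one_lt₀ (by exact_mod_cast hq.out.one_lt)
  · rw [Padic.norm_p, ← zpow_neg_one]
    rw [Padic.norm_le_pow_iff_norm_lt_pow_add_one]
    simpa using hx

/-- in an unramified extension `E/ℚ_q`, `ord_E` restricts to the `q`-adic valuation -/
theorem ord_algebraMap_of_isUnramified (E : IntermediateField ℚ_[q] (PadicAlgCl q))
    [FiniteDimensional ℚ_[q] E] [IsGalois ℚ_[q] E] (h : IsUnramified ℚ_[q] E) (a : ℚ_[q])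
    (ha : a ≠ 0) : ord E (algebraMap ℚ_[q] E a) = a.valuation := by
  have hu : IsUniformizer E (algebraMap ℚ_[q] E (q : ℚ_[q])) := h.isUnif _ isUniformizer_padic
  apply ord_eq_of_norm_eq
  rw [← hu.norm_eq_unifNorm, norm_algebraMap', norm_algebraMap', Padic.norm_p,
    Padic.norm_eq_zpow_neg_valuation ha, inv_zpow', ]

end Adjoin

end Fermat.Agent.S55lib.LocalH
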