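/-
S55 sprint, block (III): **`(Lˣ)^n` has finite index in `Lˣ`** for a complete discretely valued
field `L` with finite residue field and `n ≠ 0` in `L` (successive approximation: the principal
units of level `> 2 v(n)` are `n`-th powers).
-/
import Mathlib
import Fermat.Agent.S55lib.LocalH.Approx
import Fermat.Agent.S55lib.LocalH.Ord
import Fermat.Agent.S55lib.LocalH.UnitsH
import Fermat.Agent.S55lib.LocalH.Normed

set_option autoImplicit false
set_option linter.unusedSectionVars false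
set_option linter.style.haveILetI false

namespace Fermat.Agent.S55lib.LocalH

section Approx2

variable {R : Type*} [CommRing R] (I : Ideal R) [IsAdicComplete I R]

/-- the sequence of approximants (two filtrations) -/
private noncomputable def approxSeq₂ (W V : ℕ → Subgroup Rˣ) (Φ : Rˣ →* Rˣ)
    (happrox : ∀ k, ∀ u ∈ V k, ∃ y ∈ W k, u / Φ y ∈ V (k + 1))
    (u₀ : Rˣ) (h₀ : u₀ ∈ V 0) : (k : ℕ) → {u : Rˣ // u ∈ V k}
  | 0 => ⟨u₀, h₀⟩
  | k + 1 =>
    let uk := approxSeq₂ W V Φ happrox u₀ h₀ k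
    ⟨uk.1 / Φ (happrox k uk.1 uk.2).choose, (happrox k uk.1 uk.2).choose_spec.2⟩

/-- successive approximation with a source filtration `W` and a target filtration `V` -/
theorem exists_preimage_of_approx₂
    (hunit : ∀ x : R, x - 1 ∈ I → IsUnit x)
    (W V : ℕ → Subgroup Rˣ) (hW : ∀ k, W (k + 1) ≤ W k)
    (hW1 : ∀ k, ∀ w ∈ W k, ((w : Rˣ) : R) - 1 ∈ I ^ (k + 1))
    (hV1 : ∀ k, ∀ w ∈ V k, ((w : Rˣ) : R) - 1 ∈ I ^ (k + 1))
    (hclosed : ∀ z : Rˣ, (∀ k, ∃ w ∈ W 0, ((z : Rˣ) : R) - w ∈ I ^ k) → z ∈ W 0)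
    (Φ : Rˣ →* Rˣ)
    (hΦ : ∀ k (x y : Rˣ), (x : R) - y ∈ I ^ k → ((Φ x : Rˣ) : R) - Φ y ∈ I ^ k)
    (happrox : ∀ k, ∀ u ∈ V k, ∃ y ∈ W k, u / Φ y ∈ V (k + 1)) :
    ∀ u ∈ V 0, ∃ P ∈ W 0, Φ P = u := by
  intro u₀ h₀
  set us := approxSeq₂ W V Φ happrox u₀ h₀ with hus
  set ys : ℕ → Rˣ := fun k => (happrox k (us k).1 (us k).2).choose with hys
  have hys_mem : ∀ k, ys k ∈ W k := fun k => (happrox k (us k).1 (us k).2).choose_spec.1
  have hus_succ : ∀ k, (us (k + 1)).1 = (us k).1 / Φ (ys k) := fun k => rfl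
  have hus_zero : (us 0).1 = u₀ := rfl
  have hWmono : ∀ k, W k ≤ W 0 := by
    intro k
    induction k with
    | zero => exact le_rfl
    | succ k ih => exact (hW k).trans ih
  set P : ℕ → Rˣ := fun k => ∏ i ∈ Finset.range k, ys i with hP
  have hP_succ : ∀ k, P (k + 1) = P k * ys k := fun k => Finset.prod_range_succ _ _
  have hP_mem : ∀ k, P k ∈ W 0 := fun k =>
    Subgroup.prod_mem _ fun i _ => hWmono i (hys_mem i)
  have hΦP : ∀ k, Φ (P k) * (us k).1 = u₀ := by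
    intro k
    induction k with
    | zero => simp [hP, hus_zero]
    | succ k ih =>
      rw [hP_succ, map_mul, hus_succ, ← ih]
      rw [mul_assoc, mul_div_cancel]
  have hstep : ∀ k, ((P (k + 1) : Rˣ) : R) - P k ∈ I ^ (k + 1) := by
    intro k
    rw [hP_succ]
    have : ((P k * ys k : Rˣ) : R) - P k = (P k : R) * ((ys k : R) - 1) := by
      rw [Units.val_mul]; ring
    rw [this]
    exact Ideal.mul_mem_left _ _ (hW1 k _ (hys_mem k))
  have hcauchy : ∀ m n, m ≤ n → ((P m : Rˣ) : R) - P n ∈ I ^ m := by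
    intro m n hmn
    induction n, hmn using Nat.le_induction with
    | base => simp
    | succ n hmn ih =>
      have h1 : ((P m : Rˣ) : R) - P (n + 1) = ((P m : R) - P n) - ((P (n + 1) : R) - P n) := by ring
      rw [h1]
      refine Ideal.sub_mem _ ih ?_
      exact Ideal.pow_le_pow_right (by omega) (hstep n)
  obtain ⟨P', hP'⟩ := IsPrecomplete.prec (I := I) (M := R) inferInstance
    (f := fun k => ((P k : Rˣ) : R))
    (fun {m n} hmn => (smodEq_pow_iff I).mpr (hcauchy m n hmn))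
  have hP'k : ∀ k, ((P k : Rˣ) : R) - P' ∈ I ^ k := fun k => (smodEq_pow_iff I).mp (hP' k)
  have hP'1 : P' - 1 ∈ I := by
    have h1 : ((P 1 : Rˣ) : R) - P' ∈ I := by simpa using hP'k 1
    have h2 : ((P 1 : Rˣ) : R) - 1 ∈ I := by
      have : P 1 = ys 0 := by simp [hP]
      rw [this]
      simpa using hW1 0 _ (hys_mem 0)
    have : P' - 1 = (((P 1 : Rˣ) : R) - 1) - (((P 1 : Rˣ) : R) - P') := by ring
    rw [this]
    exact Ideal.sub_mem _ h2 h1
  obtain ⟨Pu, hPu⟩ := hunit P' hP'1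
  have hPuk : ∀ k, ((Pu : Rˣ) : R) - P k ∈ I ^ k := by
    intro k
    rw [hPu]
    have : P' - (P k : R) = -(((P k : Rˣ) : R) - P') := by ring
    rw [this]
    exact Ideal.neg_mem_iff _ |>.mpr (hP'k k)
  refine ⟨Pu, hclosed Pu fun k => ⟨P k, hP_mem k, hPuk k⟩, ?_⟩
  apply Units.ext
  rw [IsHausdorff.eq_iff_smodEq (I := I)]
  intro k
  rw [smodEq_pow_iff]
  have h1 : ((Φ Pu : Rˣ) : R) - Φ (P k) ∈ I ^ k := hΦ k _ _ (hPuk k)
  have h2 : ((Φ (P k) : Rˣ) : R) - u₀ ∈ I ^ k := by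
    have hu : (u₀ : R) = (Φ (P k) : R) * ((us k).1 : R) := by
      rw [← Units.val_mul, hΦP]
    rw [hu]
    have : ((Φ (P k) : Rˣ) : R) - (Φ (P k) : R) * ((us k).1 : R) =
        -((Φ (P k) : R) * (((us k).1 : R) - 1)) := by ring
    rw [this]
    refine (Ideal.neg_mem_iff _).mpr (Ideal.mul_mem_left _ _ ?_)
    exact Ideal.pow_le_pow_right (Nat.le_succ k) (hV1 k _ (us k).2)
  have : ((Φ Pu : Rˣ) : R) - u₀ = (((Φ Pu : Rˣ) : R) - Φ (P k)) + (((Φ (P k) : Rˣ) : R) - u₀) := by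
    ring
  rw [this]
  exact Ideal.add_mem _ h1 h2

end Approx2

section Cong

variable {R : Type*} [CommRing R] (I : Ideal R)

/-- the congruence subgroup `{u | u ≡ 1 mod I^m}` of `Rˣ` -/
def congKer (m : ℕ) : Subgroup Rˣ :=
  (Units.map ((Ideal.Quotient.mk (I ^ m) : R →+* R ⧸ I ^ m) : R →* R ⧸ I ^ m)).ker

theorem mem_congKer {m : ℕ} {u : Rˣ} : u ∈ congKer I m ↔ ((u : Rˣ) : R) - 1 ∈ I ^ m := by
  unfold congKer
  rw [MonoidHom.mem_ker, Units.ext_iff, ← Ideal.Quotient.eq_zero_iff_mem, map_sub, map_one,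
    sub_eq_zero]
  rfl

theorem congKer_anti {m m' : ℕ} (h : m ≤ m') : congKer I m' ≤ congKer I m := fun u hu => by
  rw [mem_congKer] at hu ⊢
  exact Ideal.pow_le_pow_right h hu

theorem one_add_pow_eq (b : R) (n : ℕ) : ∃ c : R, (1 + b) ^ n = 1 + n * b + b ^ 2 * c := by
  induction n with
  | zero => exact ⟨0, by simp⟩
  | succ n ih =>
    obtain ⟨c, hc⟩ := ih
    refine ⟨n + c + b * c, ?_⟩
    rw [pow_succ, hc]
    push_cast
    ring

end Cong

section PowApprox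

variable {R : Type*} [CommRing R] (I : Ideal R) [IsAdicComplete I R]

/-- **principal units of level `≥ 2e+1` are `n`-th powers** when `(n) = I^e` -/
theorem exists_pow_eq_of_sub_one_mem (hunit : ∀ x : R, x - 1 ∈ I → IsUnit x) (n e : ℕ)
    (hspan : Ideal.span {(n : R)} = I ^ e) (u : Rˣ) (hu : ((u : Rˣ) : R) - 1 ∈ I ^ (2 * e + 1)) :
    ∃ y : Rˣ, y ^ n = u := by
  have key := exists_preimage_of_approx₂ I hunit (fun k => congKer I (k + e + 1))
    (fun k => congKer I (k + 2 * e + 1))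
    (fun k => congKer_anti I (by omega))
    (fun k w hw => Ideal.pow_le_pow_right (by omega) ((mem_congKer I).mp hw))
    (fun k w hw => Ideal.pow_le_pow_right (by omega) ((mem_congKer I).mp hw))
    (fun z hz => by
      obtain ⟨w, hw, hzw⟩ := hz (0 + e + 1)
      rw [mem_congKer] at hw ⊢
      have : ((z : Rˣ) : R) - 1 = (((z : Rˣ) : R) - w) + (((w : Rˣ) : R) - 1) := by ring
      rw [this]
      exact Ideal.add_mem _ hzw hw)
    (powMonoidHom n)
    (fun k x y hxy => by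
      obtain ⟨c, hc⟩ := sub_dvd_pow_sub_pow ((x : Rˣ) : R) ((y : Rˣ) : R) n
      have : (((powMonoidHom n x : Rˣ)) : R) - ((powMonoidHom n y : Rˣ) : R) =
          (((x : Rˣ) : R) - y) * c := by
        rw [← hc]; simp
      rw [this]
      exact Ideal.mul_mem_right _ _ hxy)
    (fun k u hu => by
      rw [mem_congKer] at hu
      have h1 : I ^ (k + 2 * e + 1) = Ideal.span {(n : R)} * I ^ (k + e + 1) := by
        rw [hspan, ← pow_add]
        congr 1
        omega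
      rw [h1, Ideal.mem_span_singleton_mul] at hu
      obtain ⟨b, hb, hnb⟩ := hu
      have hbI : b ∈ I := Ideal.pow_le_self (by omega) hb
      obtain ⟨y, hy⟩ := hunit (1 + b) (by simpa using hbI)
      refine ⟨y, ?_, ?_⟩
      · rw [mem_congKer, hy]
        simpa using hb
      · rw [mem_congKer]
        obtain ⟨c, hc⟩ := one_add_pow_eq b n
        have h2 : (((u / powMonoidHom n y : Rˣ)) : R) - 1 =
            (((powMonoidHom n y)⁻¹ : Rˣ) : R) * (((u : Rˣ) : R) - ((powMonoidHom n y : Rˣ) : R)) := by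
          rw [div_eq_mul_inv, Units.val_mul, mul_sub, Units.inv_mul, mul_comm]
        have h3 : ((u : Rˣ) : R) - ((powMonoidHom n y : Rˣ) : R) = -(b ^ 2 * c) := by
          have : ((powMonoidHom n y : Rˣ) : R) = (1 + b) ^ n := by
            rw [powMonoidHom_apply, Units.val_pow_eq_pow_val, hy]
          rw [this, hc]
          have : ((u : Rˣ) : R) = 1 + n * b := by rw [hnb]; ring
          rw [this]
          ring
        rw [h2, h3]
        refine Ideal.mul_mem_left _ _ ((Ideal.neg_mem_iff _).mpr (Ideal.mul_mem_right _ _ ?_))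
        have h4 : b ^ 2 ∈ I ^ ((k + e + 1) * 2) := by
          rw [pow_mul]
          exact Ideal.pow_mem_pow hb 2
        exact Ideal.pow_le_pow_right (by omega) h4)
  obtain ⟨P, -, hP⟩ := key u (by
    show u ∈ congKer I (0 + 2 * e + 1)
    rw [mem_congKer]
    simpa using hu)
  exact ⟨P, hP⟩

end PowApprox

section FiniteIndex

variable {L : Type} [Field L] (𝒪 : ValuationSubring L) [IsDiscreteValuationRing 𝒪]

theorem exists_span_natCast_eq_pow (n : ℕ) (hn : (n : L) ≠ 0) :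
    ∃ e : ℕ, Ideal.span {(n : 𝒪)} = IsLocalRing.maximalIdeal 𝒪 ^ e := by
  obtain ⟨ϖ, hϖ⟩ := IsDiscreteValuationRing.exists_irreducible 𝒪
  have hne : Ideal.span {(n : 𝒪)} ≠ ⊥ := by
    rw [Ne, Ideal.span_singleton_eq_bot]
    intro h
    apply hn
    have h1 := congrArg (Subtype.val) h
    simpa using h1
  obtain ⟨e, he⟩ := IsDiscreteValuationRing.ideal_eq_span_pow_irreducible hne hϖ
  exact ⟨e, by rw [he, hϖ.maximalIdeal_eq, Ideal.span_singleton_pow]⟩

variable [IsAdicComplete (IsLocalRing.maximalIdeal 𝒪) 𝒪] [Finite (IsLocalRing.ResidueField 𝒪)]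

/-- `(𝒪ˣ)^n` has finite index in `𝒪ˣ` -/
theorem finiteIndex_range_pow_units (n : ℕ) (hn : (n : L) ≠ 0) :
    (powMonoidHom n : (↥𝒪)ˣ →* (↥𝒪)ˣ).range.FiniteIndex := by
  obtain ⟨e, he⟩ := exists_span_natCast_eq_pow 𝒪 n hn
  haveI : Finite (𝒪 ⧸ IsLocalRing.maximalIdeal 𝒪) :=
    inferInstanceAs (Finite (IsLocalRing.ResidueField 𝒪))
  haveI : Finite (𝒪 ⧸ IsLocalRing.maximalIdeal 𝒪 ^ (2 * e + 1)) :=
    Ideal.finite_quotient_pow (IsNoetherian.noetherian _) _
  have hker : congKer (IsLocalRing.maximalIdeal 𝒪) (2 * e + 1) ≤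
      (powMonoidHom n : (↥𝒪)ˣ →* (↥𝒪)ˣ).range := by
    intro u hu
    obtain ⟨y, hy⟩ := exists_pow_eq_of_sub_one_mem _ isUnit_of_sub_one_mem n e he u
      ((mem_congKer _).mp hu)
    exact ⟨y, hy⟩
  have : (congKer (IsLocalRing.maximalIdeal 𝒪) (2 * e + 1)).FiniteIndex := by
    unfold congKer
    infer_instance
  exact Subgroup.finiteIndex_of_le hker

include 𝒪 in
/-- **`(Lˣ)^n` has finite index in `Lˣ`** -/
theorem finiteIndex_range_pow (n : ℕ) (hn0 : n ≠ 0) (hn : (n : L) ≠ 0) :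
    (powMonoidHom n : Lˣ →* Lˣ).range.FiniteIndex := by
  haveI := finiteIndex_range_pow_units 𝒪 n hn
  haveI : Finite ((↥𝒪)ˣ ⧸ (powMonoidHom n : (↥𝒪)ˣ →* (↥𝒪)ˣ).range) :=
    Subgroup.finite_quotient_of_finiteIndex
  haveI : NeZero n := ⟨hn0⟩
  set π : Lˣ := Units.mk0 ((unif 𝒪 : 𝒪) : L) (unif_ne_zero 𝒪) with hπ
  let f : Fin n × ((↥𝒪)ˣ ⧸ (powMonoidHom n : (↥𝒪)ˣ →* (↥𝒪)ˣ).range) →
      Lˣ ⧸ (powMonoidHom n : Lˣ →* Lˣ).range :=
    fun rc => QuotientGroup.mk (π ^ (rc.1 : ℕ) * unitsIncl 𝒪 rc.2.out)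
  have hf : Function.Surjective f := by
    intro c
    obtain ⟨x, rfl⟩ := QuotientGroup.mk_surjective c
    obtain ⟨k, u, hx⟩ := exists_unit_mul_zpow (unif_irreducible 𝒪) x
    have hx' : x = unitsIncl 𝒪 u * π ^ k := by
      apply Units.ext
      rw [hx, Units.val_mul, coe_unitsIncl, Units.val_zpow_eq_zpow_val]
      rfl
    have hnpos : (0 : ℤ) < n := by exact_mod_cast Nat.pos_of_ne_zero hn0
    have hr0 : 0 ≤ k % n := Int.emod_nonneg _ hnpos.ne'
    have hrn : k % n < n := Int.emod_lt_of_pos _ hnpos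
    obtain ⟨⟨h, w, hw⟩, hout⟩ :=
      QuotientGroup.mk_out_eq_mul (powMonoidHom n : (↥𝒪)ˣ →* (↥𝒪)ˣ).range u
    have hw' : w ^ n = h := hw
    refine ⟨(⟨(k % n).toNat, by omega⟩, QuotientGroup.mk u), ?_⟩
    show (QuotientGroup.mk (π ^ (k % n).toNat * unitsIncl 𝒪 (QuotientGroup.mk u :
      (↥𝒪)ˣ ⧸ (powMonoidHom n : (↥𝒪)ˣ →* (↥𝒪)ˣ).range).out) :
        Lˣ ⧸ (powMonoidHom n : Lˣ →* Lˣ).range) = QuotientGroup.mk x
    rw [QuotientGroup.eq]
    refine ⟨π ^ (k / n) * (unitsIncl 𝒪 w)⁻¹, ?_⟩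
    rw [powMonoidHom_apply, eq_inv_mul_iff_mul_eq, hout, hx']
    have e1 : π ^ k = π ^ (k % n).toNat * (π ^ (k / n)) ^ n := by
      rw [← zpow_natCast π (k % n).toNat, Int.toNat_of_nonneg hr0, ← zpow_natCast (π ^ (k / n)) n,
        ← zpow_mul, ← zpow_add]
      congr 1
      rw [mul_comm]
      exact (Int.emod_add_mul_ediv k n).symm
    show π ^ (k % n).toNat * unitsIncl 𝒪 (u * h) * (π ^ (k / n) * (unitsIncl 𝒪 w)⁻¹) ^ n = _
    rw [map_mul, ← hw', map_pow, mul_pow, inv_pow, e1]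
    have e2 : (unitsIncl 𝒪 w) ^ n * ((unitsIncl 𝒪 w) ^ n)⁻¹ = 1 := mul_inv_cancel _
    calc π ^ (k % n).toNat * (unitsIncl 𝒪 u * unitsIncl 𝒪 w ^ n) *
          ((π ^ (k / n)) ^ n * (unitsIncl 𝒪 w ^ n)⁻¹)
        = unitsIncl 𝒪 u * (π ^ (k % n).toNat * (π ^ (k / n)) ^ n) *
          (unitsIncl 𝒪 w ^ n * (unitsIncl 𝒪 w ^ n)⁻¹) := by ac_rfl
      _ = unitsIncl 𝒪 u * (π ^ (k % n).toNat * (π ^ (k / n)) ^ n) := by rw [e2, mul_one]
  haveI : Finite (Lˣ ⧸ (powMonoidHom n : Lˣ →* Lˣ).range) := Finite.of_surjective f hf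
  exact Subgroup.finiteIndex_of_finite_quotient

end FiniteIndex

section NormedForm

variable (L : Type) [NontriviallyNormedField L] [IsUltrametricDist L] [ProperSpace L]

/-- **`(Lˣ)^n` has finite index in `Lˣ`** for a normed local field `L` and `n ≠ 0` in `L`. -/
theorem normed_finiteIndex_range_pow (n : ℕ) (hn : (n : L) ≠ 0) :
    (powMonoidHom n : Lˣ →* Lˣ).range.FiniteIndex :=
  finiteIndex_range_pow (normedIntegers L) n (by rintro rfl; simp at hn) hn

end NormedForm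

end Fermat.Agent.S55lib.LocalH
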