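/-
S55 sprint, block (II-b): cyclotomic unramified extensions inside the lattice of subfields of an
ambient field.  For `F : IntermediateField K₀ Ω` and a primitive `N`-th root of unity `ζ ∈ Ω` with
`N` a unit, `cyc F ζ = F(ζ)` is finite Galois and unramified over `F`.
-/
import Mathlib
import Fermat.Agent.S55lib.LocalH.SubExt
import Fermat.Agent.S55lib.LocalUnr.UnrExist

set_option autoImplicit false
set_option linter.unusedSectionVars false
set_option linter.style.haveILetI false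

open scoped NormedField Valued NNReal IntermediateField

namespace Fermat.Agent.S55lib.LocalH

open Fermat.Agent.S55lib.LocalUnr

section CycPlain

variable {K₀ Ω : Type} [Field K₀] [Field Ω] [Algebra K₀ Ω]

/-- `F(ζ)` inside `Ω` -/
noncomputable def cyc (F : IntermediateField K₀ Ω) (ζ : Ω) : IntermediateField K₀ Ω :=
  IntermediateField.adjoin K₀ ((F : Set Ω) ∪ {ζ})

variable (F : IntermediateField K₀ Ω) (ζ : Ω)

theorem le_cyc : F ≤ cyc F ζ := fun _ hx =>
  IntermediateField.subset_adjoin _ _ (Or.inl hx)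

theorem mem_cyc : ζ ∈ cyc F ζ :=
  IntermediateField.subset_adjoin _ _ (Or.inr rfl)

theorem cyc_le_iff {F : IntermediateField K₀ Ω} {ζ : Ω} {G : IntermediateField K₀ Ω} :
    cyc F ζ ≤ G ↔ F ≤ G ∧ ζ ∈ G := by
  constructor
  · intro h
    exact ⟨(le_cyc F ζ).trans h, h (mem_cyc F ζ)⟩
  · rintro ⟨h1, h2⟩
    apply IntermediateField.adjoin_le_iff.mpr
    rintro x (hx | hx)
    · exact h1 hx
    · rw [Set.mem_singleton_iff.mp hx]; exact h2

theorem cyc_mono {F F' : IntermediateField K₀ Ω} (h : F ≤ F') (ζ : Ω) : cyc F ζ ≤ cyc F' ζ :=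
  cyc_le_iff.mpr ⟨h.trans (le_cyc F' ζ), mem_cyc F' ζ⟩

/-- `F(ζ) ≤ F(ζ')` when `ζ` is a power of `ζ'` -/
theorem cyc_le_cyc_of_pow {F : IntermediateField K₀ Ω} {ζ ζ' : Ω} (k : ℕ) (h : ζ = ζ' ^ k) :
    cyc F ζ ≤ cyc F ζ' :=
  cyc_le_iff.mpr ⟨le_cyc F ζ', h ▸ pow_mem (mem_cyc F ζ') k⟩

instance fact_le_cyc : Fact (F ≤ cyc F ζ) := ⟨le_cyc F ζ⟩

theorem cyc_eq_sup : cyc F ζ = F ⊔ K₀⟮ζ⟯ := by
  apply le_antisymm
  · exact cyc_le_iff.mpr ⟨le_sup_left, le_sup_right (α := IntermediateField K₀ Ω)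
      (IntermediateField.mem_adjoin_simple_self K₀ ζ)⟩
  · apply sup_le (le_cyc F ζ)
    apply IntermediateField.adjoin_le_iff.mpr
    intro x hx
    rw [Set.mem_singleton_iff.mp hx]
    exact mem_cyc F ζ

/-- the generator as an element of `F(ζ)` -/
noncomputable def cycGen : cyc F ζ := ⟨ζ, mem_cyc F ζ⟩

@[simp] theorem coe_cycGen : ((cycGen F ζ : cyc F ζ) : Ω) = ζ := rfl

/-- an `F`-automorphism of `F(ζ)` fixing `ζ` is trivial -/
theorem eq_one_of_apply_cycGen (σ : (cyc F ζ) ≃ₐ[F] (cyc F ζ))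
    (h : σ (cycGen F ζ) = cycGen F ζ) : σ = 1 := by
  have key : ((σ.restrictScalars K₀ : cyc F ζ ≃ₐ[K₀] cyc F ζ) : cyc F ζ →ₐ[K₀] cyc F ζ) =
      AlgHom.id K₀ (cyc F ζ) := by
    apply IntermediateField.adjoin_algHom_ext
    rintro x (hx | hx)
    · exact σ.commutes (⟨x, hx⟩ : F)
    · have hx' : x = ζ := Set.mem_singleton_iff.mp hx
      subst hx'
      exact h
  ext x
  exact congrArg Subtype.val (DFunLike.congr_fun key x)

instance finiteDimensional_cyc [Algebra.IsIntegral K₀ Ω] [FiniteDimensional K₀ F] :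
    FiniteDimensional K₀ (cyc F ζ) := by
  rw [cyc_eq_sup]
  haveI : FiniteDimensional K₀ K₀⟮ζ⟯ :=
    IntermediateField.adjoin.finiteDimensional (Algebra.IsIntegral.isIntegral ζ)
  exact IntermediateField.finiteDimensional_sup F K₀⟮ζ⟯

instance finiteDimensional_cyc_rel [Algebra.IsIntegral K₀ Ω] [FiniteDimensional K₀ F] :
    FiniteDimensional F (cyc F ζ) :=
  finiteDimensional_ofLE F (cyc F ζ)

theorem isPrimitiveRoot_cycGen {N : ℕ} (hζ : IsPrimitiveRoot ζ N) :
    IsPrimitiveRoot (cycGen F ζ) N := by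
  apply IsPrimitiveRoot.of_map_of_injective (f := algebraMap (cyc F ζ) Ω) ?_
    (algebraMap (cyc F ζ) Ω).injective
  exact hζ

/-- `F(ζ)/F` is a cyclotomic extension -/
theorem isCyclotomicExtension_cyc [Algebra.IsIntegral K₀ Ω] [FiniteDimensional K₀ F] {N : ℕ}
    [NeZero N] (hζ : IsPrimitiveRoot ζ N) : IsCyclotomicExtension {N} F (cyc F ζ) := by
  rw [IsCyclotomicExtension.iff_singleton]
  refine ⟨⟨cycGen F ζ, isPrimitiveRoot_cycGen F ζ hζ⟩, ?_⟩
  set A : Subalgebra F (cyc F ζ) := Algebra.adjoin F {b : cyc F ζ | b ^ N = 1} with hA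
  rintro ⟨x, hx⟩
  refine IntermediateField.adjoin_induction (F := K₀) (s := (F : Set Ω) ∪ {ζ})
    (p := fun x hx => (⟨x, hx⟩ : cyc F ζ) ∈ A) ?_ ?_ ?_ ?_ ?_ hx
  · rintro y (hy | hy)
    · exact A.algebraMap_mem (⟨y, hy⟩ : F)
    · have hy' : y = ζ := Set.mem_singleton_iff.mp hy
      subst hy'
      apply Algebra.subset_adjoin
      show (cycGen F y) ^ N = 1
      exact (isPrimitiveRoot_cycGen F y hζ).pow_eq_one
  · intro y
    exact A.algebraMap_mem (algebraMap K₀ F y)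
  · intro y z hy hz h1 h2
    exact A.add_mem h1 h2
  · intro y hy h1
    have halg : IsAlgebraic F ((⟨y, hy⟩ : cyc F ζ)) :=
      (Algebra.IsIntegral.isIntegral (R := F) _).isAlgebraic
    exact A.inv_mem_of_algebraic (x := ⟨⟨y, hy⟩, h1⟩) halg
  · intro y z hy hz h1 h2
    exact A.mul_mem h1 h2

theorem isGalois_cyc [Algebra.IsIntegral K₀ Ω] [FiniteDimensional K₀ F] {N : ℕ}
    (hN0 : N ≠ 0) (hζ : IsPrimitiveRoot ζ N) : IsGalois F (cyc F ζ) := by
  haveI : NeZero N := ⟨hN0⟩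
  haveI := isCyclotomicExtension_cyc F ζ hζ
  exact IsCyclotomicExtension.isGalois {N} F (cyc F ζ)

instance fact_le_cyc_of_le (E : IntermediateField K₀ Ω) [h : Fact (E ≤ F)] :
    Fact (E ≤ cyc F ζ) := ⟨h.out.trans (le_cyc F ζ)⟩

instance fact_cyc_le_cyc (E : IntermediateField K₀ Ω) [h : Fact (E ≤ F)] :
    Fact (cyc E ζ ≤ cyc F ζ) := ⟨cyc_mono h.out ζ⟩

/-- identity map between two presentations of the same subfield of `Ω` (over `K₀`, and over `E`) -/
noncomputable def subAlgEquiv (E F : IntermediateField K₀ Ω) [Fact (E ≤ F)]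
    (F' : IntermediateField E Ω) (h : ∀ x, x ∈ F ↔ x ∈ F') : F ≃ₐ[E] F' where
  toFun x := ⟨x.1, (h _).mp x.2⟩
  invFun x := ⟨x.1, (h _).mpr x.2⟩
  left_inv _ := rfl
  right_inv _ := rfl
  map_mul' _ _ := rfl
  map_add' _ _ := rfl
  commutes' _ := rfl

theorem sup_cyc_eq (E M : IntermediateField K₀ Ω) (h : E ≤ M) (ζ : Ω) :
    M ⊔ cyc E ζ = cyc M ζ := by
  rw [cyc_eq_sup, cyc_eq_sup, ← sup_assoc, sup_eq_left.mpr h]

/-- `M(ζ)/E` is normal if `M/E` and `E(ζ)/E` are. -/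
theorem normal_cyc_tower (E M : IntermediateField K₀ Ω) [hEM : Fact (E ≤ M)] (ζ : Ω)
    [Normal E M] [Normal E (cyc E ζ)] : Normal E (cyc M ζ) := by
  let M' : IntermediateField E Ω := IntermediateField.extendScalars hEM.out
  let U' : IntermediateField E Ω := IntermediateField.extendScalars (le_cyc E ζ)
  haveI : Normal E M' := Normal.of_algEquiv (subAlgEquiv E M M' (fun _ => Iff.rfl))
  haveI : Normal E U' := Normal.of_algEquiv (subAlgEquiv E (cyc E ζ) U' (fun _ => Iff.rfl))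
  haveI : Normal E (M' ⊔ U' : IntermediateField E Ω) := IntermediateField.normal_sup E Ω M' U'
  have hmem : ∀ x, x ∈ cyc M ζ ↔ x ∈ (M' ⊔ U' : IntermediateField E Ω) := by
    intro x
    have h1 : (M' ⊔ U' : IntermediateField E Ω) =
        IntermediateField.extendScalars (le_sup_of_le_left hEM.out : E ≤ M ⊔ cyc E ζ) :=
      IntermediateField.extendScalars_sup _ _
    rw [h1, IntermediateField.mem_extendScalars, sup_cyc_eq E M hEM.out ζ]
  exact Normal.of_algEquiv (subAlgEquiv E (cyc M ζ) (M' ⊔ U') hmem).symm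

/-- `M(ζ)/E` is Galois if `M/E` is (finite) Galois and `ζ` is a root of unity. -/
theorem isGalois_cyc_tower [Algebra.IsIntegral K₀ Ω] (E M : IntermediateField K₀ Ω)
    [Fact (E ≤ M)] (ζ : Ω) [FiniteDimensional K₀ M] [IsGalois E M] {N : ℕ} (hN0 : N ≠ 0)
    (hζ : IsPrimitiveRoot ζ N) : IsGalois E (cyc M ζ) := by
  haveI : FiniteDimensional K₀ E := finiteDimensional_bot_ofLE E M
  haveI : IsGalois E (cyc E ζ) := isGalois_cyc E ζ hN0 hζ
  haveI : IsGalois M (cyc M ζ) := isGalois_cyc M ζ hN0 hζ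
  haveI : Normal E (cyc M ζ) := normal_cyc_tower E M ζ
  haveI : Algebra.IsSeparable E (cyc M ζ) := Algebra.IsSeparable.trans E M (cyc M ζ)
  exact ⟨⟩

end CycPlain

section CycNormed

variable {K₀ Ω : Type} [NontriviallyNormedField K₀] [IsUltrametricDist K₀] [ProperSpace K₀]
  [NormedField Ω] [NormedAlgebra K₀ Ω] [IsUltrametricDist Ω] [Algebra.IsIntegral K₀ Ω]

/-- finite subextensions of a local field are proper -/
instance properSpace_sub (F : IntermediateField K₀ Ω) [FiniteDimensional K₀ F] : ProperSpace F :=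
  FiniteDimensional.proper K₀ F

theorem norm_natCast_sub (F : IntermediateField K₀ Ω) (N : ℕ) : ‖(N : F)‖ = ‖(N : K₀)‖ := by
  rw [← norm_algebraMap' F (N : K₀), map_natCast]

variable (F : IntermediateField K₀ Ω) [FiniteDimensional K₀ F] (ζ : Ω)

/-- `F(ζ)/F` is unramified when the order of `ζ` is a unit. -/
theorem cyc_isUnramified_of_unit [IsGalois F (cyc F ζ)] {N : ℕ} (hN0 : N ≠ 0)
    (hunit : ‖(N : K₀)‖ = 1) (hζ : IsPrimitiveRoot ζ N) : IsUnramified F (cyc F ζ) :=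
  isUnramified_of_primitiveRoot_of_unit hN0 ((norm_natCast_sub F N).trans hunit)
    (isPrimitiveRoot_cycGen F ζ hζ) (eq_one_of_apply_cycGen F ζ)

/-- `F(ζ)/F` is unramified of degree `m` when `ζ` has order `q_F ^ m - 1`. -/
theorem cyc_isUnramified_std [IsGalois F (cyc F ζ)] (m : ℕ) (hm : 0 < m)
    (hζ : IsPrimitiveRoot ζ (Nat.card 𝓀[F] ^ m - 1)) :
    IsUnramified F (cyc F ζ) ∧ Module.finrank F (cyc F ζ) = m :=
  isUnramified_and_finrank_of_primitiveRoot m hm (isPrimitiveRoot_cycGen F ζ hζ)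
    (eq_one_of_apply_cycGen F ζ)

theorem card_residue_pow_sub_one_ne_zero (m : ℕ) (hm : 0 < m) :
    Nat.card 𝓀[F] ^ m - 1 ≠ 0 := by
  have hQ := two_le_card_residue (K := F)
  have : 2 ^ 1 ≤ Nat.card 𝓀[F] ^ m :=
    (Nat.pow_le_pow_left hQ 1).trans (Nat.pow_le_pow_right (by omega) hm)
  omega

end CycNormed

end Fermat.Agent.S55lib.LocalH
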