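/-
S55lib / LocalH / Layer (helper6).
Cyclic layers of the multiplicative group of a normed local field `L` (finite over a normed local
base field `K₀`): for `ι : H →* Gal(L/K₀)` injective and `Q ◁ H`, the `H ⧸ Q`-module `(Lˣ)^Q` is
the multiplicative group of the fixed field `E = L^Q` with its Galois action of
`Gal(E / E^{H/Q}) ≅ H ⧸ Q`; hence for `[H : Q] = p` prime: `H¹ = 0` and `|H²| = p`.
-/
import Mathlib
import Fermat.Agent.S55lib.LocalH.Normed

set_option autoImplicit false
set_option linter.unusedSectionVars false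
set_option linter.style.haveILetI false

open scoped NormedField Valued NNReal

namespace Fermat.Agent.S55lib.LocalH

open groupCohomology Fermat.Agent.S55lib.LocalUnr

section FixedField

variable {F E : Type} [Field F] [Field E] [Algebra F E] [FiniteDimensional F E]
  (H : Subgroup Gal(E/F))

theorem isGalois_fixedField : IsGalois (IntermediateField.fixedField H) E := by
  apply IsGalois.of_card_aut_eq_finrank
  rw [IntermediateField.finrank_fixedField_eq_card]
  exact (Nat.card_congr (IntermediateField.subgroupEquivAlgEquiv H).toEquiv).symm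

theorem subgroupEquivAlgEquiv_apply (φ : H) (x : E) :
    IntermediateField.subgroupEquivAlgEquiv H φ x = (φ : Gal(E/F)) x := rfl

end FixedField

variable (K₀ : Type) [NontriviallyNormedField K₀] [IsUltrametricDist K₀] [ProperSpace K₀]
variable (L : Type) [NontriviallyNormedField L] [IsUltrametricDist L] [ProperSpace L]
  [NormedAlgebra K₀ L] [FiniteDimensional K₀ L]
variable {H : Type} [Group H] (ι : H →* Gal(L/K₀)) (Q : Subgroup H)

/-- the fixed field of `Q` -/
def layerField : IntermediateField K₀ L := IntermediateField.fixedField (Q.map ι)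

theorem mem_layerField {x : L} : x ∈ layerField K₀ L ι Q ↔ ∀ q ∈ Q, ι q x = x := by
  unfold layerField
  rw [IntermediateField.mem_fixedField_iff]
  constructor
  · intro h q hq
    exact h _ ⟨q, hq, rfl⟩
  · rintro h _ ⟨q, hq, rfl⟩
    exact h q hq

variable [hQ : Q.Normal]

theorem apply_mem_layerField (h : H) {x : L} (hx : x ∈ layerField K₀ L ι Q) :
    ι h x ∈ layerField K₀ L ι Q := by
  rw [mem_layerField] at hx ⊢
  intro q hq
  have hc : h⁻¹ * q * h ∈ Q := hQ.conj_mem' q hq h
  have h1 := hx _ hc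
  have e : q * h = h * (h⁻¹ * q * h) := by group
  calc ι q (ι h x) = ι (q * h) x := by rw [map_mul]; rfl
    _ = ι (h * (h⁻¹ * q * h)) x := by rw [← e]
    _ = ι h (ι (h⁻¹ * q * h) x) := by rw [map_mul]; rfl
    _ = ι h x := by rw [h1]

/-- restriction of `ι h` to the layer field -/
noncomputable def layerAut (h : H) : layerField K₀ L ι Q ≃ₐ[K₀] layerField K₀ L ι Q where
  toFun x := ⟨ι h x, apply_mem_layerField K₀ L ι Q h x.2⟩
  invFun x := ⟨ι h⁻¹ x, apply_mem_layerField K₀ L ι Q h⁻¹ x.2⟩
  left_inv x := Subtype.ext (by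
    show ι h⁻¹ (ι h (x : L)) = x
    rw [map_inv]
    exact (ι h).symm_apply_apply _)
  right_inv x := Subtype.ext (by
    show ι h (ι h⁻¹ (x : L)) = x
    rw [map_inv]
    exact (ι h).apply_symm_apply _)
  map_mul' x y := Subtype.ext (map_mul (ι h) (x : L) y)
  map_add' x y := Subtype.ext (map_add (ι h) (x : L) y)
  commutes' r := Subtype.ext ((ι h).commutes r)

@[simp] theorem coe_layerAut (h : H) (x : layerField K₀ L ι Q) :
    ((layerAut K₀ L ι Q h x : layerField K₀ L ι Q) : L) = ι h x := rfl

/-- restriction as a group homomorphism -/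
noncomputable def layerHom : H →* Gal((layerField K₀ L ι Q)/K₀) where
  toFun := layerAut K₀ L ι Q
  map_one' := by
    ext x
    simp
  map_mul' a b := by
    ext x
    simp

theorem layerHom_apply (h : H) (x : layerField K₀ L ι Q) :
    ((layerHom K₀ L ι Q h x : layerField K₀ L ι Q) : L) = ι h x := rfl

theorem layerHom_eq_one_of_mem {q : H} (hq : q ∈ Q) : layerHom K₀ L ι Q q = 1 := by
  ext x
  rw [layerHom_apply]
  exact (mem_layerField K₀ L ι Q).mp x.2 q hq

/-- the action of `H ⧸ Q` on the layer field -/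
noncomputable def layerQuot : H ⧸ Q →* Gal((layerField K₀ L ι Q)/K₀) :=
  QuotientGroup.lift Q (layerHom K₀ L ι Q) fun _ hq => layerHom_eq_one_of_mem K₀ L ι Q hq

theorem layerQuot_mk (h : H) :
    layerQuot K₀ L ι Q (QuotientGroup.mk h) = layerHom K₀ L ι Q h := rfl

theorem layerQuot_injective (hι : Function.Injective ι) :
    Function.Injective (layerQuot K₀ L ι Q) := by
  rw [injective_iff_map_eq_one]
  intro c hc
  obtain ⟨h, rfl⟩ := QuotientGroup.mk_surjective c
  rw [layerQuot_mk] at hc
  rw [QuotientGroup.eq_one_iff]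
  have hfix : ι h ∈ (IntermediateField.fixedField (Q.map ι)).fixingSubgroup := by
    rw [IntermediateField.mem_fixingSubgroup_iff]
    intro x hx
    have h1 := layerHom_apply K₀ L ι Q h ⟨x, hx⟩
    rw [hc] at h1
    exact h1.symm
  rw [IntermediateField.fixingSubgroup_fixedField] at hfix
  obtain ⟨q, hq, hqh⟩ := hfix
  rwa [← hι hqh]

section LayerCoh

variable (hι : Function.Injective ι)

/-- the base field of the layer: the fixed field of `H ⧸ Q` in the layer field -/
noncomputable def layerBase : IntermediateField K₀ (layerField K₀ L ι Q) :=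
  IntermediateField.fixedField (layerQuot K₀ L ι Q).range

/-- `H ⧸ Q ≃* Gal(E / F')` -/
noncomputable def layerGalEquiv :
    (H ⧸ Q) ≃* Gal((layerField K₀ L ι Q)/(layerBase K₀ L ι Q)) :=
  (MonoidHom.ofInjective (layerQuot_injective K₀ L ι Q hι)).trans
    (IntermediateField.subgroupEquivAlgEquiv _)

theorem layerGalEquiv_apply (c : H ⧸ Q) (x : layerField K₀ L ι Q) :
    layerGalEquiv K₀ L ι Q hι c x = layerQuot K₀ L ι Q c x := rfl

instance isGalois_layer : IsGalois (layerBase K₀ L ι Q) (layerField K₀ L ι Q) :=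
  isGalois_fixedField _

/-- a unit of `L` lying in an intermediate field, as a unit of that field -/
def unitOfMem (E : IntermediateField K₀ L) (u : Lˣ) (hu : (u : L) ∈ E) : (↥E)ˣ where
  val := ⟨u, hu⟩
  inv := ⟨((u⁻¹ : Lˣ) : L), by rw [Units.val_inv_eq_inv_val]; exact E.inv_mem hu⟩
  val_inv := Subtype.ext (by simp)
  inv_val := Subtype.ext (by simp)

@[simp] theorem coe_unitOfMem (E : IntermediateField K₀ L) (u : Lˣ) (hu : (u : L) ∈ E) :
    (((unitOfMem K₀ L E u hu : (↥E)ˣ) : ↥E) : L) = u := rfl

/-- the `H`-module `Lˣ` -/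
noncomputable abbrev unitsRepRes : Rep ℤ H := Rep.res ι (Rep.ofAlgebraAutOnUnits K₀ L)

theorem mem_layerField_of_invariant
    (a : Representation.invariants ((unitsRepRes K₀ L ι).ρ.comp Q.subtype)) :
    ((ofA K₀ (a : (unitsRepRes K₀ L ι).V) : Lˣ) : L) ∈ layerField K₀ L ι Q := by
  rw [mem_layerField]
  intro q hq
  have h := a.2 ⟨q, hq⟩
  have h2 := congrArg (fun b : (Rep.ofAlgebraAutOnUnits K₀ L).V => ((ofA K₀ b : Lˣ) : L)) h
  exact h2

/-- the layer module `(Lˣ)^Q` as an additive group is `Eˣ` -/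
noncomputable def layerAddEquiv :
    Representation.invariants ((unitsRepRes K₀ L ι).ρ.comp Q.subtype) ≃+
      (Rep.ofAlgebraAutOnUnits (layerBase K₀ L ι Q) (layerField K₀ L ι Q)).V where
  toFun a := toA (layerBase K₀ L ι Q)
    (unitOfMem K₀ L (layerField K₀ L ι Q) (ofA K₀ (a : (unitsRepRes K₀ L ι).V))
      (mem_layerField_of_invariant K₀ L ι Q a))
  invFun b := ⟨toA K₀ (Units.map ((layerField K₀ L ι Q).val : _ →* L)
      (ofA (layerBase K₀ L ι Q) b)), by
    rw [Representation.mem_invariants]
    rintro ⟨q, hq⟩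
    apply toA_injective (K := K₀)
    apply Units.ext
    have hx := ((ofA (layerBase K₀ L ι Q) b : (layerField K₀ L ι Q)ˣ) : layerField K₀ L ι Q).2
    exact (mem_layerField K₀ L ι Q).mp hx q hq⟩
  left_inv a := Subtype.ext (by
    apply toA_injective (K := K₀)
    apply Units.ext
    rfl)
  right_inv b := by
    apply toA_injective (K := layerBase K₀ L ι Q)
    apply Units.ext
    apply Subtype.ext
    rfl
  map_add' a b := by
    apply toA_injective (K := layerBase K₀ L ι Q)
    apply Units.ext
    apply Subtype.ext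
    rfl

theorem coe_layerAddEquiv (a : Representation.invariants ((unitsRepRes K₀ L ι).ρ.comp Q.subtype)) :
    ((((ofA (layerBase K₀ L ι Q) (layerAddEquiv K₀ L ι Q a) : (layerField K₀ L ι Q)ˣ) :
      layerField K₀ L ι Q)) : L) = ((ofA K₀ (a : (unitsRepRes K₀ L ι).V) : Lˣ) : L) := rfl

/-- equivariance of `layerAddEquiv` -/
theorem layerAddEquiv_ρ (c : H ⧸ Q)
    (a : Representation.invariants ((unitsRepRes K₀ L ι).ρ.comp Q.subtype)) :
    layerAddEquiv K₀ L ι Q (((unitsRepRes K₀ L ι).quotientToInvariants Q).ρ c a) =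
      (Rep.ofAlgebraAutOnUnits (layerBase K₀ L ι Q) (layerField K₀ L ι Q)).ρ
        (layerGalEquiv K₀ L ι Q hι c) (layerAddEquiv K₀ L ι Q a) := by
  obtain ⟨h, rfl⟩ := QuotientGroup.mk_surjective c
  apply toA_injective (K := layerBase K₀ L ι Q)
  apply Units.ext
  apply Subtype.ext
  rfl

/-- the cohomology of the layer is the Galois cohomology of `E / F'` -/
noncomputable def layerCohIso (n : ℕ) :
    groupCohomology ((unitsRepRes K₀ L ι).quotientToInvariants Q) n ≅
      groupCohomology (Rep.ofAlgebraAutOnUnits (layerBase K₀ L ι Q) (layerField K₀ L ι Q)) n :=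
  groupCohomology.mapIso (layerGalEquiv K₀ L ι Q hι) (layerAddEquiv K₀ L ι Q).toIntLinearEquiv
    (fun g => by
      ext a
      exact layerAddEquiv_ρ K₀ L ι Q hι g a) n

instance properSpace_layerField : ProperSpace (layerField K₀ L ι Q) :=
  FiniteDimensional.proper K₀ _

theorem norm_gal_layer (τ : Gal((layerField K₀ L ι Q)/(layerBase K₀ L ι Q)))
    (x : layerField K₀ L ι Q) : ‖τ x‖ = ‖x‖ :=
  norm_algEquiv K₀ (layerField K₀ L ι Q) (τ.restrictScalars K₀) x

include hι in
/-- **Cyclic layers of a local field**: `H¹ = 0` and `|H²| = p`. -/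
theorem layer_cohomology [Finite H] {p : ℕ} (hp : p.Prime) (hidx : Q.index = p) :
    Subsingleton (groupCohomology ((unitsRepRes K₀ L ι).quotientToInvariants Q) 1) ∧
      Nat.card (groupCohomology ((unitsRepRes K₀ L ι).quotientToInvariants Q) 2) = p := by
  have hcard : Nat.card Gal((layerField K₀ L ι Q)/(layerBase K₀ L ι Q)) = p := by
    rw [← Nat.card_congr (layerGalEquiv K₀ L ι Q hι).toEquiv, ← hidx]
    rfl
  haveI : Fact p.Prime := ⟨hp⟩
  haveI : IsCyclic Gal((layerField K₀ L ι Q)/(layerBase K₀ L ι Q)) := isCyclic_of_prime_card hcard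
  constructor
  · have : Subsingleton (H1 (Rep.ofAlgebraAutOnUnits (layerBase K₀ L ι Q)
        (layerField K₀ L ι Q))) := by
      haveI := groupCohomology.H1ofAutOnUnitsUnique (layerBase K₀ L ι Q) (layerField K₀ L ι Q)
      infer_instance
    exact (layerCohIso K₀ L ι Q hι 1).toLinearEquiv.toEquiv.subsingleton
  · rw [Nat.card_congr (layerCohIso K₀ L ι Q hι 2).toLinearEquiv.toEquiv]
    rw [← hcard]
    exact normed_card_H2_of_isCyclic (K := layerBase K₀ L ι Q) (L := layerField K₀ L ι Q)
      (norm_gal_layer K₀ L ι Q)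

end LayerCoh

end Fermat.Agent.S55lib.LocalH
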