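/-
S55lib / LocalH / Bound (helper6).
The local part of K1: for a normed local field `L`, finite over a normed local base field `K₀`,
and any finite group `H` acting faithfully on `L` through `ι : H →* Gal(L/K₀)`:
`H¹(H, Lˣ) = 0` and `|H²(H, Lˣ)|` divides `|H|`.
Proof: helper5's devissage (`Dev/Devissage.lean`) fed with the cyclic layers of `Layer.lean`.
-/
import Mathlib
import Fermat.Agent.S55lib.LocalH.Layer
import Fermat.Agent.S55lib.Dev.Devissage

set_option autoImplicit false
set_option linter.unusedSectionVars false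
set_option linter.style.haveILetI false

open scoped NormedField Valued NNReal

namespace Fermat.Agent.S55lib.LocalH

open groupCohomology Fermat.Agent.S55lib.LocalUnr Fermat.Agent.S55lib.Dev

variable (K₀ : Type) [NontriviallyNormedField K₀] [IsUltrametricDist K₀] [ProperSpace K₀]

/-- the hereditary class of multiplicative groups of local fields -/
def localClass : HereditaryClass ℤ where
  mem H _ A := ∃ (L : Type) (_ : NontriviallyNormedField L) (_ : IsUltrametricDist L)
    (_ : ProperSpace L) (_ : NormedAlgebra K₀ L) (_ : FiniteDimensional K₀ L)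
    (ι : H →* (L ≃ₐ[K₀] L)), Function.Injective ι ∧
      A = Rep.res ι (Rep.ofAlgebraAutOnUnits K₀ L)
  res_mem H _ A Q := by
    rintro ⟨L, i1, i2, i3, i4, i5, ι, hι, rfl⟩
    exact ⟨L, i1, i2, i3, i4, i5, ι.comp Q.subtype, hι.comp Subtype.val_injective, rfl⟩

theorem localClass_cyclicLayers {p : ℕ} (hp : p.Prime) : (localClass K₀).CyclicLayers p := by
  intro H _ _ A Q _ hA hidx
  obtain ⟨L, i1, i2, i3, i4, i5, ι, hι, rfl⟩ := hA
  obtain ⟨h1, h2⟩ := layer_cohomology K₀ L ι Q hι hp hidx
  exact ⟨h1, h2 ▸ dvd_rfl⟩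

variable (L : Type) [NontriviallyNormedField L] [IsUltrametricDist L] [ProperSpace L]
  [NormedAlgebra K₀ L] [FiniteDimensional K₀ L]
variable {H : Type} [Group H] [Finite H] (ι : H →* Gal(L/K₀)) (hι : Function.Injective ι)

include hι in
theorem mem_localClass : (localClass K₀).mem H (unitsRepRes K₀ L ι) :=
  ⟨L, inferInstance, inferInstance, inferInstance, inferInstance, inferInstance, ι, hι, rfl⟩

include hι in
/-- **`|H²(H, Lˣ)|` divides `|H|`.** -/
theorem card_H2_dvd_card :
    Nat.card (groupCohomology (unitsRepRes K₀ L ι) 2) ∣ Nat.card H := by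
  apply card_dvd_of_sylow
  intro p hp
  haveI : Fact p.Prime := ⟨hp⟩
  let P : Sylow p H := default
  refine ⟨P, ?_⟩
  have hPcard : Nat.card P = p ^ (Nat.card H).factorization p := P.card_eq_multiplicity
  exact (devissage_pGroup (localClass K₀) p (localClass_cyclicLayers K₀ hp) _ P
    (Rep.res P.1.subtype (unitsRepRes K₀ L ι)) hPcard
    ((localClass K₀).res_mem H _ P.1 (mem_localClass K₀ L ι hι))).2

include hι in
/-- **`H¹(H, Lˣ) = 0`** (Hilbert 90 in the devissage form). -/
theorem subsingleton_H1 : Subsingleton (groupCohomology (unitsRepRes K₀ L ι) 1) := by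
  apply subsingleton_of_sylow
  intro p hp
  haveI : Fact p.Prime := ⟨hp⟩
  let P : Sylow p H := default
  refine ⟨P, ?_⟩
  have hPcard : Nat.card P = p ^ (Nat.card H).factorization p := P.card_eq_multiplicity
  exact (devissage_pGroup (localClass K₀) p (localClass_cyclicLayers K₀ hp) _ P
    (Rep.res P.1.subtype (unitsRepRes K₀ L ι)) hPcard
    ((localClass K₀).res_mem H _ P.1 (mem_localClass K₀ L ι hι))).1

end Fermat.Agent.S55lib.LocalH
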