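/-
S55 sprint, block (II-b): the fundamental class (the `≥` half of K1).
For `K ⊂ M` finite Galois of local fields and `U/K` unramified with `[U:K] ∣ [M:K]`, inside a common
finite Galois `N ⊇ M, U` with `N/M` unramified: every class of `H²(U/K)` inflated to `N` comes from
`H²(M/K)`.  Hence `H²(M/K)` contains an element of order `[M:K]` as soon as the unramified
extension of that degree exists.
-/
import Mathlib
import Fermat.Agent.S55lib.LocalH.GalInfRes
import Fermat.Agent.S55lib.LocalH.Bound
import Fermat.Agent.S55lib.LocalUnr.UnrExistAmbient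

set_option autoImplicit false
set_option linter.unusedSectionVars false
set_option linter.style.haveILetI false

namespace Fermat.Agent.S55lib.LocalH

open groupCohomology CategoryTheory Rep Fermat.Agent.S55lib.Dev Fermat.Agent.S55lib.LocalUnr

section Functoriality

variable (K K' K'' L L' L'' : Type) [Field K] [Field K'] [Field K''] [Field L] [Field L'] [Field L'']
  [Algebra K K'] [Algebra K' K''] [Algebra K K'']
  [Algebra K L] [Algebra K' L'] [Algebra K'' L'']
  [Algebra L L'] [Algebra L' L''] [Algebra L L'']
  [Algebra K L'] [Algebra K L''] [Algebra K' L'']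
  [IsScalarTower K K' L'] [IsScalarTower K L L'] [Normal K L]
  [IsScalarTower K' K'' L''] [IsScalarTower K' L' L''] [Normal K' L']
  [IsScalarTower K K'' L''] [IsScalarTower K L L'']
  [IsScalarTower L L' L'']

theorem resHom_comp_resHom :
    (LocalUnr.resHom K K' L L').comp (LocalUnr.resHom K' K'' L' L'') =
      LocalUnr.resHom K K'' L L'' := by
  ext σ x
  apply (algebraMap L L'').injective
  show algebraMap L L'' (LocalUnr.resHom K K' L L' (LocalUnr.resHom K' K'' L' L'' σ) x) =
    algebraMap L L'' (LocalUnr.resHom K K'' L L'' σ x)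
  rw [algebraMap_resHom' K K'' L L'', IsScalarTower.algebraMap_apply L L' L'',
    algebraMap_resHom' K K' L L', algebraMap_resHom' K' K'' L' L'',
    ← IsScalarTower.algebraMap_apply L L' L'']

/-- **Functoriality** of the maps `H^n(L/K) → H^n(L'/K')`. -/
theorem galMap_comp (n : ℕ) (x : groupCohomology (Rep.ofAlgebraAutOnUnits K L) n) :
    groupCohomology.map (LocalUnr.resHom K' K'' L' L'') (galUnitsMap K' K'' L' L'') n
      (groupCohomology.map (LocalUnr.resHom K K' L L') (galUnitsMap K K' L L') n x) =
    groupCohomology.map (LocalUnr.resHom K K'' L L'') (galUnitsMap K K'' L L'') n x := by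
  have h := groupCohomology.map_comp (LocalUnr.resHom K K' L L') (LocalUnr.resHom K' K'' L' L'')
    (galUnitsMap K K' L L') (galUnitsMap K' K'' L' L'') n
  have h2 : groupCohomology.map
      ((LocalUnr.resHom K K' L L').comp (LocalUnr.resHom K' K'' L' L''))
      ((resFunctor (LocalUnr.resHom K' K'' L' L'')).map (galUnitsMap K K' L L') ≫
        galUnitsMap K' K'' L' L'') n =
      groupCohomology.map (LocalUnr.resHom K K'' L L'') (galUnitsMap K K'' L L'') n := by
    refine groupCohomology.map_congr (resHom_comp_resHom K K' K'' L L' L'') ?_ n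
    ext a
    apply Units.ext
    exact (IsScalarTower.algebraMap_apply L L' L'' _).symm
  rw [← h2, h]
  rfl

end Functoriality

section SelfMap

variable (K L : Type) [Field K] [Field L] [Algebra K L] [Normal K L]

theorem resHom_self : LocalUnr.resHom K K L L = MonoidHom.id _ := by
  ext σ x
  have := algebraMap_resHom' K K L L σ x
  simpa using this

theorem galMap_self (n : ℕ) (x : groupCohomology (Rep.ofAlgebraAutOnUnits K L) n) :
    groupCohomology.map (LocalUnr.resHom K K L L) (galUnitsMap K K L L) n x = x := by
  have h2 : groupCohomology.map (LocalUnr.resHom K K L L) (galUnitsMap K K L L) n =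
      groupCohomology.map (MonoidHom.id _) (𝟙 (Rep.ofAlgebraAutOnUnits K L)) n := by
    refine groupCohomology.map_congr (resHom_self K L) ?_ n
    ext a
    rfl
  rw [h2, groupCohomology.map_id]
  rfl

end SelfMap

section GalMapDef

variable (K K' L L' : Type) [Field K] [Field K'] [Field L] [Field L'] [Algebra K K']
  [Algebra K L] [Algebra K L'] [Algebra K' L'] [Algebra L L'] [IsScalarTower K K' L']
  [IsScalarTower K L L'] [Normal K L]

/-- the general map `H^n(L/K) → H^n(L'/K')` for `K ⊆ K'`, `L ⊆ L'` (inflation for `K = K'`,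
restriction for `L = L'`) -/
noncomputable abbrev galMap (n : ℕ) :
    groupCohomology (Rep.ofAlgebraAutOnUnits K L) n ⟶
      groupCohomology (Rep.ofAlgebraAutOnUnits K' L') n :=
  groupCohomology.map (LocalUnr.resHom K K' L L') (galUnitsMap K K' L L') n

end GalMapDef

section Cube

variable (K K' M M' U U' N N' : Type) [Field K] [Field K'] [Field M] [Field M'] [Field U]
  [Field U'] [Field N] [Field N']
  [Algebra K K']
  [Algebra K M] [Algebra K U] [Algebra K N] [Algebra K M'] [Algebra K U'] [Algebra K N']
  [Algebra K' M'] [Algebra K' U'] [Algebra K' N']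
  [Algebra M N] [Algebra U N] [Algebra M' N'] [Algebra U' N'] [Algebra M M'] [Algebra U U']
  [Algebra N N'] [Algebra M N'] [Algebra U N']
  [IsScalarTower K M N] [IsScalarTower K U N] [Normal K M] [Normal K U] [Normal K N]
  [IsScalarTower K' M' N'] [IsScalarTower K' U' N'] [Normal K' M'] [Normal K' U']
  [IsScalarTower K K' M'] [IsScalarTower K M M'] [IsScalarTower K K' U'] [IsScalarTower K U U']
  [IsScalarTower K K' N'] [IsScalarTower K N N'] [IsScalarTower K M N'] [IsScalarTower K U N']
  [IsScalarTower M M' N'] [IsScalarTower M N N'] [IsScalarTower U U' N'] [IsScalarTower U N N']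

/-- **Transport of a matching** `inf_{M→N} u = inf_{U→N} x` along a cube of fields. -/
theorem galMap_matched (n : ℕ) (u : groupCohomology (Rep.ofAlgebraAutOnUnits K M) n)
    (x : groupCohomology (Rep.ofAlgebraAutOnUnits K U) n)
    (h : galMap K K M N n u = galMap K K U N n x) :
    galMap K' K' M' N' n (galMap K K' M M' n u) = galMap K' K' U' N' n (galMap K K' U U' n x) := by
  have e1 : galMap K' K' M' N' n (galMap K K' M M' n u) = galMap K K' M N' n u :=
    galMap_comp K K' K' M M' N' n u
  have e2 : galMap K K' N N' n (galMap K K M N n u) = galMap K K' M N' n u :=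
    galMap_comp K K K' M N N' n u
  have e3 : galMap K' K' U' N' n (galMap K K' U U' n x) = galMap K K' U N' n x :=
    galMap_comp K K' K' U U' N' n x
  have e4 : galMap K K' N N' n (galMap K K U N n x) = galMap K K' U N' n x :=
    galMap_comp K K K' U N N' n x
  rw [e1, e3, ← e2, ← e4, h]

end Cube

section FourFields

variable (K M U N : Type) [Field K] [Field M] [Field U] [Field N]
  [Algebra K M] [Algebra K U] [Algebra K N] [Algebra M N] [Algebra U N]
  [IsScalarTower K M N] [IsScalarTower K U N]
  [FiniteDimensional K N] [IsGalois K N] [IsGalois K M] [IsGalois K U]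

theorem resHom_comp_resHom_top :
    (LocalUnr.resHom K K U N).comp (LocalUnr.resHom K M N N) = LocalUnr.resHom K M U N := by
  ext σ x
  apply (algebraMap U N).injective
  show algebraMap U N (LocalUnr.resHom K K U N (LocalUnr.resHom K M N N σ) x) =
    algebraMap U N (LocalUnr.resHom K M U N σ x)
  rw [algebraMap_resHom' K K U N, algebraMap_resHom' K M U N, resHom_top_apply]

/-- restriction after inflation = the mixed map `H²(U/K) → H²(N/M)` -/
theorem galRes_galInf (n : ℕ) (x : groupCohomology (Rep.ofAlgebraAutOnUnits K U) n) :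
    galRes K M N n (galInf K U N n x) =
      groupCohomology.map (LocalUnr.resHom K M U N) (galUnitsMap K M U N) n x := by
  have h := groupCohomology.map_comp (LocalUnr.resHom K K U N) (LocalUnr.resHom K M N N)
    (galUnitsMap K K U N) (galUnitsMap K M N N) n
  have h2 : groupCohomology.map ((LocalUnr.resHom K K U N).comp (LocalUnr.resHom K M N N))
      ((resFunctor (LocalUnr.resHom K M N N)).map (galUnitsMap K K U N) ≫ galUnitsMap K M N N) n =
      groupCohomology.map (LocalUnr.resHom K M U N) (galUnitsMap K M U N) n := by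
    refine groupCohomology.map_congr (resHom_comp_resHom_top K M U N) ?_ n
    ext a
    rfl
  rw [← h2, h]
  rfl

end FourFields

section NormedSplit

variable {K M U N : Type}
  [NontriviallyNormedField K] [IsUltrametricDist K] [ProperSpace K]
  [NontriviallyNormedField M] [IsUltrametricDist M] [ProperSpace M]
  [NontriviallyNormedField U] [IsUltrametricDist U] [ProperSpace U]
  [NontriviallyNormedField N] [IsUltrametricDist N] [ProperSpace N]
  [NormedAlgebra K M] [NormedAlgebra K U] [NormedAlgebra K N] [NormedAlgebra M N]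
  [NormedAlgebra U N] [IsScalarTower K M N] [IsScalarTower K U N]
  [FiniteDimensional K N] [IsGalois K N] [IsGalois K M] [IsGalois K U]
  [FiniteDimensional K U] [FiniteDimensional M N] [IsGalois M N]

/-- every class of the unramified `H²(U/K)` is killed by `[U:K]` -/
theorem IsUnramified_finrank_nsmul (hU : IsUnramified K U)
    (x : H2 (Rep.ofAlgebraAutOnUnits K U)) : Module.finrank K U • x = 0 := by
  apply hU.invZEquiv.injective
  rw [map_nsmul, map_zero]
  have : ((Module.finrank K U : ℕ) : ZMod (Module.finrank K U)) = 0 := ZMod.natCast_self _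
  rw [nsmul_eq_mul, this, zero_mul]

/-- **Splitting**: a class of the unramified extension `U/K` whose degree divides `[M:K]`
restricts to zero on `N/M` (unramified). -/
theorem galRes_galInf_eq_zero (hU : IsUnramified K U) (hN : IsUnramified M N)
    (hdvd : Module.finrank K U ∣ Module.finrank K M)
    (x : H2 (Rep.ofAlgebraAutOnUnits K U)) :
    galRes K M N 2 (galInf K U N 2 x) = 0 := by
  rw [galRes_galInf]
  apply hN.inv_injective
  rw [map_zero]
  have h1 := inv_map_resHom' (K := K) (K' := M) (L := U) (L' := N) hU hN x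
  have h2 : Module.finrank K M • hU.inv x = 0 := by
    obtain ⟨d, hd⟩ := hdvd
    rw [← map_nsmul, hd, mul_comm, mul_nsmul, IsUnramified_finrank_nsmul hU, map_zero]
  rw [h2] at h1
  exact h1

/-- every unramified class of degree dividing `[M:K]` comes from `H²(M/K)` -/
theorem exists_galInf_eq_galInf (hU : IsUnramified K U) (hN : IsUnramified M N)
    (hdvd : Module.finrank K U ∣ Module.finrank K M)
    (x : H2 (Rep.ofAlgebraAutOnUnits K U)) :
    ∃ u : H2 (Rep.ofAlgebraAutOnUnits K M), galInf K M N 2 u = galInf K U N 2 x :=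
  exists_galInf_eq_of_galRes_eq_zero K M N _ (galRes_galInf_eq_zero hU hN hdvd x)

omit [NontriviallyNormedField U] [IsUltrametricDist U] [ProperSpace U]
  [NontriviallyNormedField N] [IsUltrametricDist N] [ProperSpace N]
  [NormedAlgebra K U] [NormedAlgebra K N] [NormedAlgebra M N]
  [NormedAlgebra U N] [IsScalarTower K M N] [IsScalarTower K U N]
  [FiniteDimensional K N] [IsGalois K N] [IsGalois K U]
  [FiniteDimensional K U] [FiniteDimensional M N] [IsGalois M N] in
/-- the `≤` half of K1 for the full group -/
theorem card_H2_gal_dvd_finrank [FiniteDimensional K M] :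
    Nat.card (H2 (Rep.ofAlgebraAutOnUnits K M)) ∣ Module.finrank K M := by
  have h := card_H2_dvd_card K M (MonoidHom.id (M ≃ₐ[K] M)) Function.injective_id
  rw [IsGalois.card_aut_eq_finrank] at h
  exact h

/-- the unramified `H²` has exactly `[U:K]` elements -/
theorem IsUnramified_card_H2 (hU : IsUnramified K U) :
    Nat.card (H2 (Rep.ofAlgebraAutOnUnits K U)) = Module.finrank K U := by
  rw [Nat.card_congr hU.invZEquiv.toEquiv, Nat.card_zmod]

variable [FiniteDimensional K M]

/-- **Equality of the inflation images**: if `[U:K] = [M:K]`, the classes of `M/K` and of the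
unramified `U/K` have the same inflations in `N`. -/
theorem exists_galInf_eq_galInf' (hU : IsUnramified K U) (hN : IsUnramified M N)
    (hdeg : Module.finrank K U = Module.finrank K M)
    (u : H2 (Rep.ofAlgebraAutOnUnits K M)) :
    ∃ x : H2 (Rep.ofAlgebraAutOnUnits K U), galInf K U N 2 x = galInf K M N 2 u := by
  have hn0 : Module.finrank K M ≠ 0 := Module.finrank_pos.ne'
  have hdvd := card_H2_gal_dvd_finrank (K := K) (M := M)
  haveI hfin : Finite (H2 (Rep.ofAlgebraAutOnUnits K M)) :=
    Nat.finite_of_card_ne_zero (fun h0 => hn0 (by rw [h0] at hdvd; exact Nat.eq_zero_of_zero_dvd hdvd))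
  set f : H2 (Rep.ofAlgebraAutOnUnits K M) → H2 (Rep.ofAlgebraAutOnUnits K N) :=
    fun u => galInf K M N 2 u with hf
  set g : H2 (Rep.ofAlgebraAutOnUnits K U) → H2 (Rep.ofAlgebraAutOnUnits K N) :=
    fun x => galInf K U N 2 x with hg
  have hfi : Function.Injective f := galInf_two_injective K M N
  have hgi : Function.Injective g := galInf_two_injective K U N
  have hsub : Set.range g ⊆ Set.range f := by
    rintro _ ⟨x, rfl⟩
    obtain ⟨u, hu⟩ := exists_galInf_eq_galInf hU hN (dvd_of_eq hdeg) x
    exact ⟨u, hu⟩
  have hcf : (Set.range f).ncard = Nat.card (H2 (Rep.ofAlgebraAutOnUnits K M)) := by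
    rw [← Set.image_univ, Set.ncard_image_of_injective _ hfi, Set.ncard_univ]
  have hcg : (Set.range g).ncard = Module.finrank K M := by
    rw [← Set.image_univ, Set.ncard_image_of_injective _ hgi, Set.ncard_univ,
      IsUnramified_card_H2 hU, hdeg]
  have hle : (Set.range f).ncard ≤ (Set.range g).ncard := by
    rw [hcf, hcg]
    exact Nat.le_of_dvd (Nat.pos_of_ne_zero hn0) hdvd
  have heq := Set.eq_of_subset_of_ncard_le hsub hle (Set.finite_range f)
  have : f u ∈ Set.range g := by rw [heq]; exact ⟨u, rfl⟩
  obtain ⟨x, hx⟩ := this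
  exact ⟨x, hx⟩

/-- the class of `U/K` matching a class of `M/K` -/
noncomputable def splitFun (hU : IsUnramified K U) (hN : IsUnramified M N)
    (hdeg : Module.finrank K U = Module.finrank K M)
    (u : H2 (Rep.ofAlgebraAutOnUnits K M)) : H2 (Rep.ofAlgebraAutOnUnits K U) :=
  Classical.choose (exists_galInf_eq_galInf' hU hN hdeg u)

theorem splitFun_spec (hU : IsUnramified K U) (hN : IsUnramified M N)
    (hdeg : Module.finrank K U = Module.finrank K M)
    (u : H2 (Rep.ofAlgebraAutOnUnits K M)) :
    galInf K U N 2 (splitFun hU hN hdeg u) = galInf K M N 2 u :=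
  Classical.choose_spec (exists_galInf_eq_galInf' hU hN hdeg u)

theorem splitFun_unique (hU : IsUnramified K U) (hN : IsUnramified M N)
    (hdeg : Module.finrank K U = Module.finrank K M)
    (u : H2 (Rep.ofAlgebraAutOnUnits K M)) (x : H2 (Rep.ofAlgebraAutOnUnits K U))
    (h : galInf K M N 2 u = galInf K U N 2 x) : splitFun hU hN hdeg u = x := by
  apply galInf_two_injective K U N
  rw [splitFun_spec, h]

/-- the matching as an additive map `H²(M/K) → H²(U/K)` -/
noncomputable def splitHom (hU : IsUnramified K U) (hN : IsUnramified M N)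
    (hdeg : Module.finrank K U = Module.finrank K M) :
    H2 (Rep.ofAlgebraAutOnUnits K M) →+ H2 (Rep.ofAlgebraAutOnUnits K U) where
  toFun := splitFun hU hN hdeg
  map_zero' := by
    apply splitFun_unique
    rw [map_zero, map_zero]
  map_add' a b := by
    apply splitFun_unique
    rw [map_add, map_add, splitFun_spec, splitFun_spec]

theorem splitHom_injective (hU : IsUnramified K U) (hN : IsUnramified M N)
    (hdeg : Module.finrank K U = Module.finrank K M) :
    Function.Injective (splitHom hU hN hdeg) := by
  intro a b hab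
  apply galInf_two_injective K M N
  have ha := splitFun_spec hU hN hdeg a
  have hb := splitFun_spec hU hN hdeg b
  have hab' : splitFun hU hN hdeg a = splitFun hU hN hdeg b := hab
  rw [← ha, ← hb, hab']

theorem splitHom_surjective (hU : IsUnramified K U) (hN : IsUnramified M N)
    (hdeg : Module.finrank K U = Module.finrank K M) :
    Function.Surjective (splitHom hU hN hdeg) := by
  intro x
  obtain ⟨u, hu⟩ := exists_galInf_eq_galInf hU hN (dvd_of_eq hdeg) x
  exact ⟨u, splitFun_unique hU hN hdeg u x hu⟩

/-- **The invariant of `M/K` computed with the splitting data `(U, N)`.** -/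
noncomputable def splitInv (hU : IsUnramified K U) (hN : IsUnramified M N)
    (hdeg : Module.finrank K U = Module.finrank K M) :
    H2 (Rep.ofAlgebraAutOnUnits K M) →+ AddCircle (1 : ℚ) :=
  hU.inv.comp (splitHom hU hN hdeg)

theorem splitInv_injective (hU : IsUnramified K U) (hN : IsUnramified M N)
    (hdeg : Module.finrank K U = Module.finrank K M) :
    Function.Injective (splitInv hU hN hdeg) :=
  hU.inv_injective.comp (splitHom_injective hU hN hdeg)

theorem splitInv_eq_of_matched (hU : IsUnramified K U) (hN : IsUnramified M N)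
    (hdeg : Module.finrank K U = Module.finrank K M)
    (u : H2 (Rep.ofAlgebraAutOnUnits K M)) (x : H2 (Rep.ofAlgebraAutOnUnits K U))
    (h : galInf K M N 2 u = galInf K U N 2 x) : splitInv hU hN hdeg u = hU.inv x := by
  show hU.inv (splitFun hU hN hdeg u) = hU.inv x
  rw [splitFun_unique hU hN hdeg u x h]

/-- **`|H²(Gal(M/K), Mˣ)| = [M:K]`** (given splitting data). -/
theorem card_H2_eq_finrank_of_split (hU : IsUnramified K U) (hN : IsUnramified M N)
    (hdeg : Module.finrank K U = Module.finrank K M) :
    Nat.card (H2 (Rep.ofAlgebraAutOnUnits K M)) = Module.finrank K M := by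
  rw [← hdeg, ← IsUnramified_card_H2 hU]
  exact Nat.card_congr (Equiv.ofBijective _
    ⟨splitHom_injective hU hN hdeg, splitHom_surjective hU hN hdeg⟩)

/-- **Fundamental class**: `H²(Gal(M/K), Mˣ)` is cyclic, generated by a class of order `[M:K]`. -/
theorem exists_fundamental_class_of_split (hU : IsUnramified K U) (hN : IsUnramified M N)
    (hdeg : Module.finrank K U = Module.finrank K M) :
    ∃ u : H2 (Rep.ofAlgebraAutOnUnits K M), addOrderOf u = Module.finrank K M ∧
      ∀ x : H2 (Rep.ofAlgebraAutOnUnits K M), ∃ k : ℤ, x = k • u := by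
  obtain ⟨u, hu⟩ := splitHom_surjective hU hN hdeg (hU.invZEquiv.symm 1)
  have hinj : Function.Injective (hU.invZEquiv.toAddMonoidHom.comp (splitHom hU hN hdeg)) :=
    hU.invZEquiv.injective.comp (splitHom_injective hU hN hdeg)
  have hval : (hU.invZEquiv.toAddMonoidHom.comp (splitHom hU hN hdeg)) u = 1 := by
    show hU.invZEquiv (splitHom hU hN hdeg u) = 1
    rw [hu, AddEquiv.apply_symm_apply]
  refine ⟨u, ?_, ?_⟩
  · rw [← addOrderOf_injective _ hinj u, hval, ZMod.addOrderOf_one, hdeg]
  · intro x
    obtain ⟨k, hk⟩ := ZMod.intCast_surjective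
      ((hU.invZEquiv.toAddMonoidHom.comp (splitHom hU hN hdeg)) x)
    refine ⟨k, hinj ?_⟩
    rw [map_zsmul, hval, ← hk]
    simp

/-- the values of the invariant lie in `(1/[M:K])ℤ/ℤ` -/
theorem splitInv_exists_int (hU : IsUnramified K U) (hN : IsUnramified M N)
    (hdeg : Module.finrank K U = Module.finrank K M) (x : H2 (Rep.ofAlgebraAutOnUnits K M)) :
    ∃ k : ℤ, splitInv hU hN hdeg x =
      (((k : ℚ) / (Module.finrank K M : ℚ) : ℚ) : AddCircle (1 : ℚ)) := by
  obtain ⟨k, hk⟩ := ZMod.intCast_surjective (hU.invZHom (splitHom hU hN hdeg x))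
  refine ⟨k, ?_⟩
  show zmodToQZ _ (hU.invZHom (splitHom hU hN hdeg x)) = _
  rw [← hk, zmodToQZ_intCast, hdeg]

/-- there is a class with invariant `1/[M:K]` -/
theorem exists_splitInv_eq_one_div (hU : IsUnramified K U) (hN : IsUnramified M N)
    (hdeg : Module.finrank K U = Module.finrank K M) :
    ∃ u : H2 (Rep.ofAlgebraAutOnUnits K M), splitInv hU hN hdeg u =
      (((1 : ℚ) / (Module.finrank K M : ℚ) : ℚ) : AddCircle (1 : ℚ)) := by
  obtain ⟨u, hu⟩ := splitHom_surjective hU hN hdeg (hU.invZEquiv.symm 1)
  refine ⟨u, ?_⟩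
  show zmodToQZ _ (hU.invZHom (splitHom hU hN hdeg u)) = _
  have h1 : hU.invZHom (splitHom hU hN hdeg u) = ((1 : ℤ) : ZMod (Module.finrank K U)) := by
    rw [hu]
    show hU.invZEquiv (hU.invZEquiv.symm 1) = _
    rw [AddEquiv.apply_symm_apply]
    simp
  rw [h1, zmodToQZ_intCast, hdeg]
  simp

end NormedSplit

end Fermat.Agent.S55lib.LocalH
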