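/-
S55 sprint, block (II-b): the local invariant map (K1).
`K₀` a local field, `Ω` an ambient algebraic normed field with enough roots of unity.  For
`E ≤ M` finite subextensions with `M/E` Galois we define
`invLoc E M : H²(Gal(M/E), Mˣ) →+ ℚ/ℤ`, injective, with image of order `[M:E]`, compatible with
inflation, and with `invLoc E' M (res u) = [E':E] • invLoc E M u`.
-/
import Mathlib
import Fermat.Agent.S55lib.LocalH.FundClass
import Fermat.Agent.S55lib.LocalH.Cyc

set_option autoImplicit false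
set_option linter.unusedSectionVars false
set_option linter.style.haveILetI false

open scoped NormedField Valued NNReal IntermediateField

namespace Fermat.Agent.S55lib.LocalH

open groupCohomology CategoryTheory Rep Fermat.Agent.S55lib.LocalUnr

/-- the ambient field contains all roots of unity of order prime to the residue characteristic -/
class HasUnitRoots (K₀ Ω : Type) [NormedField K₀] [Field Ω] : Prop where
  exists_root : ∀ N : ℕ, N ≠ 0 → ‖(N : K₀)‖ = 1 → ∃ ζ : Ω, IsPrimitiveRoot ζ N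

/-- a cyclotomic level: a root of unity of unit order in the ambient field -/
structure CycLevel (K₀ Ω : Type) [NormedField K₀] [Field Ω] where
  /-- the order -/
  N : ℕ
  /-- the root of unity -/
  ζ : Ω
  hN0 : N ≠ 0
  hunit : ‖(N : K₀)‖ = 1
  hζ : IsPrimitiveRoot ζ N

section Levels

variable {K₀ Ω : Type} [NontriviallyNormedField K₀] [IsUltrametricDist K₀] [ProperSpace K₀]
  [NormedField Ω] [NormedAlgebra K₀ Ω] [IsUltrametricDist Ω] [Algebra.IsIntegral K₀ Ω]

instance CycLevel.isGalois (c : CycLevel K₀ Ω) (F : IntermediateField K₀ Ω)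
    [FiniteDimensional K₀ F] : IsGalois F (cyc F c.ζ) :=
  isGalois_cyc F c.ζ c.hN0 c.hζ

instance CycLevel.isGalois_tower (c : CycLevel K₀ Ω) (E M : IntermediateField K₀ Ω)
    [Fact (E ≤ M)] [FiniteDimensional K₀ M] [IsGalois E M] : IsGalois E (cyc M c.ζ) :=
  isGalois_cyc_tower E M c.ζ c.hN0 c.hζ

theorem CycLevel.isUnramified (c : CycLevel K₀ Ω) (F : IntermediateField K₀ Ω)
    [FiniteDimensional K₀ F] : IsUnramified F (cyc F c.ζ) :=
  cyc_isUnramified_of_unit F c.ζ c.hN0 c.hunit c.hζ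

/-- a common refinement of two levels -/
theorem CycLevel.exists_common [HasUnitRoots K₀ Ω] (c c' : CycLevel K₀ Ω) :
    ∃ (d : CycLevel K₀ Ω) (k k' : ℕ), c.ζ = d.ζ ^ k ∧ c'.ζ = d.ζ ^ k' := by
  have hN0 : c.N * c'.N ≠ 0 := mul_ne_zero c.hN0 c'.hN0
  have hunit : ‖((c.N * c'.N : ℕ) : K₀)‖ = 1 := by
    rw [Nat.cast_mul, norm_mul, c.hunit, c'.hunit, mul_one]
  obtain ⟨ζ, hζ⟩ := HasUnitRoots.exists_root (K₀ := K₀) (Ω := Ω) _ hN0 hunit
  refine ⟨⟨c.N * c'.N, ζ, hN0, hunit, hζ⟩, ?_⟩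
  have h1 : IsPrimitiveRoot (ζ ^ c'.N) c.N :=
    hζ.pow (Nat.pos_of_ne_zero hN0) (mul_comm _ _)
  have h2 : IsPrimitiveRoot (ζ ^ c.N) c'.N :=
    hζ.pow (Nat.pos_of_ne_zero hN0) rfl
  haveI : NeZero c.N := ⟨c.hN0⟩
  haveI : NeZero c'.N := ⟨c'.hN0⟩
  obtain ⟨i, -, hi⟩ := h1.eq_pow_of_pow_eq_one c.hζ.pow_eq_one
  obtain ⟨j, -, hj⟩ := h2.eq_pow_of_pow_eq_one c'.hζ.pow_eq_one
  refine ⟨c'.N * i, c.N * j, ?_, ?_⟩
  · rw [← hi, pow_mul]
  · rw [← hj, pow_mul]

end Levels

section Inv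

variable {K₀ Ω : Type} [NontriviallyNormedField K₀] [IsUltrametricDist K₀] [ProperSpace K₀]
  [NormedField Ω] [NormedAlgebra K₀ Ω] [IsUltrametricDist Ω] [Algebra.IsIntegral K₀ Ω]
  [HasUnitRoots K₀ Ω]

variable (E M : IntermediateField K₀ Ω) [Fact (E ≤ M)] [FiniteDimensional K₀ E]
  [FiniteDimensional K₀ M] [IsGalois E M]

/-- the order of the standard root of unity for `M/E`: `q_E ^ [M:E] - 1` -/
noncomputable def stdOrder : ℕ := Nat.card 𝓀[E] ^ Module.finrank E M - 1

theorem stdOrder_ne_zero : stdOrder E M ≠ 0 :=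
  card_residue_pow_sub_one_ne_zero E _ Module.finrank_pos

theorem stdOrder_unit : ‖(stdOrder E M : K₀)‖ = 1 := by
  rw [← norm_natCast_sub E]
  exact norm_natCast_card_pow_sub_one (K := E) _ Module.finrank_pos

/-- the standard level for `M/E` -/
noncomputable def stdLevel : CycLevel K₀ Ω where
  N := stdOrder E M
  ζ := Classical.choose (HasUnitRoots.exists_root (K₀ := K₀) (Ω := Ω) _ (stdOrder_ne_zero E M)
    (stdOrder_unit E M))
  hN0 := stdOrder_ne_zero E M
  hunit := stdOrder_unit E M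
  hζ := Classical.choose_spec (HasUnitRoots.exists_root (K₀ := K₀) (Ω := Ω) _
    (stdOrder_ne_zero E M) (stdOrder_unit E M))

theorem stdLevel_finrank :
    Module.finrank E (cyc E (stdLevel E M).ζ) = Module.finrank E M :=
  (cyc_isUnramified_std E (stdLevel E M).ζ (Module.finrank E M) Module.finrank_pos
    (stdLevel E M).hζ).2

/-- a class `u` of `M/E` and a class `x` of the unramified `E(ζ)/E` have the same inflation to
`M(ζ)` -/
def MatchedAt (c : CycLevel K₀ Ω) (u : H2 (Rep.ofAlgebraAutOnUnits E M))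
    (x : H2 (Rep.ofAlgebraAutOnUnits E (cyc E c.ζ))) : Prop :=
  galMap E E M (cyc M c.ζ) 2 u = galMap E E (cyc E c.ζ) (cyc M c.ζ) 2 x

/-- **The local invariant** `inv_{M/E} : H²(Gal(M/E), Mˣ) → ℚ/ℤ`. -/
noncomputable def invLoc : H2 (Rep.ofAlgebraAutOnUnits E M) →+ AddCircle (1 : ℚ) :=
  splitInv ((stdLevel E M).isUnramified E) ((stdLevel E M).isUnramified M) (stdLevel_finrank E M)

theorem invLoc_injective : Function.Injective (invLoc E M) :=
  splitInv_injective _ _ _

/-- **K1, cardinality**: `|H²(Gal(M/E), Mˣ)| = [M:E]`. -/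
theorem card_H2_eq_finrank : Nat.card (H2 (Rep.ofAlgebraAutOnUnits E M)) = Module.finrank E M :=
  card_H2_eq_finrank_of_split ((stdLevel E M).isUnramified E) ((stdLevel E M).isUnramified M)
    (stdLevel_finrank E M)

/-- **K1, fundamental class**: `H²(Gal(M/E), Mˣ)` is cyclic, generated by a class of order
`[M:E]`. -/
theorem exists_fundamental_class :
    ∃ u : H2 (Rep.ofAlgebraAutOnUnits E M), addOrderOf u = Module.finrank E M ∧
      ∀ x : H2 (Rep.ofAlgebraAutOnUnits E M), ∃ k : ℤ, x = k • u :=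
  exists_fundamental_class_of_split ((stdLevel E M).isUnramified E)
    ((stdLevel E M).isUnramified M) (stdLevel_finrank E M)

theorem exists_matchedAt_std (u : H2 (Rep.ofAlgebraAutOnUnits E M)) :
    ∃ x, MatchedAt E M (stdLevel E M) u x ∧
      invLoc E M u = ((stdLevel E M).isUnramified E).inv x :=
  ⟨splitFun ((stdLevel E M).isUnramified E) ((stdLevel E M).isUnramified M)
      (stdLevel_finrank E M) u,
    (splitFun_spec ((stdLevel E M).isUnramified E) ((stdLevel E M).isUnramified M)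
      (stdLevel_finrank E M) u).symm, rfl⟩

/-- **Change of level**: a matching at level `c` gives a matching at any finer level `d`, with the
same invariant. -/
theorem MatchedAt.mono {c d : CycLevel K₀ Ω} (k : ℕ) (hk : c.ζ = d.ζ ^ k)
    {u : H2 (Rep.ofAlgebraAutOnUnits E M)} {x : H2 (Rep.ofAlgebraAutOnUnits E (cyc E c.ζ))}
    (h : MatchedAt E M c u x) :
    ∃ x' : H2 (Rep.ofAlgebraAutOnUnits E (cyc E d.ζ)), MatchedAt E M d u x' ∧
      (d.isUnramified E).inv x' = (c.isUnramified E).inv x := by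
  haveI : Fact (cyc E c.ζ ≤ cyc E d.ζ) := ⟨cyc_le_cyc_of_pow k hk⟩
  haveI : Fact (cyc M c.ζ ≤ cyc M d.ζ) := ⟨cyc_le_cyc_of_pow k hk⟩
  haveI : Fact (cyc E c.ζ ≤ cyc M d.ζ) :=
    ⟨(cyc_le_cyc_of_pow k hk).trans (cyc_mono (Fact.out : E ≤ M) d.ζ)⟩
  refine ⟨galMap E E (cyc E c.ζ) (cyc E d.ζ) 2 x, ?_, ?_⟩
  · have h1 := galMap_matched E E M M (cyc E c.ζ) (cyc E d.ζ) (cyc M c.ζ) (cyc M d.ζ) 2 u x h
    rw [galMap_self] at h1
    exact h1
  · have h1 := inv_map_resHom' (K := E) (K' := E) (L := cyc E c.ζ) (L' := cyc E d.ζ)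
      (c.isUnramified E) (d.isUnramified E) x
    rw [Module.finrank_self, one_smul] at h1
    exact h1

/-- **Characterisation of the invariant**: it can be computed at any cyclotomic level. -/
theorem invLoc_eq_of_matchedAt (c : CycLevel K₀ Ω) (u : H2 (Rep.ofAlgebraAutOnUnits E M))
    (x : H2 (Rep.ofAlgebraAutOnUnits E (cyc E c.ζ))) (h : MatchedAt E M c u x) :
    invLoc E M u = (c.isUnramified E).inv x := by
  obtain ⟨x₀, h₀, hinv₀⟩ := exists_matchedAt_std E M u
  obtain ⟨d, k, k', hk, hk'⟩ := CycLevel.exists_common c (stdLevel E M)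
  obtain ⟨x', hx', hinv'⟩ := h.mono E M k hk
  obtain ⟨x₀', hx₀', hinv₀'⟩ := h₀.mono E M k' hk'
  have heq : x' = x₀' := by
    apply galInf_two_injective E (cyc E d.ζ) (cyc M d.ζ)
    exact hx'.symm.trans hx₀'
  rw [hinv₀, ← hinv₀', ← heq, hinv']

/-- the values of `inv_{M/E}` lie in `(1/[M:E])ℤ/ℤ` -/
theorem invLoc_exists_int (x : H2 (Rep.ofAlgebraAutOnUnits E M)) :
    ∃ k : ℤ, invLoc E M x = (((k : ℚ) / (Module.finrank E M : ℚ) : ℚ) : AddCircle (1 : ℚ)) :=
  splitInv_exists_int _ _ _ x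

theorem exists_invLoc_eq_one_div :
    ∃ u : H2 (Rep.ofAlgebraAutOnUnits E M), invLoc E M u =
      (((1 : ℚ) / (Module.finrank E M : ℚ) : ℚ) : AddCircle (1 : ℚ)) :=
  exists_splitInv_eq_one_div _ _ _

/-- **The canonical fundamental class** `u_{M/E}`, with invariant `1/[M:E]`. -/
noncomputable def fundClass : H2 (Rep.ofAlgebraAutOnUnits E M) :=
  Classical.choose (exists_invLoc_eq_one_div E M)

theorem invLoc_fundClass : invLoc E M (fundClass E M) =
    (((1 : ℚ) / (Module.finrank E M : ℚ) : ℚ) : AddCircle (1 : ℚ)) :=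
  Classical.choose_spec (exists_invLoc_eq_one_div E M)

theorem eq_fundClass_of_invLoc_eq (u : H2 (Rep.ofAlgebraAutOnUnits E M))
    (h : invLoc E M u = (((1 : ℚ) / (Module.finrank E M : ℚ) : ℚ) : AddCircle (1 : ℚ))) :
    u = fundClass E M :=
  invLoc_injective E M (h.trans (invLoc_fundClass E M).symm)

theorem addOrderOf_fundClass : addOrderOf (fundClass E M) = Module.finrank E M := by
  rw [← addOrderOf_injective (invLoc E M) (invLoc_injective E M), invLoc_fundClass]
  have h := AddCircle.addOrderOf_period_div (p := (1 : ℚ)) (n := Module.finrank E M)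
    Module.finrank_pos
  exact h

/-- every class is an integer multiple of the fundamental class -/
theorem exists_zsmul_fundClass (x : H2 (Rep.ofAlgebraAutOnUnits E M)) :
    ∃ k : ℤ, x = k • fundClass E M := by
  obtain ⟨k, hk⟩ := invLoc_exists_int E M x
  refine ⟨k, invLoc_injective E M ?_⟩
  rw [hk, map_zsmul, invLoc_fundClass, ← AddCircle.coe_zsmul]
  congr 1
  rw [zsmul_eq_mul]
  ring

end Inv

section DegLevel

variable {K₀ Ω : Type} [NontriviallyNormedField K₀] [IsUltrametricDist K₀] [ProperSpace K₀]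
  [NormedField Ω] [NormedAlgebra K₀ Ω] [IsUltrametricDist Ω] [Algebra.IsIntegral K₀ Ω]
  [HasUnitRoots K₀ Ω]

variable (E : IntermediateField K₀ Ω) [FiniteDimensional K₀ E] (m : ℕ) (hm : 0 < m)

include hm in
theorem degOrder_unit : ‖((Nat.card 𝓀[E] ^ m - 1 : ℕ) : K₀)‖ = 1 := by
  rw [← norm_natCast_sub E]
  exact norm_natCast_card_pow_sub_one (K := E) _ hm

/-- a cyclotomic level `ζ` such that `E(ζ)/E` is the unramified extension of degree `m` -/
noncomputable def degLevel : CycLevel K₀ Ω where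
  N := Nat.card 𝓀[E] ^ m - 1
  ζ := Classical.choose (HasUnitRoots.exists_root (K₀ := K₀) (Ω := Ω) _
    (card_residue_pow_sub_one_ne_zero E m hm) (degOrder_unit E m hm))
  hN0 := card_residue_pow_sub_one_ne_zero E m hm
  hunit := degOrder_unit E m hm
  hζ := Classical.choose_spec (HasUnitRoots.exists_root (K₀ := K₀) (Ω := Ω) _
    (card_residue_pow_sub_one_ne_zero E m hm) (degOrder_unit E m hm))

theorem degLevel_finrank : Module.finrank E (cyc E (degLevel E m hm).ζ) = m :=
  (cyc_isUnramified_std E (degLevel E m hm).ζ m hm (degLevel E m hm).hζ).2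

end DegLevel

section Compat

variable {K₀ Ω : Type} [NontriviallyNormedField K₀] [IsUltrametricDist K₀] [ProperSpace K₀]
  [NormedField Ω] [NormedAlgebra K₀ Ω] [IsUltrametricDist Ω] [Algebra.IsIntegral K₀ Ω]
  [HasUnitRoots K₀ Ω]

/-- **K1, inflation**: `inv_{M'/E} (inf u) = inv_{M/E} u` for `E ≤ M ≤ M'`. -/
theorem invLoc_galInf (E M M' : IntermediateField K₀ Ω) [Fact (E ≤ M)] [Fact (M ≤ M')]
    [Fact (E ≤ M')] [FiniteDimensional K₀ E] [FiniteDimensional K₀ M] [FiniteDimensional K₀ M']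
    [IsGalois E M] [IsGalois E M'] (u : H2 (Rep.ofAlgebraAutOnUnits E M)) :
    invLoc E M' (galMap E E M M' 2 u) = invLoc E M u := by
  obtain ⟨x₀, h₀, hinv₀⟩ := exists_matchedAt_std E M u
  have h1 := galMap_matched E E M M' (cyc E (stdLevel E M).ζ) (cyc E (stdLevel E M).ζ)
    (cyc M (stdLevel E M).ζ) (cyc M' (stdLevel E M).ζ) 2 u x₀ h₀
  rw [galMap_self E (cyc E (stdLevel E M).ζ)] at h1
  rw [invLoc_eq_of_matchedAt E M' (stdLevel E M) _ x₀ h1, hinv₀]

/-- **K1, restriction**: `inv_{M/E'} (res u) = [E':E] • inv_{M/E} u` for `E ≤ E' ≤ M`. -/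
theorem invLoc_galRes (E E' M : IntermediateField K₀ Ω) [Fact (E ≤ E')] [Fact (E' ≤ M)]
    [Fact (E ≤ M)] [FiniteDimensional K₀ E] [FiniteDimensional K₀ E'] [FiniteDimensional K₀ M]
    [IsGalois E M] [IsGalois E' M] (u : H2 (Rep.ofAlgebraAutOnUnits E M)) :
    invLoc E' M (galMap E E' M M 2 u) = Module.finrank E E' • invLoc E M u := by
  obtain ⟨x₀, h₀, hinv₀⟩ := exists_matchedAt_std E M u
  have h1 := galMap_matched E E' M M (cyc E (stdLevel E M).ζ) (cyc E' (stdLevel E M).ζ)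
    (cyc M (stdLevel E M).ζ) (cyc M (stdLevel E M).ζ) 2 u x₀ h₀
  rw [invLoc_eq_of_matchedAt E' M (stdLevel E M) _ _ h1, hinv₀]
  exact inv_map_resHom' (K := E) (K' := E') (L := cyc E (stdLevel E M).ζ)
    (L' := cyc E' (stdLevel E M).ζ)
    ((stdLevel E M).isUnramified E) ((stdLevel E M).isUnramified E') x₀

/-- **Restriction of the fundamental class**: `res u_{M/E} = u_{M/E'}`. -/
theorem galRes_fundClass (E E' M : IntermediateField K₀ Ω) [Fact (E ≤ E')] [Fact (E' ≤ M)]
    [Fact (E ≤ M)] [FiniteDimensional K₀ E] [FiniteDimensional K₀ E'] [FiniteDimensional K₀ M]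
    [IsGalois E M] [IsGalois E' M] :
    galMap E E' M M 2 (fundClass E M) = fundClass E' M := by
  apply eq_fundClass_of_invLoc_eq
  rw [invLoc_galRes, invLoc_fundClass, ← AddCircle.coe_nsmul]
  congr 1
  have h := finrank_mul_finrank_ofLE E E' M
  have h1 : (Module.finrank E E' : ℚ) ≠ 0 := Nat.cast_ne_zero.mpr Module.finrank_pos.ne'
  have h2 : (Module.finrank E' M : ℚ) ≠ 0 := Nat.cast_ne_zero.mpr Module.finrank_pos.ne'
  rw [← h, nsmul_eq_mul]
  push_cast
  field_simp

/-- **Inflation of the fundamental class**: `inf u_{M/E} = [M':M] • u_{M'/E}`. -/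
theorem galInf_fundClass (E M M' : IntermediateField K₀ Ω) [Fact (E ≤ M)] [Fact (M ≤ M')]
    [Fact (E ≤ M')] [FiniteDimensional K₀ E] [FiniteDimensional K₀ M] [FiniteDimensional K₀ M']
    [IsGalois E M] [IsGalois E M'] :
    galMap E E M M' 2 (fundClass E M) = Module.finrank M M' • fundClass E M' := by
  apply invLoc_injective E M'
  rw [invLoc_galInf, map_nsmul, invLoc_fundClass, invLoc_fundClass, ← AddCircle.coe_nsmul]
  congr 1
  have h := finrank_mul_finrank_ofLE E M M'
  have h1 : (Module.finrank E M : ℚ) ≠ 0 := Nat.cast_ne_zero.mpr Module.finrank_pos.ne'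
  have h2 : (Module.finrank M M' : ℚ) ≠ 0 := Nat.cast_ne_zero.mpr Module.finrank_pos.ne'
  rw [← h, nsmul_eq_mul]
  push_cast
  field_simp

end Compat

end Fermat.Agent.S55lib.LocalH
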