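/-
S55 sprint, block (II-b): the local invariant over the base field `K₀` itself (as a type, not as
the bottom subfield), e.g. `K₀ = ℚ_[q]`, `Ω = PadicAlgCl q`:
`invBase M : H²(Gal(M/K₀), Mˣ) →+ ℚ/ℤ` for `M : IntermediateField K₀ Ω` finite Galois, injective,
`|H²| = [M:K₀]`, compatible with inflation; restriction to `E` multiplies by `[E:K₀]`.
-/
import Mathlib
import Fermat.Agent.S55lib.LocalH.LocalInv

set_option autoImplicit false
set_option linter.unusedSectionVars false
set_option linter.style.haveILetI false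

open scoped NormedField Valued NNReal IntermediateField

namespace Fermat.Agent.S55lib.LocalH

open groupCohomology CategoryTheory Rep Fermat.Agent.S55lib.LocalUnr

section BotPlain

variable {K₀ Ω : Type} [Field K₀] [Field Ω] [Algebra K₀ Ω]

instance fact_bot_le (M : IntermediateField K₀ Ω) : Fact ((⊥ : IntermediateField K₀ Ω) ≤ M) :=
  ⟨bot_le⟩

instance isScalarTower_bot_base (M : IntermediateField K₀ Ω) :
    IsScalarTower (⊥ : IntermediateField K₀ Ω) K₀ M :=
  IsScalarTower.of_algebraMap_eq (fun x => by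
    obtain ⟨y, rfl⟩ := (IntermediateField.botEquiv K₀ Ω).symm.surjective x
    rw [IntermediateField.coe_algebraMap_over_bot, AlgEquiv.apply_symm_apply,
      IntermediateField.botEquiv_symm]
    rfl)

instance isGalois_bot (M : IntermediateField K₀ Ω) [IsGalois K₀ M] :
    IsGalois (⊥ : IntermediateField K₀ Ω) M :=
  IsGalois.tower_top_of_isGalois K₀ (⊥ : IntermediateField K₀ Ω) M

variable (M : IntermediateField K₀ Ω) [IsGalois K₀ M]

/-- base change `H²(M/K₀) → H²(M/⊥)` -/
noncomputable abbrev toBot :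
    H2 (Rep.ofAlgebraAutOnUnits K₀ M) ⟶
      H2 (Rep.ofAlgebraAutOnUnits (⊥ : IntermediateField K₀ Ω) M) :=
  galMap K₀ (⊥ : IntermediateField K₀ Ω) M M 2

/-- base change `H²(M/⊥) → H²(M/K₀)` -/
noncomputable abbrev ofBot :
    H2 (Rep.ofAlgebraAutOnUnits (⊥ : IntermediateField K₀ Ω) M) ⟶
      H2 (Rep.ofAlgebraAutOnUnits K₀ M) :=
  galMap (⊥ : IntermediateField K₀ Ω) K₀ M M 2

theorem ofBot_toBot (x : H2 (Rep.ofAlgebraAutOnUnits K₀ M)) : ofBot M (toBot M x) = x := by
  have h := galMap_comp K₀ (⊥ : IntermediateField K₀ Ω) K₀ M M M 2 x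
  rw [galMap_self] at h
  exact h

theorem toBot_ofBot (x : H2 (Rep.ofAlgebraAutOnUnits (⊥ : IntermediateField K₀ Ω) M)) :
    toBot M (ofBot M x) = x := by
  have h := galMap_comp (⊥ : IntermediateField K₀ Ω) K₀ (⊥ : IntermediateField K₀ Ω) M M M 2 x
  rw [galMap_self] at h
  exact h

theorem toBot_injective : Function.Injective (toBot M) :=
  Function.LeftInverse.injective (ofBot_toBot M)

theorem toBot_surjective : Function.Surjective (toBot M) :=
  Function.RightInverse.surjective (toBot_ofBot M)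

end BotPlain

section BaseInv

variable {K₀ Ω : Type} [NontriviallyNormedField K₀] [IsUltrametricDist K₀] [ProperSpace K₀]
  [NormedField Ω] [NormedAlgebra K₀ Ω] [IsUltrametricDist Ω] [Algebra.IsIntegral K₀ Ω]
  [HasUnitRoots K₀ Ω]

variable (M : IntermediateField K₀ Ω) [FiniteDimensional K₀ M] [IsGalois K₀ M]

/-- **The local invariant over the base field** `inv_{M/K₀} : H²(Gal(M/K₀), Mˣ) → ℚ/ℤ`. -/
noncomputable def invBase : H2 (Rep.ofAlgebraAutOnUnits K₀ M) →+ AddCircle (1 : ℚ) :=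
  (invLoc (⊥ : IntermediateField K₀ Ω) M).comp (toBot M).hom.toAddMonoidHom

theorem invBase_apply (x : H2 (Rep.ofAlgebraAutOnUnits K₀ M)) :
    invBase M x = invLoc (⊥ : IntermediateField K₀ Ω) M (toBot M x) := rfl

/-- (L1) -/
theorem invBase_injective : Function.Injective (invBase M) := by
  intro a b hab
  rw [invBase_apply, invBase_apply] at hab
  exact toBot_injective M (invLoc_injective _ M hab)

/-- (L2) -/
theorem card_H2_base : Nat.card (H2 (Rep.ofAlgebraAutOnUnits K₀ M)) = Module.finrank K₀ M := by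
  have h1 : Nat.card (H2 (Rep.ofAlgebraAutOnUnits K₀ M)) =
      Nat.card (H2 (Rep.ofAlgebraAutOnUnits (⊥ : IntermediateField K₀ Ω) M)) :=
    Nat.card_congr (Equiv.ofBijective (fun x => toBot M x)
      ⟨toBot_injective M, toBot_surjective M⟩)
  have h2 := finrank_base_mul_finrank_ofLE (⊥ : IntermediateField K₀ Ω) M
  rw [IntermediateField.finrank_bot, one_mul] at h2
  rw [h1, card_H2_eq_finrank, h2]

/-- values in `(1/[M:K₀])ℤ/ℤ` -/
theorem invBase_exists_int (x : H2 (Rep.ofAlgebraAutOnUnits K₀ M)) :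
    ∃ k : ℤ, invBase M x = (((k : ℚ) / (Module.finrank K₀ M : ℚ) : ℚ) : AddCircle (1 : ℚ)) := by
  obtain ⟨k, hk⟩ := invLoc_exists_int (⊥ : IntermediateField K₀ Ω) M (toBot M x)
  have h2 := finrank_base_mul_finrank_ofLE (⊥ : IntermediateField K₀ Ω) M
  rw [IntermediateField.finrank_bot, one_mul] at h2
  exact ⟨k, by rw [invBase_apply, hk, h2]⟩

end BaseInv

section BaseCompat

variable {K₀ Ω : Type} [NontriviallyNormedField K₀] [IsUltrametricDist K₀] [ProperSpace K₀]
  [NormedField Ω] [NormedAlgebra K₀ Ω] [IsUltrametricDist Ω] [Algebra.IsIntegral K₀ Ω]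
  [HasUnitRoots K₀ Ω]

/-- (L3) **inflation**: `inv_{M'/K₀} (inf x) = inv_{M/K₀} x`. -/
theorem invBase_galInf (M M' : IntermediateField K₀ Ω) [Fact (M ≤ M')]
    [FiniteDimensional K₀ M] [FiniteDimensional K₀ M'] [IsGalois K₀ M] [IsGalois K₀ M']
    (x : H2 (Rep.ofAlgebraAutOnUnits K₀ M)) :
    invBase M' (galMap K₀ K₀ M M' 2 x) = invBase M x := by
  rw [invBase_apply, invBase_apply]
  have e1 : toBot M' (galMap K₀ K₀ M M' 2 x) =
      galMap K₀ (⊥ : IntermediateField K₀ Ω) M M' 2 x :=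
    galMap_comp K₀ K₀ (⊥ : IntermediateField K₀ Ω) M M' M' 2 x
  have e2 : galMap (⊥ : IntermediateField K₀ Ω) (⊥ : IntermediateField K₀ Ω) M M' 2 (toBot M x) =
      galMap K₀ (⊥ : IntermediateField K₀ Ω) M M' 2 x :=
    galMap_comp K₀ (⊥ : IntermediateField K₀ Ω) (⊥ : IntermediateField K₀ Ω) M M M' 2 x
  rw [e1, ← e2, invLoc_galInf]

/-- **restriction from the base**: `inv_{M/E} (res x) = [E:K₀] • inv_{M/K₀} x`. -/
theorem invLoc_galRes_base (E M : IntermediateField K₀ Ω) [Fact (E ≤ M)]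
    [FiniteDimensional K₀ E] [FiniteDimensional K₀ M] [IsGalois K₀ M] [IsGalois E M]
    (x : H2 (Rep.ofAlgebraAutOnUnits K₀ M)) :
    invLoc E M (galMap K₀ E M M 2 x) = Module.finrank K₀ E • invBase M x := by
  rw [invBase_apply]
  have e1 : galMap (⊥ : IntermediateField K₀ Ω) E M M 2 (toBot M x) = galMap K₀ E M M 2 x :=
    galMap_comp K₀ (⊥ : IntermediateField K₀ Ω) E M M M 2 x
  have h2 := finrank_base_mul_finrank_ofLE (⊥ : IntermediateField K₀ Ω) E
  rw [IntermediateField.finrank_bot, one_mul] at h2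
  rw [← e1, invLoc_galRes, h2]

end BaseCompat

end Fermat.Agent.S55lib.LocalH
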