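/-
S55 sprint, block (II-b)/(III): the multiplicative group of a finite Galois extension of local
fields is a class module in helper8's sense (`TateCoh.IsFundamental`): `H¹ = 0` on every subgroup
and the restrictions of the fundamental class generate `H²` with exact order.  Consequence
(Tate): `H³(Gal(M/E), Mˣ)` has no `p`-torsion for any prime `p`.
-/
import Mathlib
import Fermat.Agent.S55lib.LocalH.LocalInv
import Fermat.Agent.S55lib.Recip.ClassTop
import Fermat.Agent.S55lib.TateCoh.ClassModuleSylow

set_option autoImplicit false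
set_option linter.unusedSectionVars false
set_option linter.style.haveILetI false

namespace Fermat.Agent.S55lib.LocalH

open groupCohomology CategoryTheory Rep Fermat.Agent.S55lib.Dev Fermat.Agent.S55lib.LocalUnr
open Fermat.Agent.S55lib.Recip Fermat.Agent.S55lib.TateCoh

section Abstract

variable {Γ : Type} [Group Γ] [Finite Γ] (C : Rep ℤ Γ)

/-- **From the top class to all subgroups** (no restriction to `p`-groups): if
`|H²(H, C)| ∣ |H|` for all subgroups `H` and `u ∈ H²(Γ, C)` has order `|Γ|`, then `res_H u`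
generates `H²(H, C)` and has order `|H|`. -/
theorem generator_of_top_all
    (hK8 : ∀ H : Subgroup Γ, Nat.card (H2 (Rep.res H.subtype C)) ∣ Nat.card H)
    (u : H2 C) (hu : addOrderOf u = Nat.card Γ) (H : Subgroup Γ) :
    (∀ x : H2 (Rep.res H.subtype C), ∃ n : ℤ, x = n • (restMap C H 2 u)) ∧
      addOrderOf (restMap C H 2 u) = Nat.card H := by
  have hcard := hK8 H
  have hfin : Finite (H2 (Rep.res H.subtype C)) := by
    apply Nat.finite_of_card_ne_zero
    intro h0
    rw [h0] at hcard
    exact Nat.card_pos.ne' (Nat.eq_zero_of_zero_dvd hcard)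
  set g := restMap C H 2 u with hg
  have ho1 : addOrderOf g ∣ Nat.card H := (addOrderOf_dvd_natCard g).trans hcard
  have hres : restMap C H 2 (addOrderOf g • u) = 0 := by
    rw [map_nsmul, ← hg, addOrderOf_nsmul_eq_zero]
  have hidx := index_nsmul_eq_zero_of_restMap_eq_zero C H _ hres
  rw [← mul_nsmul'] at hidx
  have hdvd : Nat.card Γ ∣ H.index * addOrderOf g := by
    rw [← hu]; exact addOrderOf_dvd_of_nsmul_eq_zero hidx
  have hΓ : Nat.card Γ = H.index * Nat.card H := (Subgroup.index_mul_card H).symm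
  have hidx0 : H.index ≠ 0 := Subgroup.index_ne_zero_of_finite
  have ho2 : Nat.card H ∣ addOrderOf g := by
    rw [hΓ] at hdvd
    exact Nat.dvd_of_mul_dvd_mul_left (Nat.pos_of_ne_zero hidx0) hdvd
  have hord : addOrderOf g = Nat.card H := Nat.dvd_antisymm ho1 ho2
  refine ⟨?_, hord⟩
  have htop : AddSubgroup.zmultiples g = ⊤ := by
    apply AddSubgroup.eq_top_of_le_card
    rw [Nat.card_zmultiples, hord]
    exact Nat.le_of_dvd Nat.card_pos hcard
  intro x
  have hx : x ∈ AddSubgroup.zmultiples g := by rw [htop]; trivial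
  obtain ⟨n, hn⟩ := AddSubgroup.mem_zmultiples_iff.1 hx
  exact ⟨n, hn.symm⟩

variable [Fintype Γ]

theorem restMap_H2π (u : cocycles₂ C) (H : Subgroup Γ) :
    restMap C H 2 (H2π C u) = H2π _ (resCocycle₂ C u H.subtype) := by
  have h := H2π_comp_map_apply H.subtype (𝟙 (Rep.res H.subtype C)) u
  refine h.trans ?_
  congr 1

/-- A cocycle whose class has order `|Γ|` is fundamental, given `H¹ = 0` and `|H²(H)| ∣ |H|`. -/
theorem isFundamental_of_top
    (h1 : ∀ H : Subgroup Γ, Subsingleton (H1 (Rep.res H.subtype C)))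
    (hK8 : ∀ H : Subgroup Γ, Nat.card (H2 (Rep.res H.subtype C)) ∣ Nat.card H)
    (u : cocycles₂ C) (hu : addOrderOf (H2π C u) = Nat.card Γ) : IsFundamental C u := by
  refine IsFundamental.of_subgroups (fun H => ?_) (fun H x => ?_) (fun H c hc => ?_)
  · haveI := h1 H
    exact ModuleCat.isZero_of_subsingleton _
  · obtain ⟨hgen, -⟩ := generator_of_top_all C hK8 (H2π C u) hu H
    obtain ⟨n, hn⟩ := hgen x
    refine ⟨n, ?_⟩
    rw [hn, restMap_H2π]
    exact (int_smul_eq_zsmul _ n _).symm
  · obtain ⟨-, hord⟩ := generator_of_top_all C hK8 (H2π C u) hu H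
    rw [← restMap_H2π] at hc
    have hc' := (int_smul_eq_zsmul inferInstance c (restMap C H 2 (H2π C u))).symm.trans hc
    have hdvd : (addOrderOf (restMap C H 2 (H2π C u)) : ℤ) ∣ c :=
      (addOrderOf_dvd_iff_zsmul_eq_zero).mpr hc'
    rw [hord] at hdvd
    obtain ⟨c', hc'⟩ := hdvd
    exact ⟨c', by rw [hc', mul_comm]⟩

end Abstract

section Local

open scoped NormedField Valued NNReal IntermediateField

variable {K₀ Ω : Type} [NontriviallyNormedField K₀] [IsUltrametricDist K₀] [ProperSpace K₀]
  [NormedField Ω] [NormedAlgebra K₀ Ω] [IsUltrametricDist Ω] [Algebra.IsIntegral K₀ Ω]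
  [HasUnitRoots K₀ Ω]

variable (E M : IntermediateField K₀ Ω) [Fact (E ≤ M)] [FiniteDimensional K₀ E]
  [FiniteDimensional K₀ M] [IsGalois E M] [Fintype (M ≃ₐ[E] M)]

/-- **`Mˣ` is a class module for `Gal(M/E)`**: a cocycle representing the fundamental class is
fundamental in helper8's sense. -/
theorem exists_isFundamental :
    ∃ u : cocycles₂ (Rep.ofAlgebraAutOnUnits E M),
      H2π _ u = fundClass E M ∧ IsFundamental (Rep.ofAlgebraAutOnUnits E M) u := by
  obtain ⟨u, hu⟩ : ∃ u : cocycles₂ (Rep.ofAlgebraAutOnUnits E M), H2π _ u = fundClass E M :=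
    H2_induction_on (C := fun x => ∃ u : cocycles₂ (Rep.ofAlgebraAutOnUnits E M), H2π _ u = x)
      (fundClass E M) (fun x => ⟨x, rfl⟩)
  refine ⟨u, hu, ?_⟩
  apply isFundamental_of_top
  · intro H
    exact subsingleton_H1 E M H.subtype (Subgroup.subtype_injective H)
  · intro H
    exact card_H2_dvd_card E M H.subtype (Subgroup.subtype_injective H)
  · rw [hu, addOrderOf_fundClass, IsGalois.card_aut_eq_finrank]

/-- **Tate, `H³`**: `H³(Gal(M/E), Mˣ)` has no `p`-torsion. -/
theorem H3_eq_zero_of_pow_nsmul_eq_zero (p : ℕ) [Fact p.Prime]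
    (x : groupCohomology (Rep.ofAlgebraAutOnUnits E M) 3) (m : ℕ) (hx : p ^ m • x = 0) :
    x = 0 := by
  obtain ⟨u, -, hfund⟩ := exists_isFundamental E M
  exact hfund.eq_zero_of_pow_nsmul_eq_zero
    (fun n a hn h => by
      rcases smul_eq_zero.mp h with h | h
      · exact absurd h hn
      · exact h) p x m hx

end Local

end Fermat.Agent.S55lib.LocalH
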