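/-
S55 sprint, block (III): the local invariant on the smooth cohomology of `Gal(Ω/E)` with values in
`Ωˣ` (helper3's `Formation` dictionary + `LocalInv`), and helper8's class-formation axioms
(CF1), (CF2), (CF3) in V-form for the local formation.
-/
import Mathlib
import Fermat.Agent.S55lib.LocalH.LocalFundamental
import Fermat.Agent.S55lib.LocalUnr.Formation

set_option autoImplicit false
set_option linter.unusedSectionVars false
set_option linter.style.haveILetI false

open scoped NormedField Valued NNReal IntermediateField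

namespace Fermat.Agent.S55lib.LocalH

open groupCohomology CategoryTheory Rep Fermat.Agent.S55lib Fermat.Agent.S55lib.LocalUnr

section TowerPlain

variable {K₀ Ω : Type} [Field K₀] [Field Ω] [Algebra K₀ Ω]
  (E : IntermediateField K₀ Ω) (F : IntermediateField E Ω)

instance fact_le_restrictScalars : Fact (E ≤ F.restrictScalars K₀) :=
  ⟨fun x hx => by
    have : (algebraMap E Ω ⟨x, hx⟩) ∈ F := F.algebraMap_mem ⟨x, hx⟩
    exact this⟩

instance finiteDimensional_restrictScalars [FiniteDimensional K₀ E] [FiniteDimensional E F] :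
    FiniteDimensional K₀ (F.restrictScalars K₀) := by
  have : FiniteDimensional K₀ F := FiniteDimensional.trans K₀ E F
  exact this

instance isGalois_restrictScalars [h : IsGalois E F] : IsGalois E (F.restrictScalars K₀) := h

theorem finrank_restrictScalars :
    Module.finrank E (F.restrictScalars K₀) = Module.finrank E F := rfl

end TowerPlain

section TowerInv

variable {K₀ Ω : Type} [NontriviallyNormedField K₀] [IsUltrametricDist K₀] [ProperSpace K₀]
  [NormedField Ω] [NormedAlgebra K₀ Ω] [IsUltrametricDist Ω] [Algebra.IsIntegral K₀ Ω]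
  [HasUnitRoots K₀ Ω] [IsGalois K₀ Ω]
  (E : IntermediateField K₀ Ω) [FiniteDimensional K₀ E]

/-- the local invariant for a finite Galois extension `F/E` in tower shape -/
noncomputable def invTower (F : IntermediateField E Ω) [FiniteDimensional E F] [IsGalois E F] :
    H2 (Rep.ofAlgebraAutOnUnits E F) →+ AddCircle (1 : ℚ) :=
  invLoc E (F.restrictScalars K₀)

theorem invTower_injective (F : IntermediateField E Ω) [FiniteDimensional E F] [IsGalois E F] :
    Function.Injective (invTower E F) :=
  invLoc_injective E (F.restrictScalars K₀)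

theorem invTower_exists_int (F : IntermediateField E Ω) [FiniteDimensional E F] [IsGalois E F]
    (x : H2 (Rep.ofAlgebraAutOnUnits E F)) :
    ∃ k : ℤ, invTower E F x = (((k : ℚ) / (Module.finrank E F : ℚ) : ℚ) : AddCircle (1 : ℚ)) :=
  invLoc_exists_int E (F.restrictScalars K₀) x

/-- inflation invariance in tower shape (helper3's `towerAlgebra`) -/
theorem invTower_galInf (F F' : IntermediateField E Ω) (h : F ≤ F')
    [FiniteDimensional E F] [IsGalois E F] [FiniteDimensional E F'] [IsGalois E F']
    (y : H2 (Rep.ofAlgebraAutOnUnits E F)) :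
    letI := towerAlgebra E F F' h
    haveI := tower_isScalarTower E F F' h
    invTower E F' (galInf E F F' 2 y) = invTower E F y := by
  haveI : Fact (F.restrictScalars K₀ ≤ F'.restrictScalars K₀) := ⟨h⟩
  exact invLoc_galInf E (F.restrictScalars K₀) (F'.restrictScalars K₀) y

end TowerInv

section Smooth

variable {K₀ Ω : Type} [NontriviallyNormedField K₀] [IsUltrametricDist K₀] [ProperSpace K₀]
  [NormedField Ω] [NormedAlgebra K₀ Ω] [IsUltrametricDist Ω] [Algebra.IsIntegral K₀ Ω]
  [HasUnitRoots K₀ Ω] [IsGalois K₀ Ω] [GalBasis K₀ Ω]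
  (E : IntermediateField K₀ Ω) [FiniteDimensional K₀ E]

/-- inflation `H²(F/E) → H²(F'/E)` between two finite Galois levels (helper3's tower instances
bundled) -/
noncomputable def infT (F F' : FiniteGaloisIntermediateField E Ω) (h : F ≤ F') (n : ℕ) :
    groupCohomology (Rep.ofAlgebraAutOnUnits E F.toIntermediateField) n →+
      groupCohomology (Rep.ofAlgebraAutOnUnits E F'.toIntermediateField) n :=
  letI := towerAlgebra E F.toIntermediateField F'.toIntermediateField h
  haveI := tower_isScalarTower E F.toIntermediateField F'.toIntermediateField h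
  (galInf E F.toIntermediateField F'.toIntermediateField n).hom.toAddMonoidHom

theorem inflH_infT (F F' : FiniteGaloisIntermediateField E Ω) (h : F ≤ F') (n : ℕ)
    (y : groupCohomology (Rep.ofAlgebraAutOnUnits E F.toIntermediateField) n) :
    inflH E F'.toIntermediateField n (infT E F F' h n y) = inflH E F.toIntermediateField n y :=
  inflH_galInf E F.toIntermediateField F'.toIntermediateField h y

theorem invTower_infT (F F' : FiniteGaloisIntermediateField E Ω) (h : F ≤ F')
    (y : H2 (Rep.ofAlgebraAutOnUnits E F.toIntermediateField)) :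
    invTower E F'.toIntermediateField (infT E F F' h 2 y) = invTower E F.toIntermediateField y :=
  invTower_galInf E F.toIntermediateField F'.toIntermediateField h y

theorem infT_two_injective (F F' : FiniteGaloisIntermediateField E Ω) (h : F ≤ F') :
    Function.Injective (infT E F F' h 2) := by
  letI := towerAlgebra E F.toIntermediateField F'.toIntermediateField h
  haveI := tower_isScalarTower E F.toIntermediateField F'.toIntermediateField h
  exact galInf_two_injective E F.toIntermediateField F'.toIntermediateField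

/-- a finite-level class dying in the limit dies at a finite level -/
theorem exists_infT_eq_zero (F : FiniteGaloisIntermediateField E Ω) (n : ℕ)
    (y : groupCohomology (Rep.ofAlgebraAutOnUnits E F.toIntermediateField) n)
    (hy : inflH E F.toIntermediateField n y = 0) :
    ∃ (F' : FiniteGaloisIntermediateField E Ω) (h : F ≤ F'), infT E F F' h n y = 0 := by
  obtain ⟨F', h, h0⟩ := exists_galInf_eq_zero E F y hy
  exact ⟨F', h, h0⟩

/-- **`H²(F/E) → H²_sm(Gal(Ω/E), Ωˣ)` is injective.** -/
theorem inflH_two_injective (F : FiniteGaloisIntermediateField E Ω) :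
    Function.Injective (inflH E F.toIntermediateField 2) := by
  rw [injective_iff_map_eq_zero]
  intro y hy
  obtain ⟨F', h, h0⟩ := exists_infT_eq_zero E F 2 y hy
  exact infT_two_injective E F F' h (h0.trans (map_zero _).symm)

/-- every smooth class comes from a finite level -/
theorem exists_inflH_eq' {n : ℕ} (x : Hsm (subBasis E) (subRep E) n) :
    ∃ (F : FiniteGaloisIntermediateField E Ω)
      (y : groupCohomology (Rep.ofAlgebraAutOnUnits E F.toIntermediateField) n),
      inflH E F.toIntermediateField n y = x := by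
  obtain ⟨F, -, y, hy⟩ := exists_inflH_eq E ⊥ x
  exact ⟨F, y, hy⟩

/-- independence of the level -/
theorem invTower_eq_of_inflH_eq (F₁ F₂ : FiniteGaloisIntermediateField E Ω)
    (y₁ : H2 (Rep.ofAlgebraAutOnUnits E F₁.toIntermediateField))
    (y₂ : H2 (Rep.ofAlgebraAutOnUnits E F₂.toIntermediateField))
    (h : inflH E F₁.toIntermediateField 2 y₁ = inflH E F₂.toIntermediateField 2 y₂) :
    invTower E F₁.toIntermediateField y₁ = invTower E F₂.toIntermediateField y₂ := by
  have h₁ : F₁ ≤ F₁ ⊔ F₂ := le_sup_left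
  have h₂ : F₂ ≤ F₁ ⊔ F₂ := le_sup_right
  have heq : infT E F₁ (F₁ ⊔ F₂) h₁ 2 y₁ = infT E F₂ (F₁ ⊔ F₂) h₂ 2 y₂ := by
    apply inflH_two_injective E (F₁ ⊔ F₂)
    rw [inflH_infT, inflH_infT, h]
  rw [← invTower_infT E F₁ (F₁ ⊔ F₂) h₁, heq, invTower_infT]

/-- the invariant of a smooth class (as a function) -/
noncomputable def invSmFun (x : Hsm (subBasis E) (subRep E) 2) : AddCircle (1 : ℚ) :=
  invTower E (Classical.choose (exists_inflH_eq' E x)).toIntermediateField
    (Classical.choose (Classical.choose_spec (exists_inflH_eq' E x)))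

theorem invSmFun_inflH (F : FiniteGaloisIntermediateField E Ω)
    (y : H2 (Rep.ofAlgebraAutOnUnits E F.toIntermediateField)) :
    invSmFun E (inflH E F.toIntermediateField 2 y) = invTower E F.toIntermediateField y :=
  invTower_eq_of_inflH_eq E _ F _ y
    (Classical.choose_spec (Classical.choose_spec
      (exists_inflH_eq' E (inflH E F.toIntermediateField 2 y))))

/-- two smooth classes can be represented at a common finite level -/
theorem exists_common_level {n : ℕ} (x x' : Hsm (subBasis E) (subRep E) n) :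
    ∃ (F : FiniteGaloisIntermediateField E Ω)
      (y y' : groupCohomology (Rep.ofAlgebraAutOnUnits E F.toIntermediateField) n),
      inflH E F.toIntermediateField n y = x ∧ inflH E F.toIntermediateField n y' = x' := by
  obtain ⟨F₁, y₁, rfl⟩ := exists_inflH_eq' E x
  obtain ⟨F₂, y₂, rfl⟩ := exists_inflH_eq' E x'
  exact ⟨F₁ ⊔ F₂, infT E F₁ (F₁ ⊔ F₂) le_sup_left n y₁, infT E F₂ (F₁ ⊔ F₂) le_sup_right n y₂,
    inflH_infT E _ _ _ n y₁, inflH_infT E _ _ _ n y₂⟩

/-- **The local invariant on smooth cohomology**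
`inv_E : H²_sm(Gal(Ω/E), Ωˣ) → ℚ/ℤ`. -/
noncomputable def invSm : Hsm (subBasis E) (subRep E) 2 →+ AddCircle (1 : ℚ) where
  toFun := invSmFun E
  map_zero' := by
    have h := invSmFun_inflH E ⊥ 0
    rw [map_zero, map_zero] at h
    exact h
  map_add' x x' := by
    obtain ⟨F, y, y', rfl, rfl⟩ := exists_common_level E x x'
    rw [← map_add, invSmFun_inflH, invSmFun_inflH, invSmFun_inflH, map_add]

theorem invSm_inflH (F : FiniteGaloisIntermediateField E Ω)
    (y : H2 (Rep.ofAlgebraAutOnUnits E F.toIntermediateField)) :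
    invSm E (inflH E F.toIntermediateField 2 y) = invTower E F.toIntermediateField y :=
  invSmFun_inflH E F y

theorem invSm_injective : Function.Injective (invSm E) := by
  rw [injective_iff_map_eq_zero]
  intro x hx
  obtain ⟨F, y, rfl⟩ := exists_inflH_eq' E x
  rw [invSm_inflH] at hx
  have hy : y = 0 := invTower_injective E F.toIntermediateField (hx.trans (map_zero _).symm)
  rw [hy, map_zero]

/-- the unramified extension of degree `m` of `E`, as a finite Galois intermediate field in tower
shape -/
noncomputable def unrLevel (m : ℕ) (hm : 0 < m) : FiniteGaloisIntermediateField E Ω :=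
  { IntermediateField.extendScalars (le_cyc E (degLevel E m hm).ζ) with
    finiteDimensional := finiteDimensional_cyc_rel E (degLevel E m hm).ζ
    isGalois := CycLevel.isGalois (degLevel E m hm) E }

theorem unrLevel_restrictScalars (m : ℕ) (hm : 0 < m) :
    (unrLevel E m hm).toIntermediateField.restrictScalars K₀ = cyc E (degLevel E m hm).ζ := rfl

/-- **Classes of every invariant `1/m` exist.** -/
theorem exists_invSm_eq_one_div (m : ℕ) (hm : 0 < m) :
    ∃ z : Hsm (subBasis E) (subRep E) 2,
      invSm E z = (((1 : ℚ) / (m : ℚ) : ℚ) : AddCircle (1 : ℚ)) := by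
  refine ⟨inflH E (unrLevel E m hm).toIntermediateField 2
    (fundClass E (cyc E (degLevel E m hm).ζ)), ?_⟩
  rw [invSm_inflH]
  have h := invLoc_fundClass E (cyc E (degLevel E m hm).ζ)
  rw [degLevel_finrank] at h
  exact h

theorem invSm_surjective : Function.Surjective (invSm E) := by
  intro t
  obtain ⟨r, rfl⟩ := QuotientAddGroup.mk_surjective t
  obtain ⟨z, hz⟩ := exists_invSm_eq_one_div E r.den r.den_pos
  refine ⟨r.num • z, ?_⟩
  rw [map_zsmul, hz, ← AddCircle.coe_zsmul]
  congr 1
  rw [zsmul_eq_mul, mul_one_div]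
  exact Rat.num_div_den r

/-- **`H²_sm(Gal(Ω/E), Ωˣ) ≃ ℚ/ℤ`**. -/
noncomputable def invSmEquiv : Hsm (subBasis E) (subRep E) 2 ≃+ AddCircle (1 : ℚ) :=
  AddEquiv.ofBijective (invSm E) ⟨invSm_injective E, invSm_surjective E⟩

/-- **(CF1)** `H¹_sm(Gal(Ω/E), Ωˣ) = 0` (Hilbert 90 in the limit). -/
theorem Hsm_one_eq_zero (x : Hsm (subBasis E) (subRep E) 1) : x = 0 := by
  obtain ⟨F, y, rfl⟩ := exists_inflH_eq' E x
  haveI := groupCohomology.H1ofAutOnUnitsUnique E F.toIntermediateField
  have hy : y = 0 := Subsingleton.elim (α := H1 (Rep.ofAlgebraAutOnUnits E F.toIntermediateField)) _ _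
  rw [hy, map_zero]

/-- **(CF2)(i)** `H²_sm(Gal(Ω/E), Ωˣ)` is divisible. -/
theorem Hsm_two_divisible (n : ℕ) (hn : 0 < n) (x : Hsm (subBasis E) (subRep E) 2) :
    ∃ y : Hsm (subBasis E) (subRep E) 2, n • y = x := by
  obtain ⟨r, hr⟩ := QuotientAddGroup.mk_surjective (invSm E x)
  obtain ⟨y, hy⟩ := invSm_surjective E (((r / n : ℚ) : ℚ) : AddCircle (1 : ℚ))
  refine ⟨y, invSm_injective E ?_⟩
  rw [map_nsmul, hy, ← AddCircle.coe_nsmul, ← hr]
  congr 1
  rw [nsmul_eq_mul]
  have : (n : ℚ) ≠ 0 := Nat.cast_ne_zero.mpr hn.ne'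
  field_simp

/-- **(CF2)(ii)** the `n`-torsion of `H²_sm(Gal(Ω/E), Ωˣ)` is cyclic, generated by the class of
invariant `1/n`; in particular it has at most `n` elements. -/
theorem Hsm_two_torsion (n : ℕ) (hn : 0 < n) (z : Hsm (subBasis E) (subRep E) 2)
    (hz : invSm E z = (((1 : ℚ) / (n : ℚ) : ℚ) : AddCircle (1 : ℚ)))
    (x : Hsm (subBasis E) (subRep E) 2) (hx : n • x = 0) : ∃ k : ℤ, x = k • z := by
  obtain ⟨r, hr⟩ := QuotientAddGroup.mk_surjective (invSm E x)
  have h0 : ((n • r : ℚ) : AddCircle (1 : ℚ)) = 0 := by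
    rw [AddCircle.coe_nsmul]
    have : (↑r : AddCircle (1 : ℚ)) = invSm E x := hr
    rw [this, ← map_nsmul, hx, map_zero]
  rw [AddCircle.coe_eq_zero_iff] at h0
  obtain ⟨k, hk⟩ := h0
  refine ⟨k, invSm_injective E ?_⟩
  rw [map_zsmul, hz, ← hr, ← AddCircle.coe_zsmul]
  congr 1
  have hn0 : (n : ℚ) ≠ 0 := Nat.cast_ne_zero.mpr hn.ne'
  rw [zsmul_eq_mul, mul_one] at hk
  rw [nsmul_eq_mul] at hk
  rw [zsmul_eq_mul]
  field_simp
  linarith

/-- **(CF3)** `H³_sm(Gal(Ω/E), Ωˣ)` has no `p`-torsion. -/
theorem Hsm_three_eq_zero_of_pow_nsmul_eq_zero (p : ℕ) [Fact p.Prime]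
    (x : Hsm (subBasis E) (subRep E) 3) (m : ℕ) (hx : p ^ m • x = 0) : x = 0 := by
  obtain ⟨F, y, rfl⟩ := exists_inflH_eq' E x
  rw [← map_nsmul] at hx
  obtain ⟨F', h, h0⟩ := exists_infT_eq_zero E F 3 _ hx
  rw [map_nsmul] at h0
  letI : Fintype ((F'.toIntermediateField.restrictScalars K₀) ≃ₐ[E]
      (F'.toIntermediateField.restrictScalars K₀)) := Fintype.ofFinite _
  have h1 : infT E F F' h 3 y = 0 :=
    H3_eq_zero_of_pow_nsmul_eq_zero E (F'.toIntermediateField.restrictScalars K₀) p
      (infT E F F' h 3 y) m h0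
  rw [← inflH_infT E F F' h 3 y, h1, map_zero]

end Smooth

end Fermat.Agent.S55lib.LocalH
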