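/-
S55 sprint, block (III): restriction between open subgroups on smooth cohomology, compared with the
finite-level restriction maps; the absolute level `Hsm (galBasis K₀ Ω) (unitsRep K₀ Ω)` via the
subgroup `(⊥).fixingSubgroup = ⊤`.
-/
import Mathlib
import Fermat.Agent.S55lib.LocalH.SmInv

set_option autoImplicit false
set_option linter.unusedSectionVars false
set_option linter.style.haveILetI false

open scoped NormedField Valued NNReal IntermediateField

namespace Fermat.Agent.S55lib.LocalH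

open groupCohomology CategoryTheory Rep Fermat.Agent.S55lib Fermat.Agent.S55lib.LocalUnr

section Generic

universe u

variable {k : Type u} [CommRing k]

/-- a degreewise bijective morphism of complexes is bijective on cohomology -/
theorem mapH_bijective_of_bijective {K L : Cpx k} (φ : Cpx.Hom K L)
    (h : ∀ n, Function.Bijective (φ.f n)) (n : ℕ) : Function.Bijective (φ.mapH n) := by
  constructor
  · rw [injective_iff_map_eq_zero]
    intro x hx
    obtain ⟨a, ha, rfl⟩ := K.exists_rep x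
    rw [Cpx.Hom.mapH_cl, Cpx.cl_eq_zero_iff] at hx
    rw [Cpx.cl_eq_zero_iff]
    cases n with
    | zero =>
      rw [Cpx.mem_B_zero] at hx ⊢
      exact (h 0).1 (hx.trans (map_zero _).symm)
    | succ n =>
      rw [Cpx.mem_B_succ] at hx ⊢
      obtain ⟨y, hy⟩ := hx
      obtain ⟨y', rfl⟩ := (h n).2 y
      refine ⟨y', (h (n + 1)).1 ?_⟩
      rw [φ.comm, hy]
  · intro y
    obtain ⟨b, hb, rfl⟩ := L.exists_rep y
    obtain ⟨a, rfl⟩ := (h n).2 b
    have ha : K.d n a = 0 := by
      apply (h (n + 1)).1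
      rw [φ.comm, hb, map_zero]
    exact ⟨K.cl a ha, rfl⟩

variable {G : Type u} [Group G] (𝒰 : OpenBasis G)

/-- restriction to a subgroup which is everything is bijective on smooth cochains -/
theorem mapG_subtype_bijective_of_eq_top (V : Subgroup G) (hV : V = ⊤) (A : Rep.{u} k G) (n : ℕ) :
    Function.Bijective
      ((Csm.mapG (𝒰.isCont_comap V.subtype) (𝟙 (Rep.res V.subtype A))).f n) := by
  have hmem : ∀ g : G, g ∈ V := fun g => by rw [hV]; trivial
  constructor
  · intro x y hxy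
    apply Subtype.ext
    funext g
    have h := congrFun (congrArg Subtype.val hxy) (fun i => (⟨g i, hmem (g i)⟩ : V))
    exact h
  · intro y
    obtain ⟨U', ⟨U, hU, rfl⟩, h1, h2⟩ := y.2
    refine ⟨⟨fun g => y.1 (fun i => (⟨g i, hmem (g i)⟩ : V)), U, hU, ?_, ?_⟩, ?_⟩
    · intro g s hs
      exact h1 (fun i => (⟨g i, hmem (g i)⟩ : V)) (fun i => (⟨s i, hmem (s i)⟩ : V))
        (fun i => hs i)
    · intro g s hs
      exact h2 (fun i => (⟨g i, hmem (g i)⟩ : V)) ⟨s, hmem s⟩ hs
    · apply Subtype.ext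
      funext g
      rfl

end Generic

section ResVV

variable {K₀ Ω : Type} [Field K₀] [Field Ω] [Algebra K₀ Ω] [IsGalois K₀ Ω] [GalBasis K₀ Ω]
  (E E' : IntermediateField K₀ Ω) [Fact (E ≤ E')]

/-- the inclusion `Gal(Ω/E') ≤ Gal(Ω/E)` -/
def fixIncl : ↥E'.fixingSubgroup →* ↥E.fixingSubgroup :=
  Subgroup.inclusion (IntermediateField.fixingSubgroup_le (Fact.out : E ≤ E'))

theorem coe_fixIncl (σ : ↥E'.fixingSubgroup) :
    ((fixIncl E E' σ : ↥E.fixingSubgroup) : Ω ≃ₐ[K₀] Ω) = (σ : Ω ≃ₐ[K₀] Ω) := rfl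

theorem isCont_fixIncl : (subBasis E).IsCont (subBasis E') (fixIncl E E') := by
  rintro _ ⟨U, hU, rfl⟩
  exact ⟨_, ⟨U, hU, rfl⟩, fun σ hσ => hσ⟩

/-- the identity of `Ωˣ`, as a morphism of `Gal(Ω/E')`-modules -/
def resVVcoef : Rep.res (fixIncl E E') (subRep E) ⟶ subRep E' :=
  Rep.ofHom
    { toLinearMap := LinearMap.id
      isIntertwining' := fun _ => rfl }

/-- restriction `C_sm(Gal(Ω/E), Ωˣ) → C_sm(Gal(Ω/E'), Ωˣ)` -/
noncomputable def resVV : Cpx.Hom (Csm (subBasis E) (subRep E)) (Csm (subBasis E') (subRep E')) :=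
  Csm.mapG (isCont_fixIncl E E') (resVVcoef E E')

theorem resVV_val (n : ℕ) (x : (Csm (subBasis E) (subRep E)).X n)
    (g : Fin n → ↥E'.fixingSubgroup) :
    ((resVV E E').f n x).1 g = x.1 (fixIncl E E' ∘ g) := rfl

end ResVV

section Lattice

variable {K₀ Ω : Type} [Field K₀] [Field Ω] [Algebra K₀ Ω] [IsGalois K₀ Ω] [GalBasis K₀ Ω]

/-- the tower shape of a pair `E ≤ M` of the lattice -/
abbrev towerOf (E M : IntermediateField K₀ Ω) [Fact (E ≤ M)] : IntermediateField E Ω :=
  IntermediateField.extendScalars (Fact.out : E ≤ M)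

instance finiteDimensional_towerOf (E M : IntermediateField K₀ Ω) [Fact (E ≤ M)]
    [FiniteDimensional K₀ M] : FiniteDimensional E (towerOf E M) :=
  finiteDimensional_ofLE E M

instance isGalois_towerOf (E M : IntermediateField K₀ Ω) [Fact (E ≤ M)] [h : IsGalois E M] :
    IsGalois E (towerOf E M) := h

/-- the comparison map `Hⁿ(Gal(M/E), Mˣ) → Hⁿ_sm(Gal(Ω/E), Ωˣ)` in lattice shape -/
noncomputable def inflL (E M : IntermediateField K₀ Ω) [Fact (E ≤ M)] [FiniteDimensional K₀ E]
    [FiniteDimensional K₀ M] [IsGalois E M] (n : ℕ) :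
    groupCohomology (Rep.ofAlgebraAutOnUnits E M) n →+ Hsm (subBasis E) (subRep E) n :=
  inflH E (towerOf E M) n

theorem inflL_toGC_cl (E M : IntermediateField K₀ Ω) [Fact (E ≤ M)] [FiniteDimensional K₀ E]
    [FiniteDimensional K₀ M] [IsGalois E M] {n : ℕ}
    (z : (Call (Rep.ofAlgebraAutOnUnits E M)).X n)
    (hz : (Call (Rep.ofAlgebraAutOnUnits E M)).d n z = 0) :
    inflL E M n (Call.toGC _ n ((Call (Rep.ofAlgebraAutOnUnits E M)).cl z hz)) =
      (Csm (subBasis E) (subRep E)).cl ((inflV E (towerOf E M)).f n z)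
        ((inflV E (towerOf E M)).map_Z n hz) :=
  inflH_toGC_cl E (towerOf E M) z hz

/-- restriction of automorphisms is compatible with the restriction to finite levels -/
theorem resHom_resV_fixIncl (E E' M : IntermediateField K₀ Ω) [Fact (E ≤ E')] [Fact (E' ≤ M)]
    [Fact (E ≤ M)] [FiniteDimensional K₀ E] [FiniteDimensional K₀ E'] [FiniteDimensional K₀ M]
    [IsGalois E M] [IsGalois E' M] (σ : ↥E'.fixingSubgroup) :
    LocalUnr.resHom E E' M M (resV E' (towerOf E' M) σ) =
      resV E (towerOf E M) (fixIncl E E' σ) := by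
  ext x
  have h0 : ∀ τ : M ≃ₐ[E'] M, LocalUnr.resHom E E' M M τ x = τ x := by
    intro τ
    have := algebraMap_resHom' E E' M M τ x
    simpa using this
  have h1 : LocalUnr.resHom E E' M M (resV E' (towerOf E' M) σ) x =
      (resV E' (towerOf E' M) σ) x := h0 _
  have h2 := coe_resV E' (towerOf E' M) σ x
  have h3 := coe_resV E (towerOf E M) (fixIncl E E' σ) x
  exact (congrArg Subtype.val h1).trans (h2.trans h3.symm)

theorem unitsIncl_galUnitsMap (E E' M : IntermediateField K₀ Ω) [Fact (E ≤ E')] [Fact (E' ≤ M)]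
    [Fact (E ≤ M)] [FiniteDimensional K₀ E] [FiniteDimensional K₀ E'] [FiniteDimensional K₀ M]
    [IsGalois E M] [IsGalois E' M] (u : Rep.ofAlgebraAutOnUnits E M) :
    (LocalUnr.unitsIncl E' (towerOf E' M)).hom ((galUnitsMap E E' M M).hom u) =
      (LocalUnr.unitsIncl E (towerOf E M)).hom u := by
  refine congrArg (uRep K₀) (Units.ext ?_)
  rfl

/-- **finite-level form of the restriction `Gal(Ω/E) → Gal(Ω/E')`** -/
theorem resVV_inflL (E E' M : IntermediateField K₀ Ω) [Fact (E ≤ E')] [Fact (E' ≤ M)]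
    [Fact (E ≤ M)] [FiniteDimensional K₀ E] [FiniteDimensional K₀ E'] [FiniteDimensional K₀ M]
    [IsGalois E M] [IsGalois E' M] (n : ℕ)
    (y : groupCohomology (Rep.ofAlgebraAutOnUnits E M) n) :
    (resVV E E').mapH n (inflL E M n y) = inflL E' M n (galMap E E' M M n y) := by
  obtain ⟨w, rfl⟩ := (Call.toGC (Rep.ofAlgebraAutOnUnits E M) n).surjective y
  obtain ⟨z, hz, rfl⟩ := (Call (Rep.ofAlgebraAutOnUnits E M)).exists_rep w
  have h1 : galMap E E' M M n (Call.toGC _ n ((Call (Rep.ofAlgebraAutOnUnits E M)).cl z hz)) =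
      Call.toGC _ n ((Call.map (LocalUnr.resHom E E' M M) (galUnitsMap E E' M M)).mapH n
        ((Call (Rep.ofAlgebraAutOnUnits E M)).cl z hz)) :=
    (Call.toGC_map (LocalUnr.resHom E E' M M) (galUnitsMap E E' M M) n _).symm
  rw [h1, Cpx.Hom.mapH_cl, inflL_toGC_cl, inflL_toGC_cl, Cpx.Hom.mapH_cl]
  refine Cpx.cl_congr _ ?_ _
  apply Subtype.ext
  funext g
  refine Eq.trans (resVV_val E E' n _ g) ?_
  refine Eq.trans (inflV_val E (towerOf E M) n _ _) ?_
  refine Eq.trans ?_ (inflV_val E' (towerOf E' M) n _ g).symm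
  have h3 : LocalUnr.resHom E E' M M ∘ (resV E' (towerOf E' M) ∘ g) =
      resV E (towerOf E M) ∘ (fixIncl E E' ∘ g) := by
    funext i
    exact resHom_resV_fixIncl E E' M (g i)
  have h2 : (Call.map (LocalUnr.resHom E E' M M) (galUnitsMap E E' M M)).f n z
      (resV E' (towerOf E' M) ∘ g) =
      (galUnitsMap E E' M M).hom (z (LocalUnr.resHom E E' M M ∘ (resV E' (towerOf E' M) ∘ g))) :=
    rfl
  have h4 := h2.trans (congrArg (fun γ : Fin n → (M ≃ₐ[E] M) =>
    (galUnitsMap E E' M M).hom (z γ)) h3)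
  refine Eq.trans ?_ (congrArg (LocalUnr.unitsIncl E' (towerOf E' M)).hom h4).symm
  exact (unitsIncl_galUnitsMap E E' M _).symm

end Lattice

section InvRes

variable {K₀ Ω : Type} [NontriviallyNormedField K₀] [IsUltrametricDist K₀] [ProperSpace K₀]
  [NormedField Ω] [NormedAlgebra K₀ Ω] [IsUltrametricDist Ω] [Algebra.IsIntegral K₀ Ω]
  [HasUnitRoots K₀ Ω] [IsGalois K₀ Ω] [GalBasis K₀ Ω]

theorem invSm_inflL (E M : IntermediateField K₀ Ω) [Fact (E ≤ M)] [FiniteDimensional K₀ E]
    [FiniteDimensional K₀ M] [IsGalois E M] (y : H2 (Rep.ofAlgebraAutOnUnits E M)) :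
    invSm E (inflL E M 2 y) = invLoc E M y :=
  invSm_inflH E
    { towerOf E M with
      finiteDimensional := finiteDimensional_towerOf E M
      isGalois := isGalois_towerOf E M } y

/-- every smooth class of `Gal(Ω/E)` comes from a finite Galois level containing a given finite
extension `E'` of `E` -/
theorem exists_inflH_eq_of_le (E E' : IntermediateField K₀ Ω) [Fact (E ≤ E')]
    [FiniteDimensional K₀ E] [FiniteDimensional K₀ E'] {n : ℕ}
    (x : Hsm (subBasis E) (subRep E) n) :
    ∃ (F : FiniteGaloisIntermediateField E Ω)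
      (_ : E' ≤ F.toIntermediateField.restrictScalars K₀)
      (y : groupCohomology (Rep.ofAlgebraAutOnUnits E F.toIntermediateField) n),
      inflH E F.toIntermediateField n y = x := by
  obtain ⟨F, hF, y, hy⟩ := exists_inflH_eq E (galClosure (towerOf E E')) x
  refine ⟨F, ?_, y, hy⟩
  intro a ha
  have h1 : a ∈ towerOf E E' := ha
  have h2 := le_galClosure (towerOf E E') h1
  exact hF h2

/-- **(CF2)(iii) `inv_{E'} ∘ res = [E':E] • inv_E`** on smooth cohomology. -/
theorem invSm_resVV (E E' : IntermediateField K₀ Ω) [Fact (E ≤ E')]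
    [FiniteDimensional K₀ E] [FiniteDimensional K₀ E'] (x : Hsm (subBasis E) (subRep E) 2) :
    invSm E' ((resVV E E').mapH 2 x) = Module.finrank E E' • invSm E x := by
  obtain ⟨F, hE', y, rfl⟩ := exists_inflH_eq_of_le E E' x
  haveI : Fact (E' ≤ F.toIntermediateField.restrictScalars K₀) := ⟨hE'⟩
  haveI : IsGalois E' (F.toIntermediateField.restrictScalars K₀) :=
    IsGalois.tower_top_of_isGalois E E' (F.toIntermediateField.restrictScalars K₀)
  have h1 : inflH E F.toIntermediateField 2 y =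
      inflL E (F.toIntermediateField.restrictScalars K₀) 2 y := rfl
  rw [h1, resVV_inflL, invSm_inflL, invSm_inflL, invLoc_galRes]

end InvRes

end Fermat.Agent.S55lib.LocalH
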