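/-
S55 sprint, block (III): the class-formation hypotheses (CF1), (CF2), (CF3) of helper8's `CFData`
for the local formation `G = Gal(Ω/K₀)`, `𝒰 = galBasis K₀ Ω`, `C = Ωˣ`.
-/
import Mathlib
import Fermat.Agent.S55lib.LocalH.SmRes
import Fermat.Agent.S55lib.LocalH.LocalInvBase
import Fermat.Agent.S55lib.CFDual.Hyp

set_option autoImplicit false
set_option linter.unusedSectionVars false
set_option linter.style.haveILetI false

open scoped NormedField Valued NNReal IntermediateField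

namespace Fermat.Agent.S55lib.LocalH

open groupCohomology CategoryTheory Rep Fermat.Agent.S55lib Fermat.Agent.S55lib.LocalUnr
  Fermat.Agent.S55lib.CFDual

section GLevel

variable {K₀ Ω : Type} [Field K₀] [Field Ω] [Algebra K₀ Ω] [IsGalois K₀ Ω] [GalBasis K₀ Ω]

/-- restriction from `Gal(Ω/K₀)` to `Gal(Ω/E)` on smooth cochains (helper8's `resHom`) -/
noncomputable abbrev resGV (E : IntermediateField K₀ Ω) :
    Cpx.Hom (Csm (basis K₀ Ω) (unitsRep K₀ Ω)) (Csm (subBasis E) (subRep E)) :=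
  CFDual.resHom (basis K₀ Ω) E.fixingSubgroup (unitsRep K₀ Ω)

theorem resGV_val (E : IntermediateField K₀ Ω) (n : ℕ)
    (x : (Csm (basis K₀ Ω) (unitsRep K₀ Ω)).X n) (g : Fin n → ↥E.fixingSubgroup) :
    ((resGV E).f n x).1 g = x.1 (E.fixingSubgroup.subtype ∘ g) := rfl

/-- the restriction to `Gal(Ω/⊥) = Gal(Ω/K₀)` is bijective on cohomology -/
theorem resGV_bot_bijective (n : ℕ) :
    Function.Bijective ((resGV (⊥ : IntermediateField K₀ Ω)).mapH n) :=
  mapH_bijective_of_bijective _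
    (fun m => mapG_subtype_bijective_of_eq_top (basis K₀ Ω) _
      IntermediateField.fixingSubgroup_bot (unitsRep K₀ Ω) m) n

/-- transitivity of restriction -/
theorem resGV_eq_resVV (E : IntermediateField K₀ Ω) (n : ℕ)
    (x : Hsm (basis K₀ Ω) (unitsRep K₀ Ω) n) :
    (resGV E).mapH n x =
      (resVV (⊥ : IntermediateField K₀ Ω) E).mapH n
        ((resGV (⊥ : IntermediateField K₀ Ω)).mapH n x) := by
  obtain ⟨a, ha, rfl⟩ := (Csm (basis K₀ Ω) (unitsRep K₀ Ω)).exists_rep x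
  rw [Cpx.Hom.mapH_cl, Cpx.Hom.mapH_cl, Cpx.Hom.mapH_cl]
  refine Cpx.cl_congr _ ?_ _
  apply Subtype.ext
  funext g
  rfl

end GLevel

section Arith

/-- `ℚ/ℤ` is divisible -/
theorem addCircle_divisible (n : ℕ) (hn : 0 < n) (t : AddCircle (1 : ℚ)) :
    ∃ t' : AddCircle (1 : ℚ), n • t' = t := by
  obtain ⟨r, rfl⟩ := QuotientAddGroup.mk_surjective t
  refine ⟨((r / n : ℚ) : AddCircle (1 : ℚ)), ?_⟩
  rw [← AddCircle.coe_nsmul]
  congr 1
  rw [nsmul_eq_mul]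
  have : (n : ℚ) ≠ 0 := Nat.cast_ne_zero.mpr hn.ne'
  field_simp

/-- in a divisible abelian group, a `p`-primary element is `d` times a `p`-primary element -/
theorem exists_primary_nsmul_eq {T : Type*} [AddCommGroup T]
    (hdiv : ∀ n : ℕ, 0 < n → ∀ t : T, ∃ t' : T, n • t' = t) (p : ℕ) (hp : p.Prime) (d : ℕ)
    (hd : d ≠ 0) (t : T) (m : ℕ) (ht : p ^ m • t = 0) :
    ∃ t' : T, (∃ M : ℕ, p ^ M • t' = 0) ∧ d • t' = t := by
  obtain ⟨a, d', hd', rfl⟩ := Nat.exists_eq_pow_mul_and_not_dvd hd p hp.ne_one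
  obtain ⟨t₁, ht₁⟩ := hdiv (p ^ a) (pow_pos hp.pos a) t
  have h₁ : p ^ (m + a) • t₁ = 0 := by
    rw [pow_add, mul_smul, ht₁, ht]
  have hcop : IsCoprime (d' : ℤ) ((p ^ (m + a) : ℕ) : ℤ) := by
    rw [Nat.isCoprime_iff_coprime]
    exact Nat.Coprime.pow_right _ ((Nat.Prime.coprime_iff_not_dvd hp).mpr hd').symm
  obtain ⟨s, l, hsl⟩ := hcop
  refine ⟨s • t₁, ⟨m + a, ?_⟩, ?_⟩
  · rw [smul_comm, h₁, smul_zero]
  · have h2 : d' • (s • t₁) = t₁ := by
      have h3 : (s * (d' : ℤ) + l * ((p ^ (m + a) : ℕ) : ℤ)) • t₁ = t₁ := by rw [hsl, one_smul]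
      rw [add_smul, mul_smul, mul_smul, natCast_zsmul, natCast_zsmul, h₁, smul_zero,
        add_zero] at h3
      rw [smul_comm]
      exact h3
    rw [mul_smul, h2, ht₁]

end Arith

section LocalFormation

variable {K₀ Ω : Type} [NontriviallyNormedField K₀] [IsUltrametricDist K₀] [ProperSpace K₀]
  [NormedField Ω] [NormedAlgebra K₀ Ω] [IsUltrametricDist Ω] [Algebra.IsIntegral K₀ Ω]
  [HasUnitRoots K₀ Ω] [IsGalois K₀ Ω] [GalBasis K₀ Ω]

/-- **the local invariant `inv_{K₀} : H²_sm(Gal(Ω/K₀), Ωˣ) → ℚ/ℤ`** on the absolute level -/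
noncomputable def invG : Hsm (basis K₀ Ω) (unitsRep K₀ Ω) 2 →+ AddCircle (1 : ℚ) :=
  (invSm (⊥ : IntermediateField K₀ Ω)).comp
    ((resGV (⊥ : IntermediateField K₀ Ω)).mapH 2).toAddMonoidHom

theorem invG_apply (x : Hsm (basis K₀ Ω) (unitsRep K₀ Ω) 2) :
    invG x = invSm (⊥ : IntermediateField K₀ Ω)
      ((resGV (⊥ : IntermediateField K₀ Ω)).mapH 2 x) := rfl

theorem invG_injective : Function.Injective (invG (K₀ := K₀) (Ω := Ω)) := by
  intro x y h
  rw [invG_apply, invG_apply] at h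
  exact (resGV_bot_bijective 2).1 (invSm_injective _ h)

theorem invG_surjective : Function.Surjective (invG (K₀ := K₀) (Ω := Ω)) := by
  intro t
  obtain ⟨y, rfl⟩ := invSm_surjective (⊥ : IntermediateField K₀ Ω) t
  obtain ⟨x, rfl⟩ := (resGV_bot_bijective 2).2 y
  exact ⟨x, rfl⟩

/-- **`inv_E ∘ res = [E:K₀] • inv_{K₀}`** -/
theorem invSm_resGV (E : IntermediateField K₀ Ω) [FiniteDimensional K₀ E]
    (x : Hsm (basis K₀ Ω) (unitsRep K₀ Ω) 2) :
    invSm E ((resGV E).mapH 2 x) = Module.finrank K₀ E • invG x := by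
  have h2 := finrank_base_mul_finrank_ofLE (⊥ : IntermediateField K₀ Ω) E
  rw [IntermediateField.finrank_bot, one_mul] at h2
  rw [resGV_eq_resVV, invSm_resVV, h2, invG_apply]

theorem invSm_resGV_index (E : IntermediateField K₀ Ω) [FiniteDimensional K₀ E]
    (x : Hsm (basis K₀ Ω) (unitsRep K₀ Ω) 2) :
    invSm E ((resGV E).mapH 2 x) = E.fixingSubgroup.index • invG x := by
  rw [invSm_resGV, IntermediateField.finrank_eq_fixingSubgroup_index]

/-- (CF2a) -/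
theorem local_cf2_div (n : ℕ) (hn : 0 < n)
    (x : Hsm (basis K₀ Ω) (unitsRep K₀ Ω) 2) :
    ∃ y : Hsm (basis K₀ Ω) (unitsRep K₀ Ω) 2, n • y = x := by
  obtain ⟨t', ht'⟩ := addCircle_divisible n hn (invG x)
  obtain ⟨y, rfl⟩ := invG_surjective (K₀ := K₀) (Ω := Ω) t'
  exact ⟨y, invG_injective (by rw [map_nsmul, ht'])⟩

/-- (CF2b) -/
theorem local_cf2_res (E : IntermediateField K₀ Ω) [FiniteDimensional K₀ E]
    (x : Hsm (basis K₀ Ω) (unitsRep K₀ Ω) 2)
    (hx : E.fixingSubgroup.index • x = 0) : (resGV E).mapH 2 x = 0 := by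
  apply invSm_injective E
  rw [invSm_resGV_index, ← map_nsmul, hx, map_zero, map_zero]

/-- (CF2c) -/
theorem local_cf2_surj (p : ℕ) (hp : p.Prime) (E : IntermediateField K₀ Ω)
    [FiniteDimensional K₀ E] (y : Hsm (subBasis E) (subRep E) 2) (m : ℕ) (hy : p ^ m • y = 0) :
    ∃ x : Hsm (basis K₀ Ω) (unitsRep K₀ Ω) 2,
      (∃ M : ℕ, p ^ M • x = 0) ∧ (resGV E).mapH 2 x = y := by
  have hd : Module.finrank K₀ E ≠ 0 := Module.finrank_pos.ne'
  obtain ⟨t', ⟨M, hM⟩, ht'⟩ := exists_primary_nsmul_eq addCircle_divisible p hp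
    (Module.finrank K₀ E) hd (invSm E y) m (by rw [← map_nsmul, hy, map_zero])
  obtain ⟨x, rfl⟩ := invG_surjective (K₀ := K₀) (Ω := Ω) t'
  refine ⟨x, ⟨M, invG_injective (by rw [map_nsmul, hM, map_zero])⟩, invSm_injective E ?_⟩
  rw [invSm_resGV, ht']

/-- **The local formation satisfies (CF1), (CF2), (CF3)**: helper8's `CFData` for
`G = Gal(Ω/K₀)`, `C = Ωˣ`, given the two reciprocity statements (CF4) (helper3). -/
theorem localCFData (p : ℕ) [Fact p.Prime] (U₀ : Subgroup (Ω ≃ₐ[K₀] Ω))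
    (h4i : ∀ V : Subgroup (Ω ≃ₐ[K₀] Ω), (basis K₀ Ω).IsOpen V → V ≤ U₀ →
      ∀ (c : unitsRep K₀ Ω) (hc : ∀ v ∈ V, (unitsRep K₀ Ω).ρ v c = c),
      (∀ χ : Hsm ((basis K₀ Ω).comap V.subtype) (trivFp p V) 1,
        (Csm.map ((basis K₀ Ω).comap V.subtype)
          (constHom V (unitsRep K₀ Ω) c hc)).mapH 2
            (bock p ((basis K₀ Ω).comap V.subtype) χ) = 0) →
      ∃ c' : unitsRep K₀ Ω, (∀ v ∈ V, (unitsRep K₀ Ω).ρ v c' = c') ∧ p • c' = c)
    (h4s : ∀ V : Subgroup (Ω ≃ₐ[K₀] Ω), (basis K₀ Ω).IsOpen V → V ≤ U₀ →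
      ∀ φ : Hsm ((basis K₀ Ω).comap V.subtype) (trivFp p V) 1 →+
          Hsm ((basis K₀ Ω).comap V.subtype) (Rep.res V.subtype (unitsRep K₀ Ω)) 2,
        ∃ (c : unitsRep K₀ Ω) (hc : ∀ v ∈ V, (unitsRep K₀ Ω).ρ v c = c), ∀ χ,
          (Csm.map ((basis K₀ Ω).comap V.subtype)
            (constHom V (unitsRep K₀ Ω) c hc)).mapH 2
              (bock p ((basis K₀ Ω).comap V.subtype) χ) = φ χ) :
    CFData (basis K₀ Ω) p U₀ (unitsRep K₀ Ω) where
  cf1_inj := by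
    intro V hV _ x _
    obtain ⟨E, hE, rfl⟩ := exists_eq_fixingSubgroup_of_isOpen (basis K₀ Ω) hV
    exact Hsm_one_eq_zero E x
  cf1_div := by
    intro V hV _ x
    obtain ⟨E, hE, rfl⟩ := exists_eq_fixingSubgroup_of_isOpen (basis K₀ Ω) hV
    exact ⟨0, by rw [smul_zero]; exact (Hsm_one_eq_zero E x).symm⟩
  cf2_div := fun x => local_cf2_div p (Fact.out : p.Prime).pos x
  cf2_res := by
    intro V hV _ x _ hx
    obtain ⟨E, hE, rfl⟩ := exists_eq_fixingSubgroup_of_isOpen (basis K₀ Ω) hV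
    exact local_cf2_res E x hx
  cf2_surj := by
    intro V hV _ y hy
    obtain ⟨E, hE, rfl⟩ := exists_eq_fixingSubgroup_of_isOpen (basis K₀ Ω) hV
    obtain ⟨m, hm⟩ := hy
    exact local_cf2_surj p Fact.out E y m hm
  cf3 := by
    intro V hV _ x hx
    obtain ⟨E, hE, rfl⟩ := exists_eq_fixingSubgroup_of_isOpen (basis K₀ Ω) hV
    exact Hsm_three_eq_zero_of_pow_nsmul_eq_zero E p x 1 (by rw [pow_one]; exact hx)
  cf4_inj := h4i
  cf4_surj := h4s

end LocalFormation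

end Fermat.Agent.S55lib.LocalH
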