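/-
S55 sprint, block (II-b): K1 for the finite subextensions of `PadicAlgCl q / ℚ_[q]`.
Instances making `LocalInv` / `LocalInvBase` apply to `K₀ = ℚ_[q]`, `Ω = PadicAlgCl q`.
-/
import Mathlib
import Fermat.Agent.S55lib.LocalH.LocalInvBase

set_option autoImplicit false
set_option linter.unusedSectionVars false
set_option linter.style.haveILetI false

open scoped NormedField Valued NNReal IntermediateField

namespace Fermat.Agent.S55lib.LocalH

open groupCohomology CategoryTheory Rep Fermat.Agent.S55lib.LocalUnr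

section Padic

variable (q : ℕ) [Fact q.Prime]

instance isIntegral_padicAlgCl : Algebra.IsIntegral ℚ_[q] (PadicAlgCl q) :=
  (Algebra.isAlgebraic_def.mpr (PadicAlgCl.isAlgebraic q).isAlgebraic).isIntegral

instance hasUnitRoots_padicAlgCl : HasUnitRoots ℚ_[q] (PadicAlgCl q) where
  exists_root N hN0 _ := by
    haveI : NeZero ((N : ℕ) : PadicAlgCl q) := ⟨Nat.cast_ne_zero.mpr hN0⟩
    exact HasEnoughRootsOfUnity.exists_primitiveRoot (PadicAlgCl q) N

variable (E M M' : IntermediateField ℚ_[q] (PadicAlgCl q))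

/-- **K1 over `ℚ_q`** -/
noncomputable example [FiniteDimensional ℚ_[q] M] [IsGalois ℚ_[q] M] :
    H2 (Rep.ofAlgebraAutOnUnits ℚ_[q] M) →+ AddCircle (1 : ℚ) := invBase M

example [FiniteDimensional ℚ_[q] M] [IsGalois ℚ_[q] M] :
    Nat.card (H2 (Rep.ofAlgebraAutOnUnits ℚ_[q] M)) = Module.finrank ℚ_[q] M := card_H2_base M

example [Fact (M ≤ M')] [FiniteDimensional ℚ_[q] M] [FiniteDimensional ℚ_[q] M']
    [IsGalois ℚ_[q] M] [IsGalois ℚ_[q] M'] (x : H2 (Rep.ofAlgebraAutOnUnits ℚ_[q] M)) :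
    invBase M' (groupCohomology.map (LocalUnr.resHom ℚ_[q] ℚ_[q] M M')
      (unitsMapRep ℚ_[q] ℚ_[q] M M') 2 x) = invBase M x := invBase_galInf M M' x

/-- **K1 over a finite extension `E` of `ℚ_q`** -/
noncomputable example [Fact (E ≤ M)] [FiniteDimensional ℚ_[q] E] [FiniteDimensional ℚ_[q] M]
    [IsGalois E M] : H2 (Rep.ofAlgebraAutOnUnits E M) →+ AddCircle (1 : ℚ) := invLoc E M

end Padic

end Fermat.Agent.S55lib.LocalH
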