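/-
S55 sprint, block (III): **the local class formation `(Gal(Ω/K₀), Ωˣ)` satisfies helper8's `CFData`**
(all of (CF1)–(CF4)), for `V ≤ U₀` fixing a primitive `p`-th root of unity.
(CF1)–(CF3): `LocalH/LocalCF.lean`; (CF4): helper3's `LocalUnr/CF4Local.lean`, with its two inputs
`(Eˣ : (Eˣ)^p) < ∞` (`LocalH/PowIndex.lean`) and `|H²(F/E)[p]| ≤ p` (from the invariant map).
-/
import Mathlib
import Fermat.Agent.S55lib.LocalH.LocalCF
import Fermat.Agent.S55lib.LocalH.PowIndex
import Fermat.Agent.S55lib.LocalUnr.CF4Local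
import Fermat.Agent.S55lib.LocalH.PadicInv

set_option autoImplicit false
set_option linter.unusedSectionVars false
set_option linter.style.haveILetI false

open scoped NormedField Valued NNReal IntermediateField

namespace Fermat.Agent.S55lib.LocalH

open groupCohomology CategoryTheory Rep Fermat.Agent.S55lib Fermat.Agent.S55lib.LocalUnr
  Fermat.Agent.S55lib.CFDual

section

variable {K₀ Ω : Type} [NontriviallyNormedField K₀] [IsUltrametricDist K₀] [ProperSpace K₀]
  [NormedField Ω] [NormedAlgebra K₀ Ω] [IsUltrametricDist Ω] [Algebra.IsIntegral K₀ Ω]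
  [HasUnitRoots K₀ Ω] [IsGalois K₀ Ω]

/-- the `n`-torsion of `H²(Gal(F/E), Fˣ)` has at most `n` elements -/
theorem card_torsion_H2_le (E : IntermediateField K₀ Ω) [FiniteDimensional K₀ E]
    (F : FiniteGaloisIntermediateField E Ω) (n : ℕ) (hn : n ≠ 0)
    (S : Finset (groupCohomology (Rep.ofAlgebraAutOnUnits E F.toIntermediateField) 2))
    (hS : ∀ y ∈ S, n • y = 0) : S.card ≤ n := by
  classical
  have hreg : IsSMulRegular ℚ n := by
    intro a b hab
    have hn' : (n : ℚ) ≠ 0 := Nat.cast_ne_zero.mpr hn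
    simp only [nsmul_eq_mul] at hab
    exact mul_left_cancel₀ hn' hab
  have h1 := AddCircle.card_torsion_le_of_isSMulRegular (1 : ℚ) n hn hreg
  have hfinT := AddCircle.finite_torsion (1 : ℚ) (Nat.pos_of_ne_zero hn)
  have h1' : hfinT.toFinset.card ≤ n := by
    have h3 := h1
    rw [hfinT.encard_eq_coe_toFinset_card] at h3
    exact_mod_cast h3
  refine le_trans (Finset.card_le_card_of_injOn
    (fun y => invTower E F.toIntermediateField y) ?_ ?_) h1'
  · intro y hy
    rw [Finset.mem_coe, Set.Finite.mem_toFinset]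
    show n • _ = 0
    rw [← map_nsmul, hS y hy, map_zero]
  · intro y _ y' _ h
    exact invTower_injective E F.toIntermediateField h

/-- `(Eˣ)^p` has finite index in `Eˣ` for `E/K₀` finite, `p ≠ 0` in `K₀` -/
theorem finiteIndex_range_pow_sub (p : ℕ) (hp0 : (p : K₀) ≠ 0) (E : IntermediateField K₀ Ω)
    [FiniteDimensional K₀ E] : (powMonoidHom p : (↥E)ˣ →* (↥E)ˣ).range.FiniteIndex := by
  apply normed_finiteIndex_range_pow (↥E) p
  intro h
  apply hp0
  apply (algebraMap K₀ (↥E)).injective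
  rw [map_natCast, h, map_zero]

variable [GalBasis K₀ Ω]

/-- **The local class formation satisfies `CFData`.**  `Ω` has `p`-th roots, `ζ ∈ Ω` is a primitive
`p`-th root of unity fixed by `U₀`, and `p ≠ 0` in `K₀`. -/
theorem localCFData_full (p : ℕ) [Fact p.Prime] (hp0 : (p : K₀) ≠ 0)
    (hroot : ∀ x : Ω, ∃ y : Ω, y ^ p = x) {ζ : Ω} (hζ : IsPrimitiveRoot ζ p)
    (U₀ : Subgroup (Ω ≃ₐ[K₀] Ω)) (hU₀ : ∀ v ∈ U₀, v ζ = ζ) :
    CFData (basis K₀ Ω) p U₀ (unitsRep K₀ Ω) :=
  localCFData p U₀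
    (fun V hV hVU c hc h =>
      cf4_inj_local (basis K₀ Ω) hroot hζ V hV (fun v hv => hU₀ v (hVU hv)) c hc h)
    (fun V hV _ φ =>
      cf4_surj_local (basis K₀ Ω) (fun E _ => finiteIndex_range_pow_sub p hp0 E)
        (fun E _ F S hS => card_torsion_H2_le E F p (Fact.out : p.Prime).ne_zero S hS) V hV φ)

end

section Padic

variable (q : ℕ) [Fact q.Prime] [GalBasis ℚ_[q] (PadicAlgCl q)]

/-- **`(Gal(ℚ̄_q/ℚ_q), ℚ̄_qˣ)` satisfies `CFData`** for every prime `p` (including `p = q`), on the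
open subgroups fixing a primitive `p`-th root of unity. -/
theorem localCFData_padic (p : ℕ) [Fact p.Prime] {ζ : PadicAlgCl q} (hζ : IsPrimitiveRoot ζ p)
    (U₀ : Subgroup (PadicAlgCl q ≃ₐ[ℚ_[q]] PadicAlgCl q)) (hU₀ : ∀ v ∈ U₀, v ζ = ζ) :
    CFData (basis ℚ_[q] (PadicAlgCl q)) p U₀ (unitsRep ℚ_[q] (PadicAlgCl q)) :=
  localCFData_full p (Nat.cast_ne_zero.mpr (Fact.out : p.Prime).ne_zero)
    (fun x => IsAlgClosed.exists_pow_nat_eq x (Fact.out : p.Prime).pos) hζ U₀ hU₀

end Padic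

end Fermat.Agent.S55lib.LocalH
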