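/-
S55 sprint, K5: **local Tate duality in helper8's `K4Statement` form**, for the local class formation
`(Gal(Ω/K₀), Ωˣ)`; `K5 = K4 (local CFData)`.
-/
import Mathlib
import Fermat.Agent.S55lib.LocalH.LocalCFFull
import Fermat.Agent.S55lib.CFDual.Main

set_option autoImplicit false
set_option linter.unusedSectionVars false
set_option linter.style.haveILetI false

open scoped NormedField Valued NNReal IntermediateField

namespace Fermat.Agent.S55lib.LocalH

open groupCohomology CategoryTheory Rep Fermat.Agent.S55lib Fermat.Agent.S55lib.LocalUnr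
  Fermat.Agent.S55lib.CFDual

section

variable {K₀ Ω : Type} [Field K₀] [Field Ω] [Algebra K₀ Ω]

/-- `[K₀(ζ_p) : K₀]` is prime to `p` -/
theorem coprime_finrank_adjoin_primitiveRoot [Algebra.IsIntegral K₀ Ω] (p : ℕ) (hp : p.Prime)
    {ζ : Ω} (hζ : IsPrimitiveRoot ζ p) : Nat.Coprime (Module.finrank K₀ K₀⟮ζ⟯) p := by
  have hint : IsIntegral K₀ ζ := Algebra.IsIntegral.isIntegral ζ
  rw [IntermediateField.adjoin.finrank hint]
  have hroot : Polynomial.aeval ζ (Polynomial.cyclotomic p K₀) = 0 := by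
    have h1 : (Polynomial.cyclotomic p Ω).IsRoot ζ := hζ.isRoot_cyclotomic hp.pos
    rw [Polynomial.aeval_def, Polynomial.eval₂_eq_eval_map, Polynomial.map_cyclotomic]
    exact h1
  have hdvd : minpoly K₀ ζ ∣ Polynomial.cyclotomic p K₀ := minpoly.dvd K₀ ζ hroot
  have hle : (minpoly K₀ ζ).natDegree ≤ p - 1 := by
    have h2 := Polynomial.natDegree_le_of_dvd hdvd (Polynomial.cyclotomic_ne_zero p K₀)
    rwa [Polynomial.natDegree_cyclotomic, Nat.totient_prime hp] at h2
  have hpos : 0 < (minpoly K₀ ζ).natDegree := minpoly.natDegree_pos hint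
  have hlt : (minpoly K₀ ζ).natDegree < p := by
    have := hp.pos
    omega
  exact ((Nat.Prime.coprime_iff_not_dvd hp).mpr (Nat.not_dvd_of_pos_of_lt hpos hlt)).symm

end

section

variable {K₀ Ω : Type} [NontriviallyNormedField K₀] [IsUltrametricDist K₀] [ProperSpace K₀]
  [NormedField Ω] [NormedAlgebra K₀ Ω] [IsUltrametricDist Ω] [Algebra.IsIntegral K₀ Ω]
  [HasUnitRoots K₀ Ω] [IsGalois K₀ Ω] [GalBasis K₀ Ω]

/-- **K5 (local Tate duality, `K4Statement` form)** for the local class formation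
`(Gal(Ω/K₀), Ωˣ)`: `Ω` has `p`-th roots and a primitive `p`-th root of unity, `p ≠ 0` in `K₀`. -/
theorem local_k4Statement (p : ℕ) [Fact p.Prime] (hp0 : (p : K₀) ≠ 0)
    (hroot : ∀ x : Ω, ∃ y : Ω, y ^ p = x) {ζ : Ω} (hζ : IsPrimitiveRoot ζ p) :
    K4Statement (basis K₀ Ω) p (unitsRep K₀ Ω) := by
  have hint : IsIntegral K₀ ζ := Algebra.IsIntegral.isIntegral ζ
  haveI : FiniteDimensional K₀ K₀⟮ζ⟯ := IntermediateField.adjoin.finiteDimensional hint
  have hU₀ : ∀ v ∈ (K₀⟮ζ⟯).fixingSubgroup, v ζ = ζ := fun v hv =>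
    (IntermediateField.mem_fixingSubgroup_iff _ _).mp hv ζ
      (IntermediateField.mem_adjoin_simple_self K₀ ζ)
  refine k4_of_cfData (basis K₀ Ω) p (localCFData_full p hp0 hroot hζ _ hU₀)
    (isSm_unitsRep K₀ Ω (basis K₀ Ω)) (isOpen_fixingSubgroup (basis K₀ Ω) K₀⟮ζ⟯) ?_
  rw [← IntermediateField.finrank_eq_fixingSubgroup_index]
  exact coprime_finrank_adjoin_primitiveRoot p Fact.out hζ

end

section Padic

variable (q : ℕ) [Fact q.Prime] [GalBasis ℚ_[q] (PadicAlgCl q)]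

/-- **K5 over `ℚ_q`**: local Tate duality (`K4Statement`) for `(Gal(ℚ̄_q/ℚ_q), ℚ̄_qˣ)` and every
prime `p`. -/
theorem padic_k4Statement (p : ℕ) [Fact p.Prime] :
    K4Statement (basis ℚ_[q] (PadicAlgCl q)) p (unitsRep ℚ_[q] (PadicAlgCl q)) := by
  haveI : NeZero ((p : ℕ) : PadicAlgCl q) := ⟨Nat.cast_ne_zero.mpr (Fact.out : p.Prime).ne_zero⟩
  obtain ⟨ζ, hζ⟩ := HasEnoughRootsOfUnity.exists_primitiveRoot (PadicAlgCl q) p
  exact local_k4Statement p (Nat.cast_ne_zero.mpr (Fact.out : p.Prime).ne_zero)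
    (fun x => IsAlgClosed.exists_pow_nat_eq x (Fact.out : p.Prime).pos) hζ

end Padic

end Fermat.Agent.S55lib.LocalH
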