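/-
S55 sprint: the absolute local invariant `invG` on `H²_sm(Gal(Ω/K₀), Ωˣ)` computed at finite levels:
`invG (inflH₀ N y) = invBase N y` (helper3's absolute dictionary `inflH₀`).
-/
import Mathlib
import Fermat.Agent.S55lib.LocalH.LocalCF
import Fermat.Agent.S55lib.LocalUnr.FormationAbs
import Fermat.Agent.S55lib.LocalH.LocalInvBase

set_option autoImplicit false
set_option linter.unusedSectionVars false
set_option linter.style.haveILetI false

open scoped NormedField Valued NNReal IntermediateField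

namespace Fermat.Agent.S55lib.LocalH

open groupCohomology CategoryTheory Rep Fermat.Agent.S55lib Fermat.Agent.S55lib.LocalUnr

section

variable {K₀ Ω : Type} [Field K₀] [Field Ω] [Algebra K₀ Ω] [IsGalois K₀ Ω] [GalBasis K₀ Ω]

/-- restriction to `Gal(Ω/⊥)` of a class inflated from the finite level `N/K₀` -/
theorem resGV_bot_inflH₀ (N : IntermediateField K₀ Ω) [FiniteDimensional K₀ N] [IsGalois K₀ N]
    (n : ℕ) (y : groupCohomology (Rep.ofAlgebraAutOnUnits K₀ N) n) :
    (resGV (⊥ : IntermediateField K₀ Ω)).mapH n (inflH₀ N n y) =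
      inflL (⊥ : IntermediateField K₀ Ω) N n
        (galMap K₀ (⊥ : IntermediateField K₀ Ω) N N n y) :=
  mapG_inflH₀ (⊥ : IntermediateField K₀ Ω) N (towerOf (⊥ : IntermediateField K₀ Ω) N) le_rfl y

end

section

variable {K₀ Ω : Type} [NontriviallyNormedField K₀] [IsUltrametricDist K₀] [ProperSpace K₀]
  [NormedField Ω] [NormedAlgebra K₀ Ω] [IsUltrametricDist Ω] [Algebra.IsIntegral K₀ Ω]
  [HasUnitRoots K₀ Ω] [IsGalois K₀ Ω] [GalBasis K₀ Ω]

/-- **the absolute invariant at finite level**: `inv_{K₀} (inf y) = inv_{N/K₀} y` -/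
theorem invG_inflH₀ (N : IntermediateField K₀ Ω) [FiniteDimensional K₀ N] [IsGalois K₀ N]
    (y : H2 (Rep.ofAlgebraAutOnUnits K₀ N)) : invG (inflH₀ N 2 y) = invBase N y := by
  rw [invG_apply, resGV_bot_inflH₀, invSm_inflL, invBase_apply]

/-- every smooth class of `Gal(Ω/K₀)` is inflated from a finite level, where `invG` is `invBase` -/
theorem exists_invG_eq_invBase (x : Hsm (basis K₀ Ω) (unitsRep K₀ Ω) 2) :
    ∃ (N : FiniteGaloisIntermediateField K₀ Ω)
      (y : H2 (Rep.ofAlgebraAutOnUnits K₀ N.toIntermediateField)),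
      inflH₀ N.toIntermediateField 2 y = x ∧ invG x = invBase N.toIntermediateField y := by
  obtain ⟨N, -, y, hy⟩ := exists_inflH₀_eq (⊥ : FiniteGaloisIntermediateField K₀ Ω) x
  exact ⟨N, y, hy, by rw [← hy, invG_inflH₀]⟩

end

end Fermat.Agent.S55lib.LocalH
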