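/-
S55 sprint: the local formation `(Gal(Ω/K₀), Ωˣ)` in helper4's `LevelDict` API (`Lvl`, `LvlSystem`),
the absolute local invariant at a level, and the identification of the `p`-torsion of
`H²_sm(Gal(Ω/K₀), Ωˣ)` with `ZMod p`.
-/
import Mathlib
import Fermat.Agent.S55lib.Iface.LevelDict
import Fermat.Agent.S55lib.LocalH.InvGLevel

set_option autoImplicit false
set_option linter.unusedSectionVars false
set_option linter.style.haveILetI false

open scoped NormedField Valued NNReal IntermediateField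

namespace Fermat.Agent.S55lib.LocalH

open groupCohomology CategoryTheory Rep Fermat.Agent.S55lib Fermat.Agent.S55lib.LocalUnr

section Abs

variable {K₀ Ω : Type} [Field K₀] [Field Ω] [Algebra K₀ Ω] [IsGalois K₀ Ω] [GalBasis K₀ Ω]

/-- **the level of `Ωˣ` at a finite Galois extension `N/K₀`**: `Γ = Gal(N/K₀)`, `B = Nˣ` -/
noncomputable def absLvl (N : IntermediateField K₀ Ω) [FiniteDimensional K₀ N] [IsGalois K₀ N] :
    Lvl (basis K₀ Ω) (unitsRep K₀ Ω) where
  Γ := N ≃ₐ[K₀] N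
  r := resG N
  B := Rep.ofAlgebraAutOnUnits K₀ N
  j := unitsIncl₀ N
  r_surj := resG_surjective N
  j_inj := unitsIncl₀_injective N
  open_ker := exists_le_ker_resG N
  range_j := by
    intro a ha
    have hmem : ((uVal (K := K₀) (L := Ω) a : Ωˣ) : Ω) ∈ N := by
      apply mem_of_fixed N
      intro τ hτ
      have hτker : τ ∈ (resG N).ker := by rw [ker_resG]; exact hτ
      have h1 := ha τ hτker
      exact congrArg (fun b => ((uVal (K := K₀) (L := Ω) b : Ωˣ) : Ω)) h1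
    refine ⟨uRep K₀ (unitOfMem₀ N (uVal (K := K₀) (L := Ω) a) hmem), ?_⟩
    refine Eq.trans ?_ (uRep_uVal (K := K₀) (L := Ω) a)
    refine congrArg (uRep K₀) (Units.ext ?_)
    rfl

theorem absLvl_inflH (N : IntermediateField K₀ Ω) [FiniteDimensional K₀ N] [IsGalois K₀ N] (n : ℕ)
    (y : groupCohomology (Rep.ofAlgebraAutOnUnits K₀ N) n) :
    (absLvl N).inflH n y = inflH₀ N n y := rfl

/-- the transition morphism between the levels `N ≤ N'` -/
noncomputable def absLvlHom (N N' : IntermediateField K₀ Ω) (h : N ≤ N')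
    [FiniteDimensional K₀ N] [IsGalois K₀ N] [FiniteDimensional K₀ N'] [IsGalois K₀ N'] :
    Lvl.Hom (absLvl N) (absLvl N') :=
  letI := towerAlgebra₀ N N' h
  haveI := tower₀_isScalarTower N N' h
  { ρ := LocalUnr.resHom K₀ K₀ N N'
    φ := galUnitsMap K₀ K₀ N N'
    hρ := fun σ => resHom_resG N N' h σ
    hφ := fun b => by
      refine congrArg (uRep K₀) (Units.ext ?_)
      rfl }

/-- **the cofinal system of all finite Galois levels** -/
noncomputable def absSystem : LvlSystem (basis K₀ Ω) (unitsRep K₀ Ω) where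
  ι := FiniteGaloisIntermediateField K₀ Ω
  lvl N := absLvl N.toIntermediateField
  le N N' := N ≤ N'
  le_trans h h' := le_trans h h'
  hom h := absLvlHom _ _ h
  cofinal N₀ _ hU := exists_ker_resG_le N₀ hU

end Abs

section Inv

variable {K₀ Ω : Type} [NontriviallyNormedField K₀] [IsUltrametricDist K₀] [ProperSpace K₀]
  [NormedField Ω] [NormedAlgebra K₀ Ω] [IsUltrametricDist Ω] [Algebra.IsIntegral K₀ Ω]
  [HasUnitRoots K₀ Ω] [IsGalois K₀ Ω] [GalBasis K₀ Ω]

/-- **the absolute invariant at a level**: `invG (inf y) = invBase N y` -/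
theorem invG_absLvl_inflH (N : IntermediateField K₀ Ω) [FiniteDimensional K₀ N] [IsGalois K₀ N]
    (y : H2 (Rep.ofAlgebraAutOnUnits K₀ N)) : invG ((absLvl N).inflH 2 y) = invBase N y :=
  invG_inflH₀ N y

/-- `H²_sm(Gal(Ω/K₀), Ωˣ) ≃ ℚ/ℤ` -/
noncomputable def invGEquiv : Hsm (basis K₀ Ω) (unitsRep K₀ Ω) 2 ≃+ AddCircle (1 : ℚ) :=
  AddEquiv.ofBijective invG ⟨invG_injective, invG_surjective⟩

theorem invGEquiv_apply (x : Hsm (basis K₀ Ω) (unitsRep K₀ Ω) 2) : invGEquiv x = invG x := rfl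

/-- the `p`-torsion subgroup of `H²_sm(Gal(Ω/K₀), Ωˣ)` -/
noncomputable def torsG (p : ℕ) : AddSubgroup (Hsm (basis K₀ Ω) (unitsRep K₀ Ω) 2) :=
  (nsmulAddMonoidHom p : Hsm (basis K₀ Ω) (unitsRep K₀ Ω) 2 →+ _).ker

theorem mem_torsG {p : ℕ} {x : Hsm (basis K₀ Ω) (unitsRep K₀ Ω) 2} :
    x ∈ torsG (K₀ := K₀) (Ω := Ω) p ↔ p • x = 0 := Iff.rfl

/-- the class of invariant `k/p` -/
noncomputable def ofZModFun (p : ℕ) [NeZero p] (k : ZMod p) :
    torsG (K₀ := K₀) (Ω := Ω) p :=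
  ⟨invGEquiv.symm (zmodToQZ p k), by
    rw [mem_torsG]
    apply invG_injective
    rw [map_nsmul, ← invGEquiv_apply, AddEquiv.apply_symm_apply, map_zero, ← map_nsmul]
    have : p • k = 0 := by
      rw [nsmul_eq_mul, ZMod.natCast_self, zero_mul]
    rw [this, map_zero]⟩

theorem invG_ofZModFun (p : ℕ) [NeZero p] (k : ZMod p) :
    invG ((ofZModFun (K₀ := K₀) (Ω := Ω) p k : torsG p) : Hsm (basis K₀ Ω) (unitsRep K₀ Ω) 2) =
      zmodToQZ p k := by
  show invG (invGEquiv.symm (zmodToQZ p k)) = _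
  rw [← invGEquiv_apply, AddEquiv.apply_symm_apply]

/-- `ZMod p → H²[p]`, additive -/
noncomputable def ofZMod (p : ℕ) [NeZero p] : ZMod p →+ torsG (K₀ := K₀) (Ω := Ω) p where
  toFun := ofZModFun p
  map_zero' := by
    apply Subtype.ext
    apply invG_injective
    rw [invG_ofZModFun, map_zero]
    exact (map_zero _).symm
  map_add' k k' := by
    apply Subtype.ext
    apply invG_injective
    rw [invG_ofZModFun, AddSubgroup.coe_add, map_add, map_add, invG_ofZModFun, invG_ofZModFun]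

theorem ofZMod_bijective (p : ℕ) [NeZero p] :
    Function.Bijective (ofZMod (K₀ := K₀) (Ω := Ω) p) := by
  constructor
  · intro k k' h
    apply zmodToQZ_injective p
    have h1 := congrArg (fun t : torsG (K₀ := K₀) (Ω := Ω) p =>
      invG (t : Hsm (basis K₀ Ω) (unitsRep K₀ Ω) 2)) h
    simpa only [ofZMod, AddMonoidHom.coe_mk, ZeroHom.coe_mk, invG_ofZModFun] using h1
  · rintro ⟨x, hx⟩
    rw [mem_torsG] at hx
    obtain ⟨r, hr⟩ := QuotientAddGroup.mk_surjective (invG x)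
    have h0 : ((p • r : ℚ) : AddCircle (1 : ℚ)) = 0 := by
      rw [AddCircle.coe_nsmul]
      have : (↑r : AddCircle (1 : ℚ)) = invG x := hr
      rw [this, ← map_nsmul, hx, map_zero]
    rw [AddCircle.coe_eq_zero_iff] at h0
    obtain ⟨k, hk⟩ := h0
    refine ⟨(k : ZMod p), ?_⟩
    apply Subtype.ext
    apply invG_injective
    have h3 := invG_ofZModFun (K₀ := K₀) (Ω := Ω) p (k : ZMod p)
    refine h3.trans ?_
    rw [zmodToQZ_intCast]
    refine Eq.trans ?_ hr
    have hp : (p : ℚ) ≠ 0 := Nat.cast_ne_zero.mpr (NeZero.ne p)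
    rw [zsmul_eq_mul, mul_one, nsmul_eq_mul] at hk
    have h4 : (k : ℚ) / (p : ℚ) = r := by
      rw [hk]
      field_simp
    rw [h4]

/-- **`ι_p : H²_sm(Gal(Ω/K₀), Ωˣ)[p] ≃+ ZMod p`**, characterised by
`invG x = (ι_p x)/p` (`invG_eq_zmodToQZ_iotaP`). -/
noncomputable def iotaP (p : ℕ) [NeZero p] : torsG (K₀ := K₀) (Ω := Ω) p ≃+ ZMod p :=
  (AddEquiv.ofBijective (ofZMod p) (ofZMod_bijective p)).symm

theorem invG_eq_zmodToQZ_iotaP (p : ℕ) [NeZero p] (x : torsG (K₀ := K₀) (Ω := Ω) p) :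
    invG (x : Hsm (basis K₀ Ω) (unitsRep K₀ Ω) 2) = zmodToQZ p (iotaP p x) := by
  have h1 : ofZMod p (iotaP p x) = x :=
    (AddEquiv.ofBijective (ofZMod p) (ofZMod_bijective p)).apply_symm_apply x
  have h2 := invG_ofZModFun (K₀ := K₀) (Ω := Ω) p (iotaP p x)
  rw [← h2]
  exact congrArg (fun t : torsG (K₀ := K₀) (Ω := Ω) p =>
    invG (t : Hsm (basis K₀ Ω) (unitsRep K₀ Ω) 2)) h1.symm

/-- `ι_p` is determined by `invG` -/
theorem iotaP_eq_iff (p : ℕ) [NeZero p] (x : torsG (K₀ := K₀) (Ω := Ω) p) (k : ZMod p) :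
    iotaP p x = k ↔ invG (x : Hsm (basis K₀ Ω) (unitsRep K₀ Ω) 2) = zmodToQZ p k := by
  rw [invG_eq_zmodToQZ_iotaP]
  exact ⟨fun h => by rw [h], fun h => zmodToQZ_injective p h⟩

end Inv

end Fermat.Agent.S55lib.LocalH
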