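/-
S55 sprint: the local levels, the absolute local invariant and `ι_{q,p}` for helper7's local triple
`(Gloc q, basisLoc q, Yloc q)`.
-/
import Mathlib
import Fermat.Agent.S55lib.LocalH.LocalLvl
import Fermat.Agent.S55lib.LocalH.PadicInv
import Fermat.Agent.S55lib.LocalUnr.LevelBasis
import Fermat.Agent.S55lib.GlobDual.JSCoind

set_option autoImplicit false
set_option linter.unusedSectionVars false
set_option linter.style.haveILetI false

open scoped NormedField Valued NNReal IntermediateField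

namespace Fermat.Agent.S55lib.LocalH

open groupCohomology CategoryTheory Rep Fermat.Agent.S55lib Fermat.Agent.S55lib.LocalUnr

section

variable (q : Nat.Primes)

/-- the level of `Y_q = ℚ̄_qˣ` at a finite Galois `N/ℚ_q`, for helper7's `(Gloc q, basisLoc q, Yloc q)` -/
noncomputable def locLvl (N : IntermediateField ℚ_[(q : ℕ)] (PadicAlgCl (q : ℕ)))
    [FiniteDimensional ℚ_[(q : ℕ)] N] [IsGalois ℚ_[(q : ℕ)] N] : Lvl (basisLoc q) (Yloc q) :=
  letI := galBasisLevel q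
  absLvl N

/-- the local invariant `inv_q : H²_sm(G_q, ℚ̄_qˣ) →+ ℚ/ℤ` on helper7's local triple -/
noncomputable def invQ : Hsm (basisLoc q) (Yloc q) 2 →+ AddCircle (1 : ℚ) :=
  letI := galBasisLevel q
  invG (K₀ := ℚ_[(q : ℕ)]) (Ω := PadicAlgCl (q : ℕ))

theorem invQ_injective : Function.Injective (invQ q) :=
  letI := galBasisLevel q
  invG_injective (K₀ := ℚ_[(q : ℕ)]) (Ω := PadicAlgCl (q : ℕ))

theorem invQ_surjective : Function.Surjective (invQ q) :=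
  letI := galBasisLevel q
  invG_surjective (K₀ := ℚ_[(q : ℕ)]) (Ω := PadicAlgCl (q : ℕ))

/-- **`inv_q (inf y) = inv_{N/ℚ_q} y`** -/
theorem invQ_locLvl_inflH (N : IntermediateField ℚ_[(q : ℕ)] (PadicAlgCl (q : ℕ)))
    [FiniteDimensional ℚ_[(q : ℕ)] N] [IsGalois ℚ_[(q : ℕ)] N]
    (y : H2 (Rep.ofAlgebraAutOnUnits ℚ_[(q : ℕ)] N)) :
    invQ q ((locLvl q N).inflH 2 y) = invBase N y :=
  letI := galBasisLevel q
  invG_absLvl_inflH N y

/-- the `p`-torsion of `H²_sm(G_q, ℚ̄_qˣ)` -/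
noncomputable def torsQ (p : ℕ) : AddSubgroup (Hsm (basisLoc q) (Yloc q) 2) :=
  (nsmulAddMonoidHom p : Hsm (basisLoc q) (Yloc q) 2 →+ _).ker

theorem mem_torsQ {p : ℕ} {x : Hsm (basisLoc q) (Yloc q) 2} : x ∈ torsQ q p ↔ p • x = 0 := Iff.rfl

/-- **`ι_{q,p} : H²_sm(G_q, ℚ̄_qˣ)[p] ≃+ ZMod p`** -/
noncomputable def iotaQP (p : ℕ) [NeZero p] : torsQ q p ≃+ ZMod p :=
  letI := galBasisLevel q
  iotaP (K₀ := ℚ_[(q : ℕ)]) (Ω := PadicAlgCl (q : ℕ)) p

theorem invQ_eq_zmodToQZ_iotaQP (p : ℕ) [NeZero p] (x : torsQ q p) :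
    invQ q (x : Hsm (basisLoc q) (Yloc q) 2) = zmodToQZ p (iotaQP q p x) :=
  letI := galBasisLevel q
  invG_eq_zmodToQZ_iotaP (K₀ := ℚ_[(q : ℕ)]) (Ω := PadicAlgCl (q : ℕ)) p x

theorem iotaQP_eq_iff (p : ℕ) [NeZero p] (x : torsQ q p) (k : ZMod p) :
    iotaQP q p x = k ↔ invQ q (x : Hsm (basisLoc q) (Yloc q) 2) = zmodToQZ p k :=
  letI := galBasisLevel q
  iotaP_eq_iff (K₀ := ℚ_[(q : ℕ)]) (Ω := PadicAlgCl (q : ℕ)) p x k

end

end Fermat.Agent.S55lib.LocalH
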