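/-
S55 sprint, K5 for helper7's local triple `(Gloc q, basisLoc q, Yloc q)`.
-/
import Mathlib
import Fermat.Agent.S55lib.LocalH.LocalK5
import Fermat.Agent.S55lib.LocalH.LocalLvlPrimes

set_option autoImplicit false
set_option linter.unusedSectionVars false
set_option linter.style.haveILetI false

namespace Fermat.Agent.S55lib.LocalH

open Fermat.Agent.S55lib Fermat.Agent.S55lib.LocalUnr Fermat.Agent.S55lib.CFDual

/-- **K5**: local Tate duality (`K4Statement`) for `(Gloc q, basisLoc q, Yloc q)`, every prime `p` -/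
theorem k4Statement_loc (q : Nat.Primes) (p : ℕ) [Fact p.Prime] :
    K4Statement (basisLoc q) p (Yloc q) :=
  letI := galBasisLevel q
  padic_k4Statement (q : ℕ) p

/-- the local class formation data for `(Gloc q, basisLoc q, Yloc q)` -/
theorem cfData_loc (q : Nat.Primes) (p : ℕ) [Fact p.Prime] {ζ : PadicAlgCl (q : ℕ)}
    (hζ : IsPrimitiveRoot ζ p) (U₀ : Subgroup (Gloc q))
    (hU₀ : ∀ v ∈ U₀, (glocEquiv q v) ζ = ζ) : CFData (basisLoc q) p U₀ (Yloc q) :=
  letI := galBasisLevel q
  localCFData_padic (q : ℕ) p hζ U₀ hU₀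

end Fermat.Agent.S55lib.LocalH
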