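/-
S55lib / LocalH / K9Local (helper6).
**(K9-III), local parts (a),(b)** at the finite level `M = ℚ(ζ_{p^(m+1)})` (abstract cyclotomic
field), for a character `χ : Aut(M/ℚ) → ZMod (p^m)`:
* `k9_local_tame` (`q ≠ p`, `m = v_p(q^(p-1) - 1)`, `χ σ_q = toAdd (lam q)`): the class
  `z = q ∪ δχ ∈ H²(Aut(M/ℚ), J_q(M))` satisfies `p • z = 0` and `z ≠ 0`;
* `k9_local_wild` (`q = p`): `p ^ m • (a ∪ δχ) = 0` for every `a` (trivial).
-/
import Mathlib
import Fermat.Agent.S55lib.LocalH.K9TameInv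
import Fermat.Agent.S55lib.Places.LamChar
import Fermat.Agent.S55lib.Recip.TateGen

set_option autoImplicit false
set_option linter.unusedSectionVars false
set_option linter.style.haveILetI false

noncomputable section

namespace Fermat.Agent.S55lib.LocalH

open Fermat.Agent.S55lib Fermat.Agent.S55lib.Recip Fermat.Agent.S55lib.LocalUnr
  Fermat.Agent.S55lib.Places Fermat.Agent.S55lib.CycloArith groupCohomology

variable {p : ℕ} [hp : Fact p.Prime] {m : ℕ}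
  (lam : (ZMod (p ^ (m + 1)))ˣ →* Multiplicative (ZMod (p ^ m)))

/-- **(K9-III)(a),(b) at `q ≠ p`**: with `m = v_p(q^(p-1) - 1)`, the class `q ∪ δχ` of
`H²(Aut(M/ℚ), J_q(M))`, `M = ℚ(ζ_{p^(m+1)})`, has order exactly `p`. -/
theorem k9_local_tame (hlam : Function.Surjective lam) (hp2 : p ≠ 2) {q : ℕ} [hq : Fact q.Prime]
    (hqp : q ≠ p) (hm : padicValNat p (q ^ (p - 1) - 1) = m)
    {M : Type} [Field M] [NumberField M] [IsCyclotomicExtension {p ^ (m + 1)} ℚ M] [IsGalois ℚ M]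
    {ζ : M} (hζ : IsPrimitiveRoot ζ (p ^ (m + 1))) (σ : M ≃ₐ[ℚ] M) (hσ : σ ζ = ζ ^ q)
    (χ : (M ≃ₐ[ℚ] M) → ZMod (p ^ m)) (hχ : ∀ g h, χ (g * h) = χ g + χ h)
    (hχσ : χ σ = Multiplicative.toAdd (lam (natUnit (p ^ (m + 1)) q))) :
    p • cupδ (A := JqRep q M) χ hχ (Additive.ofMul (ratJq M (unifQ : ℚ_[q]ˣ)))
        (ratJq_invariant unifQ) = 0 ∧
      cupδ (A := JqRep q M) χ hχ (Additive.ofMul (ratJq M (unifQ : ℚ_[q]ˣ)))
        (ratJq_invariant unifQ) ≠ 0 := by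
  haveI : NeZero (p ^ m) := ⟨pow_ne_zero _ hp.out.ne_zero⟩
  have hN : ¬ q ∣ p ^ (m + 1) := by
    intro h
    have h1 := (Nat.prime_dvd_prime_iff_eq hq.out hp.out).mp (hq.out.dvd_of_dvd_pow h)
    exact hqp h1
  have hpq : ¬ p ∣ q := by
    intro h
    exact hqp ((Nat.prime_dvd_prime_iff_eq hp.out hq.out).mp h).symm
  have hord := orderOf_lam_natUnit lam hlam hp2 hq.out.one_lt hpq (by rw [hm]; omega)
  rw [hm, Nat.add_sub_cancel_left, pow_one] at hord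
  constructor
  · have h1 : lam (natUnit (p ^ (m + 1)) q) ^ p = 1 := by
      have h2 := pow_orderOf_eq_one (lam (natUnit (p ^ (m + 1)) q))
      rwa [hord] at h2
    rw [nsmul_cupδ_ratJq_unifQ_eq_zero_iff hN hζ σ hσ χ hχ p, hχσ, ← toAdd_pow, h1, toAdd_one]
  · intro h0
    have h1 := (nsmul_cupδ_ratJq_unifQ_eq_zero_iff hN hζ σ hσ χ hχ 1).mp (by rw [one_nsmul, h0])
    rw [one_nsmul, hχσ] at h1
    have h2 : lam (natUnit (p ^ (m + 1)) q) = 1 := Multiplicative.toAdd.injective h1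
    rw [h2, orderOf_one] at hord
    exact hp.out.one_lt.ne hord

omit hp in
/-- an automorphism with `σ ζ = ζ ^ k` has cyclotomic character `natUnit N k` -/
theorem autToPow_eq_natUnit {N : ℕ} [NeZero N] {M : Type} [Field M] [Algebra ℚ M] {ζ : M}
    (hζ : IsPrimitiveRoot ζ N) (σ : M ≃ₐ[ℚ] M) (k : ℕ) (hσ : σ ζ = ζ ^ k) :
    hζ.autToPow ℚ σ = natUnit N k := by
  apply eq_natUnit_of_coe_eq
  have h1 : ζ ^ ((hζ.autToPow ℚ σ : (ZMod N)ˣ) : ZMod N).val = ζ ^ k := by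
    rw [hζ.autToPow_spec ℚ σ, hσ]
  rw [← natCast_eq_of_pow_eq hζ h1, ZMod.natCast_zmod_val]

/-- **(K9-III)(a),(b) at `q ≠ p`, for the character `toAdd ∘ lam ∘ autToPow`** -/
theorem k9_local_tame_autToPow (hlam : Function.Surjective lam) (hp2 : p ≠ 2) {q : ℕ}
    [hq : Fact q.Prime] (hqp : q ≠ p) (hm : padicValNat p (q ^ (p - 1) - 1) = m)
    {M : Type} [Field M] [NumberField M] [IsCyclotomicExtension {p ^ (m + 1)} ℚ M] [IsGalois ℚ M]
    {ζ : M} (hζ : IsPrimitiveRoot ζ (p ^ (m + 1)))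
    (χ : (M ≃ₐ[ℚ] M) → ZMod (p ^ m)) (hχ : ∀ g h, χ (g * h) = χ g + χ h)
    (hχdef : ∀ γ, χ γ = Multiplicative.toAdd (lam (hζ.autToPow ℚ γ))) :
    p • cupδ (A := JqRep q M) χ hχ (Additive.ofMul (ratJq M (unifQ : ℚ_[q]ˣ)))
        (ratJq_invariant unifQ) = 0 ∧
      cupδ (A := JqRep q M) χ hχ (Additive.ofMul (ratJq M (unifQ : ℚ_[q]ˣ)))
        (ratJq_invariant unifQ) ≠ 0 := by
  haveI : NeZero (p ^ (m + 1)) := ⟨pow_ne_zero _ hp.out.ne_zero⟩
  have hcop : Nat.Coprime q (p ^ (m + 1)) :=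
    Nat.Coprime.pow_right _ ((Nat.coprime_primes hq.out hp.out).mpr hqp)
  have hσ : sigmaNat (p ^ (m + 1)) M q ζ = ζ ^ q := sigmaNat_apply hζ hcop
  refine k9_local_tame lam hlam hp2 hqp hm hζ (sigmaNat (p ^ (m + 1)) M q) hσ χ hχ ?_
  rw [hχdef, autToPow_eq_natUnit hζ _ q hσ]

omit hp in
/-- **(K9-III)(a) at `q = p`** (and in general): `p ^ m` kills `a ∪ δχ` for `χ` with values in
`ZMod (p ^ m)`. -/
theorem k9_local_wild [NeZero (p ^ m)] {q : ℕ} [Fact q.Prime]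
    {M : Type} [Field M] [Algebra ℚ M] (χ : (M ≃ₐ[ℚ] M) → ZMod (p ^ m))
    (hχ : ∀ g h, χ (g * h) = χ g + χ h) (a : ℚ_[q]ˣ) :
    p ^ m • cupδ (A := JqRep q M) χ hχ (Additive.ofMul (ratJq M a)) (ratJq_invariant a) = 0 :=
  Recip.nsmul_cupδ_eq_zero hχ (fun g => by
    rw [nsmul_eq_mul, ZMod.natCast_self, zero_mul]) _ _

end Fermat.Agent.S55lib.LocalH
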