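/-
S55lib / LocalH / LNAll (helper6).
**(LN) for every number field `M ∋ ζ_{p^(m+1)}`** (`p` odd): R3 (lead's `Places.lnAt_of_ne`) + R4
(`LocalH.lnAt_self`).
-/
import Mathlib
import Fermat.Agent.S55lib.LocalH.LNWild
import Fermat.Agent.S55lib.Places.LNTame

set_option autoImplicit false

namespace Fermat.Agent.S55lib.LocalH

open Fermat.Agent.S55lib Fermat.Agent.S55lib.Places Fermat.Agent.S55lib.Recip

variable {p : ℕ} [hp : Fact p.Prime] {m : ℕ}
  (lam : (ZMod (p ^ (m + 1)))ˣ →* Multiplicative (ZMod (p ^ m)))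

/-- **(LN)**: `Φ` kills all local norms from a number field containing `ζ_{p^(m+1)}` (`p` odd). -/
theorem ln_of_primitiveRoot (hp2 : p ≠ 2) (M : Type) [Field M] [Algebra ℚ M]
    [FiniteDimensional ℚ M] (ζ : M) (hζ : IsPrimitiveRoot ζ (p ^ (m + 1))) : LN p m lam M := by
  refine ln_of_tame lam hp2 M ζ hζ (fun q _ hqp ι => ?_)
  have hmem : ι ζ ∈ localField q M ι := IntermediateField.subset_adjoin _ _ ⟨ζ, rfl⟩
  refine lnAt_of_ne lam hqp (localField q M ι) ⟨ι ζ, hmem⟩ ?_
  apply IsPrimitiveRoot.of_map_of_injective (f := (localField q M ι).val) _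
    (localField q M ι).val.injective
  exact hζ.map_of_injective ι.injective

end Fermat.Agent.S55lib.LocalH
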