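/-
S55lib / LocalH / K9Final (helper6).
**(K9-III) at the finite cyclotomic level, assembled** (local parts: `LocalH/K9Local`; global part
(c): helper2's `Recip/CycloOrd`).  `M = ℚ(ζ_{p^(m+1)})` abstract, `c := hζ.autToPow ℚ`,
`χ := chiOf lam c`, and for a prime `q` and `y ∈ ℚ_qˣ`
`k9Class lam hζ φ q y := y ∪ δχ ∈ H²(Aut M, J_q(M))`.
* `k9_tame` (`q ≠ p`, `m = v_p(q^(p-1)-1)`, `y = q`): `p • z = 0`, `z ≠ 0`, image in `H²(Aut M, C(M))` nonzero;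
* `k9_wild` (`q = p`, `m = 1`, `y = 1 + p`): `p • z = 0`, image in `H²(Aut M, C(M))` nonzero.
-/
import Mathlib
import Fermat.Agent.S55lib.LocalH.K9Local
import Fermat.Agent.S55lib.LocalH.LNAll
import Fermat.Agent.S55lib.Recip.CycloOrd

set_option autoImplicit false
set_option linter.unusedSectionVars false
set_option linter.style.haveILetI false

noncomputable section

namespace Fermat.Agent.S55lib.LocalH

open Fermat.Agent.S55lib Fermat.Agent.S55lib.Recip Fermat.Agent.S55lib.LocalUnr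
  Fermat.Agent.S55lib.Places Fermat.Agent.S55lib.CycloArith Fermat.Agent.S55lib.Dev
  groupCohomology CategoryTheory

variable {p : ℕ} [hp : Fact p.Prime] {m : ℕ}
  (lam : (ZMod (p ^ (m + 1)))ˣ →* Multiplicative (ZMod (p ^ m)))
  {M : Type} [Field M] [NumberField M] [IsCyclotomicExtension {p ^ (m + 1)} ℚ M] [IsGalois ℚ M]
  [Fintype (M ≃ₐ[ℚ] M)] [NeZero (p ^ m)]

/-- the class `y ∪ δχ ∈ H²(Aut M, J_q(M))`, `χ = toAdd ∘ lam ∘ autToPow` (helper2's shape) -/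
def k9Class {ζ : M} (hζ : IsPrimitiveRoot ζ (p ^ (m + 1))) (φ : ℚ →ₐ[ℚ] M) (q : Nat.Primes)
    (y : ℚ_[(q : ℕ)]ˣ) : groupCohomology (jqRep M q) 2 :=
  cupδ (chiOf lam (hζ.autToPow ℚ)) (chiOf_add lam (hζ.autToPow ℚ))
    (Additive.ofMul (Jq.incl φ ((jqRat (q : ℕ)).symm y)) : jqRep M q) (jqIncl_invariant φ q _)

theorem k9Class_eq {ζ : M} (hζ : IsPrimitiveRoot ζ (p ^ (m + 1))) (φ : ℚ →ₐ[ℚ] M)
    (q : Nat.Primes) (y : ℚ_[(q : ℕ)]ˣ) :
    k9Class lam hζ φ q y =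
      cupδ (A := JqRep (q : ℕ) M) (chiOf lam (hζ.autToPow ℚ)) (chiOf_add lam (hζ.autToPow ℚ))
        (Additive.ofMul (ratJq M y)) (ratJq_invariant y) := by
  unfold k9Class
  apply cupδ_congr
  rw [Subsingleton.elim φ (Algebra.ofId ℚ M)]
  rfl

/-- **(K9-III) at `q ≠ p`** -/
theorem k9_tame (hlam : Function.Surjective lam) (hp2 : p ≠ 2) (q : Nat.Primes)
    (hqp : (q : ℕ) ≠ p) (hm : padicValNat p ((q : ℕ) ^ (p - 1) - 1) = m)
    {ζ : M} (hζ : IsPrimitiveRoot ζ (p ^ (m + 1))) (φ : ℚ →ₐ[ℚ] M) :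
    p • k9Class lam hζ φ q (unifQ : ℚ_[(q : ℕ)]ˣ) = 0 ∧
      k9Class lam hζ φ q (unifQ : ℚ_[(q : ℕ)]ˣ) ≠ 0 ∧
      groupCohomology.map (MonoidHom.id (M ≃ₐ[ℚ] M)) (ideleSingleRep M q ≫ ideleToClassRep M) 2
        (k9Class lam hζ φ q (unifQ : ℚ_[(q : ℕ)]ˣ)) ≠ 0 := by
  have hloc := k9_local_tame_autToPow lam hlam hp2 hqp hm hζ (chiOf lam (hζ.autToPow ℚ))
    (chiOf_add lam (hζ.autToPow ℚ)) (fun _ => rfl)
  rw [← k9Class_eq lam hζ φ q] at hloc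
  refine ⟨hloc.1, hloc.2, ?_⟩
  have hLN : LN p m lam M := ln_of_primitiveRoot lam hp2 M ζ hζ
  refine map_cupδ_single_symm_ne_zero lam hlam hp2 hLN (hζ.autToPow ℚ) (autToPow_bijective hζ) φ q
    (unifQ : ℚ_[(q : ℕ)]ˣ) ?_
  rw [phiLoc_unifQ_of_ne lam hqp]
  intro h1
  have hpq : ¬ p ∣ (q : ℕ) := by
    intro h
    exact hqp ((Nat.prime_dvd_prime_iff_eq hp.out q.2).mp h).symm
  have hord := orderOf_lam_natUnit lam hlam hp2 q.2.one_lt hpq (by rw [hm]; omega)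
  rw [hm, Nat.add_sub_cancel_left, pow_one, inv_eq_one.mp h1, orderOf_one] at hord
  exact hp.out.one_lt.ne hord

section Wild

/-- the unit `1 + q ∈ ℤ_qˣ` -/
theorem isUnit_onePlus (q : ℕ) [hq : Fact q.Prime] : IsUnit ((1 + q : ℕ) : ℤ_[q]) := by
  rw [PadicInt.isUnit_iff, PadicInt.norm_natCast_eq_one_iff]
  exact (Nat.coprime_add_self_left.mpr (Nat.coprime_one_left q)).symm

/-- the unit `1 + q ∈ ℤ_qˣ` -/
def onePlus (q : ℕ) [hq : Fact q.Prime] : ℤ_[q]ˣ := (isUnit_onePlus q).unit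

theorem coe_onePlus (q : ℕ) [hq : Fact q.Prime] :
    ((onePlus q : ℤ_[q]ˣ) : ℤ_[q]) = ((1 + q : ℕ) : ℤ_[q]) := (isUnit_onePlus q).unit_spec

theorem unitsRed_onePlus (q : ℕ) [hq : Fact q.Prime] (k : ℕ) :
    unitsRed (q := q) k (onePlus q) = natUnit (q ^ k) (1 + q) := by
  apply eq_natUnit_of_coe_eq
  rw [coe_unitsRed, coe_onePlus, map_natCast]

variable {p : ℕ} [hp : Fact p.Prime]
  (lam : (ZMod (p ^ (1 + 1)))ˣ →* Multiplicative (ZMod (p ^ 1)))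
  {M : Type} [Field M] [NumberField M] [IsCyclotomicExtension {p ^ (1 + 1)} ℚ M] [IsGalois ℚ M]
  [Fintype (M ≃ₐ[ℚ] M)] [NeZero (p ^ 1)]

/-- **(K9-III) at `q = p`** (`m = 1`, `y = 1 + p`) -/
theorem k9_wild (hlam : Function.Surjective lam) (hp2 : p ≠ 2) (q : Nat.Primes)
    (hqp : (q : ℕ) = p) {ζ : M} (hζ : IsPrimitiveRoot ζ (p ^ (1 + 1))) (φ : ℚ →ₐ[ℚ] M) :
    p • k9Class lam hζ φ q (Places.unitsIncl (onePlus (q : ℕ))) = 0 ∧
      groupCohomology.map (MonoidHom.id (M ≃ₐ[ℚ] M)) (ideleSingleRep M q ≫ ideleToClassRep M) 2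
        (k9Class lam hζ φ q (Places.unitsIncl (onePlus (q : ℕ)))) ≠ 0 := by
  constructor
  · unfold k9Class
    refine Recip.nsmul_cupδ_eq_zero _ (fun g => ?_) _ _
    rw [nsmul_eq_mul, (ZMod.natCast_eq_zero_iff p (p ^ 1)).mpr (by rw [pow_one]), zero_mul]
  · have hLN : LN p 1 lam M := ln_of_primitiveRoot lam hp2 M ζ hζ
    refine map_cupδ_single_symm_ne_zero lam hlam hp2 hLN (hζ.autToPow ℚ) (autToPow_bijective hζ) φ
      q _ ?_
    subst hqp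
    rw [phiLoc_unitsIncl_self, unitsRed_onePlus]
    intro h1
    have hord := orderOf_lam_one_add lam hlam hp2
    rw [h1, orderOf_one, pow_one] at hord
    exact q.2.one_lt.ne hord

end Wild

end Fermat.Agent.S55lib.LocalH
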