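/-
S55lib / LocalH / K9Gen (helper6).
(K9-III) at an ARBITRARY finite Galois level `L ∋ ζ_{p^(m+1)}`: the classes
`k9Gen lam hζ q y := y ∪ δ(chiM lam hζ) ∈ H²(Aut L, J_q(L))` (lead's `Places.chiM`) form a family
compatible with inflation, and are `p`-torsion.
* `jqInclRep φ r hr : Rep.res r (JqRep q L) ⟶ JqRep q L'` for `φ : L →ₐ[ℚ] L'` and any
  "restriction" `r : Aut L' →* Aut L` (`hr : φ (r σ x) = σ (φ x)`);
* `chiM_comp` : `chiM lam hζ (r σ) = chiM lam hζ' σ` for `ζ' = φ ζ`;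
* `map_k9Gen` (compat): `map r (jqInclRep φ r hr) 2 (k9Gen L) = k9Gen L'`;
* `nsmul_k9Gen_tame`, `nsmul_k9Gen_wild` (tors at every level).
-/
import Mathlib
import Fermat.Agent.S55lib.LocalH.K9Final
import Fermat.Agent.S55lib.Places.CycloClass

set_option autoImplicit false
set_option linter.unusedSectionVars false
set_option linter.style.haveILetI false

noncomputable section

namespace Fermat.Agent.S55lib.LocalH

open Fermat.Agent.S55lib Fermat.Agent.S55lib.Recip Fermat.Agent.S55lib.Places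
  Fermat.Agent.S55lib.CycloArith Fermat.Agent.S55lib.Dev groupCohomology CategoryTheory

section Incl

variable {q : ℕ} [Fact q.Prime] {L L' : Type} [Field L] [Field L'] [Algebra ℚ L] [Algebra ℚ L']
  (φ : L →ₐ[ℚ] L') (r : (L' ≃ₐ[ℚ] L') →* (L ≃ₐ[ℚ] L))
  (hr : ∀ (σ : L' ≃ₐ[ℚ] L') (x : L), φ (r σ x) = σ (φ x))

include hr in
theorem Jq_incl_smul (σ : L' ≃ₐ[ℚ] L') (f : Jq q L) :
    Jq.incl φ (r σ • f) = σ • Jq.incl φ f := by
  apply Subtype.ext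
  funext ι
  have h1 : (Emb.res φ ι).comp ((r σ : L ≃ₐ[ℚ] L) : L →ₐ[ℚ] L) =
      Emb.res φ (ι.comp ((σ : L' ≃ₐ[ℚ] L') : L' →ₐ[ℚ] L')) := by
    apply AlgHom.ext
    intro x
    show ι (φ (r σ x)) = ι (σ (φ x))
    rw [hr]
  show f.1 _ = f.1 _
  rw [h1]

/-- `J_q(L) → J_q(L')` as a morphism of representations over a restriction map `r` -/
def jqInclRep : Rep.res r (JqRep q L) ⟶ JqRep q L' :=
  Rep.ofHom ⟨(AddMonoidHom.toIntLinearMap (MonoidHom.toAdditive (Jq.incl φ)) :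
      Additive (Jq q L) →ₗ[ℤ] Additive (Jq q L')), fun σ => by
    apply LinearMap.ext
    intro (f : Additive (Jq q L))
    exact congrArg Additive.ofMul (Jq_incl_smul φ r hr σ (Additive.toMul f))⟩

theorem jqInclRep_apply (f : Jq q L) :
    (jqInclRep φ r hr).hom (Additive.ofMul f : JqRep q L) = Additive.ofMul (Jq.incl φ f) := rfl

theorem jqIncl_ratJq (a : ℚ_[q]ˣ) : Jq.incl φ (ratJq L a) = ratJq L' a := by
  apply Subtype.ext
  funext ι
  rfl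

end Incl

section Chi

variable {p : ℕ} [hp : Fact p.Prime] {m : ℕ}
  (lam : (ZMod (p ^ (m + 1)))ˣ →* Multiplicative (ZMod (p ^ m)))
  {L L' : Type} [Field L] [Field L'] [Algebra ℚ L] [Algebra ℚ L']
  (φ : L →ₐ[ℚ] L') (r : (L' ≃ₐ[ℚ] L') →* (L ≃ₐ[ℚ] L))
  (hr : ∀ (σ : L' ≃ₐ[ℚ] L') (x : L), φ (r σ x) = σ (φ x))
  {ζ : L} (hζ : IsPrimitiveRoot ζ (p ^ (m + 1))) (hζ' : IsPrimitiveRoot (φ ζ) (p ^ (m + 1)))

include hr in
/-- the cyclotomic character is compatible with restriction -/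
theorem autToPow_comp (σ : L' ≃ₐ[ℚ] L') : hζ.autToPow ℚ (r σ) = hζ'.autToPow ℚ σ := by
  have h1 : ζ ^ ((hζ.autToPow ℚ (r σ) : (ZMod (p ^ (m + 1)))ˣ) : ZMod (p ^ (m + 1))).val = r σ ζ :=
    hζ.autToPow_spec ℚ (r σ)
  have h2 : σ (φ ζ) =
      (φ ζ) ^ ((hζ.autToPow ℚ (r σ) : (ZMod (p ^ (m + 1)))ˣ) : ZMod (p ^ (m + 1))).val := by
    rw [← hr, ← h1, map_pow]
  rw [autToPow_eq_natUnit hζ' σ _ h2]
  apply eq_natUnit_of_coe_eq
  rw [ZMod.natCast_zmod_val]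

include hr in
theorem chiM_comp (σ : L' ≃ₐ[ℚ] L') : chiM lam hζ (r σ) = chiM lam hζ' σ := by
  unfold chiM
  rw [autToPow_comp φ r hr hζ hζ' σ]

end Chi

section CupCongr

universe u

variable {k G : Type u} [CommRing k] [Group G] {A : Rep k G} {n : ℕ} [NeZero n]

theorem k9_cupδ_congr_chi {χ χ' : G → ZMod n} (hχ : ∀ g h, χ (g * h) = χ g + χ h)
    (hχ' : ∀ g h, χ' (g * h) = χ' g + χ' h) (h : χ = χ') {a a' : A} (ha : ∀ g : G, A.ρ g a = a)
    (ha' : ∀ g : G, A.ρ g a' = a') (haa : a = a') : cupδ χ hχ a ha = cupδ χ' hχ' a' ha' := by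
  subst h
  subst haa
  rfl

end CupCongr

section Gen

variable {p : ℕ} [hp : Fact p.Prime] {m : ℕ}
  (lam : (ZMod (p ^ (m + 1)))ˣ →* Multiplicative (ZMod (p ^ m)))

/-- the class `y ∪ δ(chiM) ∈ H²(Aut L, J_q(L))` at an arbitrary level `L ∋ ζ_{p^(m+1)}` -/
def k9Gen {L : Type} [Field L] [Algebra ℚ L] {ζ : L} (hζ : IsPrimitiveRoot ζ (p ^ (m + 1)))
    (q : ℕ) [Fact q.Prime] (y : ℚ_[q]ˣ) : H2 (JqRep q L) :=
  cupδ (A := JqRep q L) (chiM lam hζ) (chiM_mul lam hζ) (Additive.ofMul (ratJq L y))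
    (ratJq_invariant y)

variable {L L' : Type} [Field L] [Field L'] [Algebra ℚ L] [Algebra ℚ L']
  (φ : L →ₐ[ℚ] L') (r : (L' ≃ₐ[ℚ] L') →* (L ≃ₐ[ℚ] L))
  (hr : ∀ (σ : L' ≃ₐ[ℚ] L') (x : L), φ (r σ x) = σ (φ x))
  {ζ : L} (hζ : IsPrimitiveRoot ζ (p ^ (m + 1))) (hζ' : IsPrimitiveRoot (φ ζ) (p ^ (m + 1)))

/-- **compatibility with inflation**: `inf_{L → L'} (k9Gen L) = k9Gen L'` -/
theorem map_k9Gen (q : ℕ) [Fact q.Prime] (y : ℚ_[q]ˣ) :
    groupCohomology.map r (jqInclRep φ r hr) 2 (k9Gen lam hζ q y) = k9Gen lam hζ' q y := by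
  unfold k9Gen
  have e := map_cupδ (A := JqRep q L) (chiM_mul lam hζ) r (jqInclRep φ r hr)
    (Additive.ofMul (ratJq L y)) (ratJq_invariant y)
  rw [e]
  apply k9_cupδ_congr_chi
  · funext σ
    exact chiM_comp lam φ r hr hζ hζ' σ
  · rw [jqInclRep_apply, jqIncl_ratJq]
    rfl

end Gen

section Tors

variable {p : ℕ} [hp : Fact p.Prime] {m : ℕ}
  (lam : (ZMod (p ^ (m + 1)))ˣ →* Multiplicative (ZMod (p ^ m)))
  {L : Type} [Field L] [NumberField L] [IsGalois ℚ L] {ζ : L}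
  (hζ : IsPrimitiveRoot ζ (p ^ (m + 1)))

/-- the generator of the cyclotomic subfield `ℚ(ζ) ⊂ L` -/
def cycGenQ (ζ : L) : cycSub L ζ := ⟨ζ, IntermediateField.mem_adjoin_simple_self ℚ ζ⟩

include hζ in
theorem isPrimitiveRoot_cycGenQ : IsPrimitiveRoot (cycGenQ ζ) (p ^ (m + 1)) := by
  apply IsPrimitiveRoot.of_map_of_injective (f := (cycSub L ζ).val) _ (cycSub L ζ).val.injective
  exact hζ

/-- **tors at every level, `q ≠ p`**: `p • (q ∪ δχ) = 0` in `H²(Aut L, J_q(L))` for every Galois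
number field `L ∋ ζ_{p^(m+1)}`, `m = v_p(q^(p-1) - 1)`. -/
theorem nsmul_k9Gen_tame (hlam : Function.Surjective lam) (hp2 : p ≠ 2) {q : ℕ} [Fact q.Prime]
    (hqp : q ≠ p) (hm : padicValNat p (q ^ (p - 1) - 1) = m) :
    p • k9Gen lam hζ q (unifQ : ℚ_[q]ˣ) = 0 := by
  haveI := isCyclotomicExtension_cycSub L hζ
  haveI : IsGalois ℚ (cycSub L ζ) := IsCyclotomicExtension.isGalois {p ^ (m + 1)} ℚ _
  have hζE := isPrimitiveRoot_cycGenQ hζ
  let r : (L ≃ₐ[ℚ] L) →* (cycSub L ζ ≃ₐ[ℚ] cycSub L ζ) :=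
    AlgEquiv.restrictNormalHom (cycSub L ζ)
  have hr : ∀ (σ : L ≃ₐ[ℚ] L) (x : cycSub L ζ),
      (cycSub L ζ).val (r σ x) = σ ((cycSub L ζ).val x) :=
    fun σ x => AlgEquiv.restrictNormal_commutes σ (cycSub L ζ) x
  have hE := k9_local_tame_autToPow lam hlam hp2 hqp hm hζE (chiM lam hζE) (chiM_mul lam hζE)
    (fun _ => rfl)
  have hc : groupCohomology.map r (jqInclRep (cycSub L ζ).val r hr) 2
      (k9Gen lam hζE q (unifQ : ℚ_[q]ˣ)) = k9Gen lam hζ q (unifQ : ℚ_[q]ˣ) :=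
    map_k9Gen lam (cycSub L ζ).val r hr hζE hζ q (unifQ : ℚ_[q]ˣ)
  have hE1 : p • k9Gen lam hζE q (unifQ : ℚ_[q]ˣ) = 0 := hE.1
  calc p • k9Gen lam hζ q (unifQ : ℚ_[q]ˣ)
      = p • groupCohomology.map r (jqInclRep (cycSub L ζ).val r hr) 2
          (k9Gen lam hζE q (unifQ : ℚ_[q]ˣ)) := congrArg (fun w => p • w) hc.symm
    _ = groupCohomology.map r (jqInclRep (cycSub L ζ).val r hr) 2
          (p • k9Gen lam hζE q (unifQ : ℚ_[q]ˣ)) := (map_nsmul _ _ _).symm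
    _ = groupCohomology.map r (jqInclRep (cycSub L ζ).val r hr) 2 0 := congrArg _ hE1
    _ = 0 := map_zero _

/-- **tors at every level, general**: `p ^ m` kills every `y ∪ δχ` -/
theorem nsmul_k9Gen_pow {q : ℕ} [Fact q.Prime] (y : ℚ_[q]ˣ) : p ^ m • k9Gen lam hζ q y = 0 :=
  k9_local_wild (chiM lam hζ) (chiM_mul lam hζ) y

end Tors

section Global

variable {p : ℕ} [hp : Fact p.Prime] {m : ℕ}
  (lam : (ZMod (p ^ (m + 1)))ˣ →* Multiplicative (ZMod (p ^ m)))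
  {L : Type} [Field L] [NumberField L] [IsGalois ℚ L] {ζ : L}
  (hζ : IsPrimitiveRoot ζ (p ^ (m + 1)))

/-- the image of `k9Gen` in `H²(Aut L, C(L))` is lead's `cycloClass` of the idele `(y)_q` -/
theorem map_single_k9Gen (q : Nat.Primes) (y : ℚ_[(q : ℕ)]ˣ) :
    groupCohomology.map (MonoidHom.id (L ≃ₐ[ℚ] L)) (ideleSingleRep L q ≫ ideleToClassRep L) 2
        (k9Gen lam hζ (q : ℕ) y) =
      cycloClass lam L hζ (Idele.single q (ofRatJq (q : ℕ) y)) := by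
  unfold k9Gen cycloClass
  have e1 := map_cupδ (A := JqRep (q : ℕ) L) (chiM_mul lam hζ) (MonoidHom.id (L ≃ₐ[ℚ] L))
    (ideleSingleRep L q ≫ ideleToClassRep L) (Additive.ofMul (ratJq L y)) (ratJq_invariant y)
  have e2 := map_cupδ (A := ideleRep L) (chiM_mul lam hζ) (MonoidHom.id (L ≃ₐ[ℚ] L))
    (ideleToClassRep L) (inclQRep L (Idele.single q (ofRatJq (q : ℕ) y)))
    (inclQRep_invariant L (Idele.single q (ofRatJq (q : ℕ) y)))
  have e3 : (ideleSingleRep L q ≫ ideleToClassRep L).hom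
      (Additive.ofMul (ratJq L y) : JqRep (q : ℕ) L) =
      (ideleToClassRep L).hom (inclQRep L (Idele.single q (ofRatJq (q : ℕ) y))) := by
    unfold inclQRep inclQ
    rw [Idele.incl_single, Subsingleton.elim (IsScalarTower.toAlgHom ℚ ℚ L) (Algebra.ofId ℚ L)]
    rfl
  exact e1.trans ((cupδ_congr _ e3 _).trans e2.symm)

/-- **nz at every level**, from (ORD-all) (lead's target `orderOf_Phi_dvd_of_nsmul_cycloClass`,
helper2's `Recip/CycloInfl`) -/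
theorem map_single_k9Gen_ne_zero
    (hORD : ∀ (x : Idele ℚ) (k : ℕ), k • cycloClass lam L hζ x = 0 → orderOf (Phi p m lam x) ∣ k)
    (q : Nat.Primes) (y : ℚ_[(q : ℕ)]ˣ) (hne : phiLoc p m lam (q : ℕ) y ≠ 1) :
    groupCohomology.map (MonoidHom.id (L ≃ₐ[ℚ] L)) (ideleSingleRep L q ≫ ideleToClassRep L) 2
        (k9Gen lam hζ (q : ℕ) y) ≠ 0 := by
  intro h0
  rw [map_single_k9Gen] at h0
  have h1 := hORD (Idele.single q (ofRatJq (q : ℕ) y)) 1 (by rw [one_nsmul, h0])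
  have h2 : Phi p m lam (Idele.single q (ofRatJq (q : ℕ) y)) = 1 :=
    orderOf_eq_one_iff.mp (Nat.dvd_one.mp h1)
  rw [Phi_single, jqRat_ofRatJq] at h2
  exact hne h2

/-- `Φ_q(q) ≠ 1` for `q ≠ p`, `m = v_p(q^(p-1) - 1)` -/
theorem phiLoc_unifQ_ne_one (hlam : Function.Surjective lam) (hp2 : p ≠ 2) {q : ℕ}
    [hq : Fact q.Prime] (hqp : q ≠ p) (hm : padicValNat p (q ^ (p - 1) - 1) = m) :
    phiLoc p m lam q (unifQ : ℚ_[q]ˣ) ≠ 1 := by
  rw [phiLoc_unifQ_of_ne lam hqp]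
  intro h1
  have hpq : ¬ p ∣ q := by
    intro h
    exact hqp ((Nat.prime_dvd_prime_iff_eq hp.out hq.out).mp h).symm
  have hord := orderOf_lam_natUnit lam hlam hp2 hq.out.one_lt hpq (by rw [hm]; omega)
  rw [hm, Nat.add_sub_cancel_left, pow_one, inv_eq_one.mp h1, orderOf_one] at hord
  exact hp.out.one_lt.ne hord

/-- **(K9-III) at every level, `q ≠ p`**: tors and nz (the latter from (ORD-all)) -/
theorem k9Gen_tame (hlam : Function.Surjective lam) (hp2 : p ≠ 2)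
    (hORD : ∀ (x : Idele ℚ) (k : ℕ), k • cycloClass lam L hζ x = 0 → orderOf (Phi p m lam x) ∣ k)
    (q : Nat.Primes) (hqp : (q : ℕ) ≠ p) (hm : padicValNat p ((q : ℕ) ^ (p - 1) - 1) = m) :
    p • k9Gen lam hζ (q : ℕ) (unifQ : ℚ_[(q : ℕ)]ˣ) = 0 ∧
      groupCohomology.map (MonoidHom.id (L ≃ₐ[ℚ] L)) (ideleSingleRep L q ≫ ideleToClassRep L) 2
        (k9Gen lam hζ (q : ℕ) (unifQ : ℚ_[(q : ℕ)]ˣ)) ≠ 0 :=
  ⟨nsmul_k9Gen_tame lam hζ hlam hp2 hqp hm,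
    map_single_k9Gen_ne_zero lam hζ hORD q _ (phiLoc_unifQ_ne_one lam hlam hp2 hqp hm)⟩

end Global

section GlobalWild

variable {p : ℕ} [hp : Fact p.Prime]
  (lam : (ZMod (p ^ (1 + 1)))ˣ →* Multiplicative (ZMod (p ^ 1)))
  {L : Type} [Field L] [NumberField L] [IsGalois ℚ L] {ζ : L}
  (hζ : IsPrimitiveRoot ζ (p ^ (1 + 1)))

/-- `Φ_p(1 + p) ≠ 1` (`m = 1`) -/
theorem phiLoc_onePlus_ne_one (hlam : Function.Surjective lam) (hp2 : p ≠ 2) :
    phiLoc p 1 lam p (Places.unitsIncl (onePlus p)) ≠ 1 := by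
  rw [phiLoc_unitsIncl_self, unitsRed_onePlus]
  intro h1
  have hord := orderOf_lam_one_add lam hlam hp2
  rw [h1, orderOf_one, pow_one] at hord
  exact hp.out.one_lt.ne hord

/-- **(K9-III) at every level, `q = p`** (`m = 1`, `y = 1 + p`) -/
theorem k9Gen_wild (hlam : Function.Surjective lam) (hp2 : p ≠ 2)
    (hORD : ∀ (x : Idele ℚ) (k : ℕ), k • cycloClass lam L hζ x = 0 → orderOf (Phi p 1 lam x) ∣ k)
    (q : Nat.Primes) (hqp : (q : ℕ) = p) :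
    p • k9Gen lam hζ (q : ℕ) (Places.unitsIncl (onePlus (q : ℕ))) = 0 ∧
      groupCohomology.map (MonoidHom.id (L ≃ₐ[ℚ] L)) (ideleSingleRep L q ≫ ideleToClassRep L) 2
        (k9Gen lam hζ (q : ℕ) (Places.unitsIncl (onePlus (q : ℕ)))) ≠ 0 := by
  constructor
  · have h := nsmul_k9Gen_pow lam hζ (Places.unitsIncl (onePlus (q : ℕ)))
    rwa [pow_one] at h
  · refine map_single_k9Gen_ne_zero lam hζ hORD q _ ?_
    subst hqp
    exact phiLoc_onePlus_ne_one lam hlam hp2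

end GlobalWild

end Fermat.Agent.S55lib.LocalH
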