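/-
S55lib / LocalH / K9All (helper6).
**(K9-III) at EVERY finite Galois level `L ∋ ζ_{p^(m+1)}`, unconditional** (`p` odd):
`K9Gen` (family `k9Gen`, tors, compat) + helper2's (ORD-all) `Recip/CycloInfl`.
* `k9All_tame` (`q ≠ p`, `m = v_p(q^(p-1)-1)`, `y = q`), `k9All_wild` (`q = p`, `m = 1`, `y = 1 + p`):
  `p • k9Gen = 0` and the image of `k9Gen` in `H²(Aut L, C(L))` is nonzero.
-/
import Mathlib
import Fermat.Agent.S55lib.LocalH.K9Gen
import Fermat.Agent.S55lib.Recip.CycloInfl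

set_option autoImplicit false
set_option linter.unusedSectionVars false

noncomputable section

namespace Fermat.Agent.S55lib.LocalH

open Fermat.Agent.S55lib Fermat.Agent.S55lib.Recip Fermat.Agent.S55lib.Places
  Fermat.Agent.S55lib.Dev groupCohomology CategoryTheory

section Tame

variable {p : ℕ} [hp : Fact p.Prime] {m : ℕ}
  (lam : (ZMod (p ^ (m + 1)))ˣ →* Multiplicative (ZMod (p ^ m)))
  {L : Type} [Field L] [NumberField L] [IsGalois ℚ L] {ζ : L}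
  (hζ : IsPrimitiveRoot ζ (p ^ (m + 1)))

/-- **(K9-III) at every level, `q ≠ p`** -/
theorem k9All_tame (hlam : Function.Surjective lam) (hp2 : p ≠ 2) (q : Nat.Primes)
    (hqp : (q : ℕ) ≠ p) (hm : padicValNat p ((q : ℕ) ^ (p - 1) - 1) = m) :
    p • k9Gen lam hζ (q : ℕ) (unifQ : ℚ_[(q : ℕ)]ˣ) = 0 ∧
      groupCohomology.map (MonoidHom.id (L ≃ₐ[ℚ] L)) (ideleSingleRep L q ≫ ideleToClassRep L) 2
        (k9Gen lam hζ (q : ℕ) (unifQ : ℚ_[(q : ℕ)]ˣ)) ≠ 0 :=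
  k9Gen_tame lam hζ hlam hp2
    (fun x k hk => orderOf_Phi_dvd_of_nsmul_cycloClass lam hp2 hlam L hζ x k hk) q hqp hm

end Tame

section Wild

variable {p : ℕ} [hp : Fact p.Prime]
  (lam : (ZMod (p ^ (1 + 1)))ˣ →* Multiplicative (ZMod (p ^ 1)))
  {L : Type} [Field L] [NumberField L] [IsGalois ℚ L] {ζ : L}
  (hζ : IsPrimitiveRoot ζ (p ^ (1 + 1)))

/-- **(K9-III) at every level, `q = p`** -/
theorem k9All_wild (hlam : Function.Surjective lam) (hp2 : p ≠ 2) (q : Nat.Primes)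
    (hqp : (q : ℕ) = p) :
    p • k9Gen lam hζ (q : ℕ) (Places.unitsIncl (onePlus (q : ℕ))) = 0 ∧
      groupCohomology.map (MonoidHom.id (L ≃ₐ[ℚ] L)) (ideleSingleRep L q ≫ ideleToClassRep L) 2
        (k9Gen lam hζ (q : ℕ) (Places.unitsIncl (onePlus (q : ℕ)))) ≠ 0 :=
  k9Gen_wild lam hζ hlam hp2
    (fun x k hk => orderOf_Phi_dvd_of_nsmul_cycloClass lam hp2 hlam L hζ x k hk) q hqp

end Wild

end Fermat.Agent.S55lib.LocalH
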