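/-
S55lib / LocalH / K9Loc (helper6).
Local component of a global `cupδ` class: for `L/ℚ` normal, `ι : Emb q L`,
`locGal ι : H²(Aut(L/ℚ), J_q(L)) → H²(Gal(L_q/ℚ_q), L_q^×)` (helper9's `loc₂` followed by the
transport along `decompEquiv ι`), injective when the target is finite, and
`locGal ι (x̃ ∪ δχ) = x̃(ι) ∪ δ(χ ∘ decompEquiv ι)`.
-/
import Mathlib
import Fermat.Agent.S55lib.Recip.LocalBridge
import Fermat.Agent.S55lib.Recip.CupDelta

set_option autoImplicit false
set_option linter.unusedSectionVars false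
set_option linter.style.haveILetI false

noncomputable section

namespace Fermat.Agent.S55lib.LocalH

open Fermat.Agent.S55lib Fermat.Agent.S55lib.Recip groupCohomology CategoryTheory

variable {q : ℕ} [Fact q.Prime] {L : Type} [Field L] [Algebra ℚ L] [Normal ℚ L]

/-- `H²(D_q, L_q^×) ≅ H²(Gal(L_q/ℚ_q), L_q^×)` along `decompEquiv ι` -/
def locIso (ι : Emb q L) :
    H2 (locRep ι) ≅ H2 (Rep.ofAlgebraAutOnUnits ℚ_[q] (localField q L ι)) :=
  groupCohomology.mapIso (decompEquiv ι).symm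
    (LinearEquiv.refl ℤ (Rep.ofAlgebraAutOnUnits ℚ_[q] (localField q L ι)).V) (fun _ => rfl) 2

/-- the local component map into the cohomology of the local Galois group -/
def locGal (ι : Emb q L) :
    H2 (JqRep q L) →ₗ[ℤ] H2 (Rep.ofAlgebraAutOnUnits ℚ_[q] (localField q L ι)) :=
  (locIso ι).hom.hom ∘ₗ (loc₂ ι).hom

theorem locGal_apply (ι : Emb q L) (x : H2 (JqRep q L)) :
    locGal ι x = (locIso ι).hom (loc₂ ι x) := rfl

theorem locIso_hom_bijective (ι : Emb q L) : Function.Bijective (locIso ι).hom :=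
  ConcreteCategory.bijective_of_isIso (locIso ι).hom

theorem locGal_bijective (ι : Emb q L)
    [Finite (H2 (Rep.ofAlgebraAutOnUnits ℚ_[q] (localField q L ι)))] :
    Function.Bijective (locGal ι) := by
  haveI : Finite (H2 (locRep ι)) :=
    Finite.of_equiv _ (Equiv.ofBijective _ (locIso_hom_bijective ι)).symm
  exact (locIso_hom_bijective ι).comp (loc₂_bijective ι)

/-- the restriction of a character of `Aut(L/ℚ)` to the local Galois group -/
def locChar (ι : Emb q L) {n : ℕ} (χ : (L ≃ₐ[ℚ] L) → ZMod n) :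
    (localField q L ι ≃ₐ[ℚ_[q]] localField q L ι) → ZMod n :=
  fun σ => χ ((decompEquiv ι σ : decomp ι) : L ≃ₐ[ℚ] L)

theorem locChar_mul (ι : Emb q L) {n : ℕ} {χ : (L ≃ₐ[ℚ] L) → ZMod n}
    (hχ : ∀ g h, χ (g * h) = χ g + χ h)
    (σ τ : localField q L ι ≃ₐ[ℚ_[q]] localField q L ι) :
    locChar ι χ (σ * τ) = locChar ι χ σ + locChar ι χ τ := by
  unfold locChar
  rw [map_mul, Subgroup.coe_mul, hχ]

/-- the `ι`-component of an invariant element of `J_q(L)` is Galois invariant -/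
theorem evRep_invariant (ι : Emb q L) (x : JqRep q L) (hx : ∀ g, (JqRep q L).ρ g x = x)
    (σ : localField q L ι ≃ₐ[ℚ_[q]] localField q L ι) :
    (Rep.ofAlgebraAutOnUnits ℚ_[q] (localField q L ι)).ρ σ ((evRep ι).hom x) =
      (evRep ι).hom x := by
  have h := Rep.hom_comm_apply (evRep ι) (decompEquiv ι σ) x
  have h2 : (Rep.res (decomp ι).subtype (JqRep q L)).ρ (decompEquiv ι σ) x = x :=
    hx ((decompEquiv ι σ : decomp ι) : L ≃ₐ[ℚ] L)
  rw [h2] at h
  have h3 : (locRep ι).ρ (decompEquiv ι σ) ((evRep ι).hom x) =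
      (Rep.ofAlgebraAutOnUnits ℚ_[q] (localField q L ι)).ρ
        ((decompEquiv ι).symm (decompEquiv ι σ)) ((evRep ι).hom x) := rfl
  rw [h3, MulEquiv.symm_apply_apply] at h
  exact h.symm

/-- **local component of `x ∪ δχ`** -/
theorem locGal_cupδ (ι : Emb q L) {n : ℕ} [NeZero n] (χ : (L ≃ₐ[ℚ] L) → ZMod n)
    (hχ : ∀ g h, χ (g * h) = χ g + χ h) (x : JqRep q L) (hx : ∀ g, (JqRep q L).ρ g x = x) :
    locGal ι (cupδ χ hχ x hx) =
      cupδ (locChar ι χ) (locChar_mul ι hχ) ((evRep ι).hom x) (evRep_invariant ι x hx) := by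
  rw [locGal_apply]
  unfold loc₂
  rw [map_cupδ]
  unfold locIso
  rw [mapIso_hom, map_cupδ]
  rfl

end Fermat.Agent.S55lib.LocalH
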