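/-
S55lib / LocalH / K9TameInv (helper6).
(K9-III), local part at `q ∤ N`: for `L` an `N`-th cyclotomic field, `ι : Emb q L`:
* `exists_isUnramified_localField_cyclotomic` : `L_q/ℚ_q` is unramified and its Frobenius
  corresponds to `σ_q : ζ ↦ ζ ^ q` (helper2's `sigmaNat N L q`) under `decompEquiv ι`;
* `inv_locGal_cupδ_tame` : `inv (locGal ι (x ∪ δχ)) = ord(x_ι) · χ(σ_q).val / n`.
-/
import Mathlib
import Fermat.Agent.S55lib.LocalH.K9Tame
import Fermat.Agent.S55lib.LocalH.K9Loc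
import Fermat.Agent.S55lib.LocalUnr.InvUnr
import Fermat.Agent.S55lib.FirstIneq.CycloArith
import Fermat.Agent.S55lib.Recip.ArtinPhi
import Fermat.Agent.S55lib.LocalH.Normed

set_option autoImplicit false
set_option linter.unusedSectionVars false
set_option linter.style.haveILetI false

noncomputable section

namespace Fermat.Agent.S55lib.LocalH

open Fermat.Agent.S55lib Fermat.Agent.S55lib.Recip Fermat.Agent.S55lib.LocalUnr
  Fermat.Agent.S55lib.Places Fermat.Agent.S55lib.CycloArith groupCohomology CategoryTheory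

section General

variable {q : ℕ} [hq : Fact q.Prime] {L : Type} [Field L] [Algebra ℚ L]

/-- the image of `a ∈ ℚ_qˣ` in `J_q(L)` (constant function) -/
def ratJq (L : Type) [Field L] [Algebra ℚ L] (a : ℚ_[q]ˣ) : Jq q L :=
  Jq.incl (Algebra.ofId ℚ L) (ofRatJq q a)

theorem ratJq_apply (a : ℚ_[q]ˣ) (ι : Emb q L) :
    (((ratJq L a).1 ι : (PadicAlgCl q)ˣ) : PadicAlgCl q) =
      algebraMap ℚ_[q] (PadicAlgCl q) (a : ℚ_[q]) := rfl

theorem smul_ratJq (γ : L ≃ₐ[ℚ] L) (a : ℚ_[q]ˣ) : γ • ratJq L a = ratJq L a := by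
  ext ι
  rfl

theorem ratJq_invariant (a : ℚ_[q]ˣ) (γ : L ≃ₐ[ℚ] L) :
    (JqRep q L).ρ γ (Additive.ofMul (ratJq L a)) = Additive.ofMul (ratJq L a) :=
  congrArg Additive.ofMul (smul_ratJq γ a)

theorem ordRep_evRep_ratJq [FiniteDimensional ℚ L] [IsGalois ℚ L] (ι : Emb q L) (h : IsUnramified ℚ_[q] (localField q L ι))
    (a : ℚ_[q]ˣ) :
    ordRep ℚ_[q] (localField q L ι) ((evRep ι).hom (Additive.ofMul (ratJq L a))) =
      (a : ℚ_[q]).valuation := by
  rw [ordRep_apply, ← ord_algebraMap_of_isUnramified (localField q L ι) h (a : ℚ_[q]) a.ne_zero]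
  congr 1

end General

variable {q : ℕ} [hq : Fact q.Prime] {N : ℕ} [NeZero N] {L : Type} [Field L] [NumberField L]
  [IsCyclotomicExtension {N} ℚ L] [IsGalois ℚ L]

/-- `L_q/ℚ_q` is unramified for `q ∤ N`, with Frobenius `σ_q : ζ ↦ ζ ^ q` -/
theorem exists_isUnramified_localField_cyclotomic (hN : ¬ q ∣ N) (ι : Emb q L) :
    ∃ h : IsUnramified ℚ_[q] (localField q L ι),
      ((decompEquiv ι h.frob : decomp ι) : L ≃ₐ[ℚ] L) = sigmaNat N L q := by
  obtain ⟨ζ, hζ⟩ := IsCyclotomicExtension.exists_isPrimitiveRoot ℚ L (Set.mem_singleton N)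
    (NeZero.ne N)
  have hβ : IsPrimitiveRoot (ι ζ) N := hζ.map_of_injective ι.injective
  obtain ⟨h, hfrob⟩ := exists_isUnramified_of_eq_adjoin_root hN hβ (localField q L ι)
    (localField_cyclotomic_eq hζ ι)
  refine ⟨h, ?_⟩
  apply eq_sigmaNat hζ
  have h1 : ι (((decompEquiv ι h.frob : decomp ι) : L ≃ₐ[ℚ] L) ζ) = ι (ζ ^ q) := by
    rw [coe_decompEquiv, apply_locToAut, hfrob, map_pow]
  exact ι.injective h1

/-- **tame local invariant of `a ∪ δχ`**: `inv_q (a ∪ δχ) = v_q(a) · χ(σ_q).val / n` -/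
theorem inv_locGal_cupδ_tame (ι : Emb q L) (h : IsUnramified ℚ_[q] (localField q L ι))
    (hfrob : ((decompEquiv ι h.frob : decomp ι) : L ≃ₐ[ℚ] L) = sigmaNat N L q)
    {n : ℕ} [NeZero n] (χ : (L ≃ₐ[ℚ] L) → ZMod n) (hχ : ∀ g h, χ (g * h) = χ g + χ h)
    (a : ℚ_[q]ˣ) :
    h.inv (locGal ι (cupδ χ hχ (Additive.ofMul (ratJq L a)) (ratJq_invariant a))) =
      ((((a : ℚ_[q]).valuation : ℚ) * (χ (sigmaNat N L q)).val / n : ℚ) : AddCircle (1 : ℚ)) := by
  rw [locGal_cupδ, h.inv_cupδ_general, ordRep_evRep_ratJq ι h a]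
  unfold locChar
  rw [hfrob]

omit hq in
theorem nsmul_coe_div_eq_zero_iff {n : ℕ} [NeZero n] (t : ZMod n) (k : ℕ) :
    k • ((((1 : ℤ) : ℚ) * (t.val : ℚ) / n : ℚ) : AddCircle (1 : ℚ)) = 0 ↔ k • t = 0 := by
  have h1 : ((((1 : ℤ) : ℚ) * (t.val : ℚ) / n : ℚ) : AddCircle (1 : ℚ)) = zmodToQZ n t := by
    have h2 := zmodToQZ_intCast n (t.val : ℤ)
    rw [Int.cast_natCast, ZMod.natCast_zmod_val] at h2
    rw [h2, Int.cast_one, one_mul, Int.cast_natCast]
  rw [h1, ← map_nsmul, map_eq_zero_iff _ (zmodToQZ_injective n)]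

/-- the local Galois cohomology `H²(Gal(E/ℚ_q), Eˣ)` of an unramified extension is finite -/
theorem finite_H2_of_isUnramified (E : IntermediateField ℚ_[q] (PadicAlgCl q))
    [FiniteDimensional ℚ_[q] E] [IsGalois ℚ_[q] E] (h : IsUnramified ℚ_[q] E) :
    Finite (H2 (Rep.ofAlgebraAutOnUnits ℚ_[q] E)) := by
  haveI := h.isCyclic
  have h1 := normed_card_H2_of_isCyclic (K := ℚ_[q]) (L := E) (norm_gal_eq E ℚ_[q])
  apply Nat.finite_of_card_ne_zero
  rw [h1]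
  exact Nat.card_pos.ne'

/-- **(K9-III), local order at a tame prime**: for `L` an `N`-th cyclotomic field, `q ∤ N`,
`σ ∈ Aut(L/ℚ)` with `σ ζ = ζ ^ q` and any additive character `χ`, the class `q ∪ δχ` of
`H²(Aut(L/ℚ), J_q(L))` is killed by `k` iff `k • χ σ = 0`. -/
theorem nsmul_cupδ_ratJq_unifQ_eq_zero_iff (hN : ¬ q ∣ N) {ζ : L} (hζ : IsPrimitiveRoot ζ N)
    (σ : L ≃ₐ[ℚ] L) (hσ : σ ζ = ζ ^ q) {n : ℕ} [NeZero n] (χ : (L ≃ₐ[ℚ] L) → ZMod n)
    (hχ : ∀ g h, χ (g * h) = χ g + χ h) (k : ℕ) :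
    k • cupδ (A := JqRep q L) χ hχ (Additive.ofMul (ratJq L (unifQ : ℚ_[q]ˣ)))
        (ratJq_invariant unifQ) = 0 ↔
      k • χ σ = 0 := by
  obtain ⟨ι, -⟩ := Emb.res_surjective (q := q) (Algebra.ofId ℚ L) (Algebra.ofId ℚ (PadicAlgCl q))
  obtain ⟨h, hfrob⟩ := exists_isUnramified_localField_cyclotomic (N := N) hN ι
  haveI := finite_H2_of_isUnramified (localField q L ι) h
  have hσ' : σ = sigmaNat N L q := eq_sigmaNat hζ σ q hσ
  have hinj : Function.Injective (fun x => h.inv (locGal ι x)) :=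
    h.inv_injective.comp (locGal_bijective ι).1
  have hval : ((unifQ : ℚ_[q]ˣ) : ℚ_[q]).valuation = 1 := by
    rw [coe_unifQ, Padic.valuation_p]
  have hT := inv_locGal_cupδ_tame ι h hfrob χ hχ (unifQ : ℚ_[q]ˣ)
  rw [hval, ← hσ'] at hT
  rw [← nsmul_coe_div_eq_zero_iff (χ σ) k, ← hT, ← map_nsmul, ← map_nsmul]
  constructor
  · intro h0
    rw [h0, map_zero, map_zero]
  · intro h0
    apply hinj
    show h.inv (locGal ι _) = h.inv (locGal ι 0)
    rw [h0, map_zero, map_zero]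

end Fermat.Agent.S55lib.LocalH
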